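/-
S27 / (BC): the constant field extension of a function field, as a PREDICATE (interface file of
the layer; deputy: helper88).

`IsConstExt K F Ω FΩ` : the field `FΩ`, an extension of both `F` and `Ω ⊇ K`, is the constant
field extension `F·Ω` of `F/K`:
* `comm`  : the two structure maps agree on `K`;
* `indep` : `K`-linearly independent families of `F` are `Ω`-linearly independent in `FΩ`
            (`F` and `Ω` are linearly disjoint over `K`);
* `frac`  : every element of `FΩ` is a quotient of two `Ω`-linear combinations of elements of `F`.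

Every theorem of the layer is stated for an arbitrary `FΩ` with this predicate (no concrete
model in consumer-facing statements); `K`, `F`, `Ω`, `FΩ` live in four independent universes.
-/
import Mathlib

set_option autoImplicit false

namespace Fermat.Agent.S27P.BC

universe u v w x

/-- `FΩ` is the constant field extension of `F/K` to `Ω`. -/
structure IsConstExt (K : Type u) (F : Type v) (Ω : Type w) (FΩ : Type x) [Field K] [Field F]
    [Field Ω] [Field FΩ] [Algebra K F] [Algebra K Ω] [Algebra F FΩ] [Algebra Ω FΩ] : Prop where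
  /-- the two structure maps agree on `K` -/
  comm : ∀ a : K, algebraMap F FΩ (algebraMap K F a) = algebraMap Ω FΩ (algebraMap K Ω a)
  /-- `K`-linearly independent elements of `F` are `Ω`-linearly independent in `FΩ` -/
  indep : ∀ (n : ℕ) (b : Fin n → F), LinearIndependent K b →
    LinearIndependent Ω (fun i => algebraMap F FΩ (b i))
  /-- `FΩ` is the field of fractions of the `Ω`-span of `F` -/
  frac : ∀ z : FΩ, ∃ (n : ℕ) (f : Fin n → F) (c d : Fin n → Ω),
    (∑ i, d i • algebraMap F FΩ (f i)) ≠ 0 ∧
      z * (∑ i, d i • algebraMap F FΩ (f i)) = ∑ i, c i • algebraMap F FΩ (f i)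

namespace IsConstExt

variable {K : Type u} {F : Type v} {Ω : Type w} {FΩ : Type x} [Field K] [Field F]
  [Field Ω] [Field FΩ] [Algebra K F] [Algebra K Ω] [Algebra F FΩ] [Algebra Ω FΩ]

/-- `indep` for an arbitrary index type. -/
theorem linearIndependent (h : IsConstExt K F Ω FΩ) {ι : Type*} {b : ι → F}
    (hb : LinearIndependent K b) : LinearIndependent Ω (fun i => algebraMap F FΩ (b i)) := by
  classical
  rw [linearIndependent_iff_finset_linearIndependent]
  intro s
  have hs : LinearIndependent K (fun i : s => b i) :=
    hb.comp (fun i : s => (i : ι)) Subtype.val_injective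
  have e := (Fintype.equivFin s)
  have h1 : LinearIndependent K (fun j : Fin (Fintype.card s) => b (e.symm j)) :=
    hs.comp e.symm e.symm.injective
  have h2 := h.indep _ _ h1
  have h3 := h2.comp e e.injective
  have e3 : ((fun j : Fin (Fintype.card s) => algebraMap F FΩ (b (e.symm j))) ∘ e) =
      fun i : s => algebraMap F FΩ (b i) := by
    funext i
    simp [Function.comp]
  rw [e3] at h3
  exact h3

/-- The `Ω`-span of `F` in `FΩ`: the image of `F ⊗[K] Ω`. -/
def span (K : Type u) (F : Type v) (Ω : Type w) (FΩ : Type x) [Field K] [Field F]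
    [Field Ω] [Field FΩ] [Algebra K F] [Algebra K Ω] [Algebra F FΩ] [Algebra Ω FΩ] :
    Submodule Ω FΩ :=
  Submodule.span Ω (Set.range (algebraMap F FΩ))

theorem algebraMap_mem_span (f : F) : algebraMap F FΩ f ∈ span K F Ω FΩ :=
  Submodule.subset_span ⟨f, rfl⟩

/-- `frac`, in terms of the span. -/
theorem exists_div (h : IsConstExt K F Ω FΩ) (z : FΩ) :
    ∃ a ∈ span K F Ω FΩ, ∃ b ∈ span K F Ω FΩ, b ≠ 0 ∧ z * b = a := by
  obtain ⟨n, f, c, d, hd, e⟩ := h.frac z
  refine ⟨_, ?_, _, ?_, hd, e⟩
  · exact Submodule.sum_mem _ fun i _ => Submodule.smul_mem _ _ (algebraMap_mem_span (K := K) _)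
  · exact Submodule.sum_mem _ fun i _ => Submodule.smul_mem _ _ (algebraMap_mem_span (K := K) _)

end IsConstExt

end Fermat.Agent.S27P.BC
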