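/-
S27 / (BC-2): basic structure of a constant field extension `IsConstExt K F Ω FΩ`.

* `tensorAlgHom h : Ω ⊗[K] F →ₐ[Ω] FΩ`, injective, with range the `Ω`-span of `F`;
  `FΩ` is the field of fractions of `Ω ⊗[K] F`;
* `ringHom_ext` : a ring homomorphism out of `FΩ` is determined by its values on `F` and `Ω`;
* `autHom h : (Ω ≃ₐ[K] Ω) →* RingAut FΩ` : every `K`-automorphism `σ` of `Ω` extends uniquely
  to an automorphism of `FΩ` which is the identity on `F`;
* `semilinearAut h : (Ω ≃ₐ[K] Ω) →* SemilinearAut Ω FΩ` : the same, in the vocabulary of the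
  Prelude (so that `Ω ≃ₐ[K] Ω` acts on places, divisors and `Pic0` of `FΩ/Ω`);
* `mulSemiringAction h` : the induced action on `FΩ` (reducible def, not an instance).
-/
import Mathlib
import Fermat.Agent.S27P.BC.Defs
import Fermat.Prelude.Def_AlgebraicCurve_BaseChangeGalois

set_option autoImplicit false

open scoped TensorProduct

namespace Fermat.Agent.S27P.BC

namespace IsConstExt

universe u v w x

variable {K : Type u} {F : Type v} {Ω : Type w} {FΩ : Type x} [Field K] [Field F]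
  [Field Ω] [Field FΩ] [Algebra K F] [Algebra K Ω] [Algebra F FΩ] [Algebra Ω FΩ]

/-- The canonical `Ω`-algebra homomorphism `Ω ⊗[K] F → FΩ`, `c ⊗ f ↦ c · f`. -/
noncomputable def tensorAlgHom (h : IsConstExt K F Ω FΩ) : Ω ⊗[K] F →ₐ[Ω] FΩ :=
  letI : Algebra K FΩ := ((algebraMap Ω FΩ).comp (algebraMap K Ω)).toAlgebra
  haveI : IsScalarTower K Ω FΩ := IsScalarTower.of_algebraMap_eq (fun _ => rfl)
  Algebra.TensorProduct.lift (Algebra.ofId Ω FΩ)
    ({ (algebraMap F FΩ) with commutes' := fun a => h.comm a } : F →ₐ[K] FΩ)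
    (fun _ _ => Commute.all _ _)

theorem tensorAlgHom_tmul (h : IsConstExt K F Ω FΩ) (c : Ω) (f : F) :
    tensorAlgHom h (c ⊗ₜ[K] f) = algebraMap Ω FΩ c * algebraMap F FΩ f := rfl

theorem tensorAlgHom_one_tmul (h : IsConstExt K F Ω FΩ) (f : F) :
    tensorAlgHom h ((1 : Ω) ⊗ₜ[K] f) = algebraMap F FΩ f := by
  rw [tensorAlgHom_tmul, map_one, one_mul]

theorem tensorAlgHom_tmul_one (h : IsConstExt K F Ω FΩ) (c : Ω) :
    tensorAlgHom h (c ⊗ₜ[K] (1 : F)) = algebraMap Ω FΩ c := by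
  rw [tensorAlgHom_tmul, map_one, mul_one]

/-- `Ω ⊗[K] F → FΩ` is injective (linear disjointness). -/
theorem tensorAlgHom_injective (h : IsConstExt K F Ω FΩ) :
    Function.Injective (tensorAlgHom h) := by
  classical
  let b := Module.Basis.ofVectorSpace K F
  let B := Algebra.TensorProduct.basis Ω b
  have hli : LinearIndependent Ω (fun i => algebraMap F FΩ (b i)) :=
    h.linearIndependent b.linearIndependent
  have key : (tensorAlgHom h).toLinearMap =
      (Finsupp.linearCombination Ω (fun i => algebraMap F FΩ (b i))) ∘ₗ B.repr.toLinearMap := by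
    apply B.ext
    intro i
    simp only [B, Algebra.TensorProduct.basis_apply, AlgHom.toLinearMap_apply,
      tensorAlgHom_one_tmul, LinearMap.coe_comp, LinearEquiv.coe_coe, Function.comp_apply]
    rw [← Algebra.TensorProduct.basis_apply (A := Ω) b i, Module.Basis.repr_self,
      Finsupp.linearCombination_single, one_smul]
  intro t s hts
  have h1 : (tensorAlgHom h).toLinearMap t = (tensorAlgHom h).toLinearMap s := hts
  rw [key] at h1
  exact B.repr.injective (hli h1)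

/-- The range of `Ω ⊗[K] F → FΩ` is the `Ω`-span of `F`. -/
theorem range_tensorAlgHom (h : IsConstExt K F Ω FΩ) :
    LinearMap.range (tensorAlgHom h).toLinearMap = span K F Ω FΩ := by
  apply le_antisymm
  · rintro _ ⟨t, rfl⟩
    induction t using TensorProduct.induction_on with
    | zero => simp
    | tmul c f =>
      rw [AlgHom.toLinearMap_apply, tensorAlgHom_tmul, ← Algebra.smul_def]
      exact Submodule.smul_mem _ _ (algebraMap_mem_span (K := K) f)
    | add t s ht hs =>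
      rw [map_add]
      exact Submodule.add_mem _ ht hs
  · refine Submodule.span_le.2 ?_
    rintro _ ⟨f, rfl⟩
    exact ⟨1 ⊗ₜ f, tensorAlgHom_one_tmul h f⟩

theorem mem_span_iff (h : IsConstExt K F Ω FΩ) (z : FΩ) :
    z ∈ span K F Ω FΩ ↔ ∃ t : Ω ⊗[K] F, tensorAlgHom h t = z := by
  rw [← range_tensorAlgHom h]
  rfl

/-- A ring homomorphism from `FΩ` to a domain is determined by its values on `F` and on `Ω`. -/
theorem ringHom_ext (h : IsConstExt K F Ω FΩ) {R : Type*} [CommRing R] [IsDomain R]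
    (φ ψ : FΩ →+* R) (hF : ∀ f : F, φ (algebraMap F FΩ f) = ψ (algebraMap F FΩ f))
    (hΩ : ∀ c : Ω, φ (algebraMap Ω FΩ c) = ψ (algebraMap Ω FΩ c)) : φ = ψ := by
  have hspan : ∀ a ∈ span K F Ω FΩ, φ a = ψ a := by
    intro a ha
    induction ha using Submodule.span_induction with
    | mem y hy =>
      obtain ⟨f, rfl⟩ := hy
      exact hF f
    | zero => simp
    | add y z _ _ hy hz => rw [map_add, map_add, hy, hz]
    | smul c y _ hy => rw [Algebra.smul_def, map_mul, map_mul, hΩ, hy]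
  ext z
  obtain ⟨a, ha, b, hb, hb0, e⟩ := h.exists_div z
  have h1 : φ z * φ b = ψ z * φ b := by
    rw [← map_mul, e, hspan a ha, hspan b hb, ← map_mul, e]
  have h2 : φ b ≠ 0 := by
    rw [Ne, map_eq_zero_iff φ φ.injective]
    exact hb0
  exact mul_right_cancel₀ h2 h1

/-- `FΩ` is the field of fractions of `Ω ⊗[K] F`. -/
theorem isFractionRing (h : IsConstExt K F Ω FΩ) :
    letI : Algebra (Ω ⊗[K] F) FΩ := (tensorAlgHom h).toRingHom.toAlgebra
    IsFractionRing (Ω ⊗[K] F) FΩ := by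
  let _ : Algebra (Ω ⊗[K] F) FΩ := (tensorAlgHom h).toRingHom.toAlgebra
  have : FaithfulSMul (Ω ⊗[K] F) FΩ :=
    (faithfulSMul_iff_algebraMap_injective _ _).2 (tensorAlgHom_injective h)
  apply IsFractionRing.of_field
  intro z
  obtain ⟨a, ha, b, hb, hb0, e⟩ := h.exists_div z
  obtain ⟨s, rfl⟩ := (mem_span_iff h a).1 ha
  obtain ⟨t, rfl⟩ := (mem_span_iff h b).1 hb
  refine ⟨s, t, ?_⟩
  show z = tensorAlgHom h s / tensorAlgHom h t
  rw [eq_div_iff hb0, e]

/-- The extension of `σ : Ω ≃ₐ[K] Ω` to `FΩ` (identity on `F`). -/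
noncomputable def autRingEquiv (h : IsConstExt K F Ω FΩ) (σ : Ω ≃ₐ[K] Ω) : FΩ ≃+* FΩ :=
  letI : Algebra (Ω ⊗[K] F) FΩ := (tensorAlgHom h).toRingHom.toAlgebra
  haveI : IsFractionRing (Ω ⊗[K] F) FΩ := isFractionRing h
  IsFractionRing.ringEquivOfRingEquiv
    (Algebra.TensorProduct.congr σ (AlgEquiv.refl : F ≃ₐ[K] F)).toRingEquiv

theorem autRingEquiv_tensorAlgHom (h : IsConstExt K F Ω FΩ) (σ : Ω ≃ₐ[K] Ω) (t : Ω ⊗[K] F) :
    autRingEquiv h σ (tensorAlgHom h t) =
      tensorAlgHom h (Algebra.TensorProduct.congr σ (AlgEquiv.refl : F ≃ₐ[K] F) t) := by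
  let _ : Algebra (Ω ⊗[K] F) FΩ := (tensorAlgHom h).toRingHom.toAlgebra
  have : IsFractionRing (Ω ⊗[K] F) FΩ := isFractionRing h
  exact IsFractionRing.ringEquivOfRingEquiv_algebraMap
    (Algebra.TensorProduct.congr σ (AlgEquiv.refl : F ≃ₐ[K] F)).toRingEquiv t

/-- The extension of `σ` is the identity on `F`. -/
theorem autRingEquiv_algebraMap (h : IsConstExt K F Ω FΩ) (σ : Ω ≃ₐ[K] Ω) (f : F) :
    autRingEquiv h σ (algebraMap F FΩ f) = algebraMap F FΩ f := by
  rw [← tensorAlgHom_one_tmul h f, autRingEquiv_tensorAlgHom]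
  simp

/-- The extension of `σ` restricts to `σ` on `Ω`. -/
theorem autRingEquiv_algebraMap_base (h : IsConstExt K F Ω FΩ) (σ : Ω ≃ₐ[K] Ω) (c : Ω) :
    autRingEquiv h σ (algebraMap Ω FΩ c) = algebraMap Ω FΩ (σ c) := by
  rw [← tensorAlgHom_tmul_one h c, autRingEquiv_tensorAlgHom, ← tensorAlgHom_tmul_one h (σ c)]
  simp

/-- `Aut(Ω/K)` acts on `FΩ` by ring automorphisms fixing `F`. -/
noncomputable def autHom (h : IsConstExt K F Ω FΩ) : (Ω ≃ₐ[K] Ω) →* RingAut FΩ where
  toFun := autRingEquiv h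
  map_one' := by
    have : ((autRingEquiv h 1 : FΩ ≃+* FΩ) : FΩ →+* FΩ) = RingHom.id FΩ :=
      ringHom_ext h _ _ (fun f => by simp [autRingEquiv_algebraMap])
        (fun c => by simp [autRingEquiv_algebraMap_base])
    exact RingEquiv.ext fun z => RingHom.congr_fun this z
  map_mul' σ τ := by
    have : ((autRingEquiv h (σ * τ) : FΩ ≃+* FΩ) : FΩ →+* FΩ) =
        ((autRingEquiv h σ : FΩ ≃+* FΩ) : FΩ →+* FΩ).comp
          ((autRingEquiv h τ : FΩ ≃+* FΩ) : FΩ →+* FΩ) :=
      ringHom_ext h _ _ (fun f => by simp [autRingEquiv_algebraMap])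
        (fun c => by simp [autRingEquiv_algebraMap_base])
    exact RingEquiv.ext fun z => RingHom.congr_fun this z

@[simp]
theorem autHom_algebraMap (h : IsConstExt K F Ω FΩ) (σ : Ω ≃ₐ[K] Ω) (f : F) :
    autHom h σ (algebraMap F FΩ f) = algebraMap F FΩ f :=
  autRingEquiv_algebraMap h σ f

@[simp]
theorem autHom_algebraMap_base (h : IsConstExt K F Ω FΩ) (σ : Ω ≃ₐ[K] Ω) (c : Ω) :
    autHom h σ (algebraMap Ω FΩ c) = algebraMap Ω FΩ (σ c) :=
  autRingEquiv_algebraMap_base h σ c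

/-- `Aut(Ω/K)` acts on `FΩ/Ω` by semilinear automorphisms (Prelude vocabulary). -/
noncomputable def semilinearAut (h : IsConstExt K F Ω FΩ) :
    (Ω ≃ₐ[K] Ω) →* AlgebraicCurve.SemilinearAut Ω FΩ where
  toFun σ := ⟨(autHom h σ, σ.toRingEquiv), fun c => autHom_algebraMap_base h σ c⟩
  map_one' := Subtype.ext (Prod.ext (map_one (autHom h)) rfl)
  map_mul' σ τ := Subtype.ext (Prod.ext (map_mul (autHom h) σ τ) rfl)

@[simp]
theorem toRingAut_semilinearAut (h : IsConstExt K F Ω FΩ) (σ : Ω ≃ₐ[K] Ω) :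
    AlgebraicCurve.SemilinearAut.toRingAut (semilinearAut h σ) = autHom h σ := rfl

@[simp]
theorem baseAut_semilinearAut (h : IsConstExt K F Ω FΩ) (σ : Ω ≃ₐ[K] Ω) (c : Ω) :
    AlgebraicCurve.SemilinearAut.baseAut (semilinearAut h σ) c = σ c := rfl

@[simp]
theorem semilinearAut_smul_algebraMap (h : IsConstExt K F Ω FΩ) (σ : Ω ≃ₐ[K] Ω) (f : F) :
    semilinearAut h σ • algebraMap F FΩ f = algebraMap F FΩ f :=
  autHom_algebraMap h σ f

@[simp]
theorem semilinearAut_smul_algebraMap_base (h : IsConstExt K F Ω FΩ) (σ : Ω ≃ₐ[K] Ω) (c : Ω) :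
    semilinearAut h σ • algebraMap Ω FΩ c = algebraMap Ω FΩ (σ c) :=
  autHom_algebraMap_base h σ c

/-- The action of `Aut(Ω/K)` on `FΩ` (a reducible definition, NOT an instance: use
`letI := h.mulSemiringAction`). -/
@[reducible]
noncomputable def mulSemiringAction (h : IsConstExt K F Ω FΩ) :
    MulSemiringAction (Ω ≃ₐ[K] Ω) FΩ :=
  MulSemiringAction.compHom FΩ (semilinearAut h)

theorem mulSemiringAction_smul_def (h : IsConstExt K F Ω FΩ) (σ : Ω ≃ₐ[K] Ω) (z : FΩ) :
    letI := h.mulSemiringAction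
    σ • z = semilinearAut h σ • z := rfl

theorem mulSemiringAction_smul_algebraMap (h : IsConstExt K F Ω FΩ) (σ : Ω ≃ₐ[K] Ω) (f : F) :
    letI := h.mulSemiringAction
    σ • algebraMap F FΩ f = algebraMap F FΩ f :=
  autHom_algebraMap h σ f

theorem mulSemiringAction_smul_algebraMap_base (h : IsConstExt K F Ω FΩ) (σ : Ω ≃ₐ[K] Ω)
    (c : Ω) :
    letI := h.mulSemiringAction
    σ • algebraMap Ω FΩ c = algebraMap Ω FΩ (σ • c) :=
  autHom_algebraMap_base h σ c

end IsConstExt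

end Fermat.Agent.S27P.BC
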