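/-
S27 / (BC), row (BC-8) (helper15): base change of places, divisors and `Pic0` along a constant
field extension, in HYPOTHESIS FORM.

`F/K` and `FΩ/Ω` are fields with `[Algebra F FΩ]` (in the application `FΩ` is the constant field
extension of `F/K` to `Ω`, `IsConstExt K F Ω FΩ`; nothing of that predicate is used here).  A map
`bc : Place K F → Place Ω FΩ` is a *base-change map of places* (`IsBcPlace bc`) if

* `ord` : `(bc v).ord (algebraMap F FΩ f) = v.ord f`  (the extension is unramified),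
* `gen` : a place of `FΩ` outside the range of `bc` is trivial on `F`,
* `deg` : `(bc v).deg = v.deg`.

For such a map:

* `bcDiv bc : Divisor K F →+ Divisor Ω FΩ` (`Finsupp.mapDomain`), injective, degree preserving,
  `bcDiv_ord` : the divisor of `f` goes to the divisor of `algebraMap F FΩ f`;
* `bcPic0 hb : Pic0 K F →+ Pic0 Ω FΩ`, `bcPic0_mk`;
* `mem_riemannRochSpace_bcDiv_iff` : `algebraMap F FΩ f ∈ L(D_Ω) ↔ f ∈ L(D)`;
* `smul_bcDiv`, `smul_bcPic0` : invariance under the semilinear automorphisms of `FΩ/Ω` fixing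
  the places `bc v` (e.g. those fixing `F` pointwise, `smul_bc_of_fixes`);
* `IsBcPlace.comp`, `bcDiv_comp`, `bcPic0_comp` : towers.

Four independent universes; characteristic-free.
-/
import Mathlib
import Fermat.Prelude.Def_AlgebraicCurve_BaseChangeGalois
import Fermat.Prelude.Def_AlgebraicCurve_Repartitions
import Fermat.Agent.S24.PlaceBasic

set_option autoImplicit false

noncomputable section

namespace Fermat.Agent.S27P.BC.BcDiv

open AlgebraicCurve

universe u v w x

variable {K : Type u} {F : Type v} {Ω : Type w} {FΩ : Type x} [Field K] [Field F] [Field Ω]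
  [Field FΩ] [Algebra K F] [Algebra Ω FΩ] [Algebra F FΩ]

/-- `bc` is a base-change map of places from `F/K` to `FΩ/Ω`: the places `bc v` are unramified
extensions of the places `v` with the same degree, and every other place of `FΩ` is trivial on
`F`. -/
structure IsBcPlace (bc : Place K F → Place Ω FΩ) : Prop where
  /-- `bc v` extends `v` without ramification -/
  ord : ∀ (v : Place K F) (f : F), (bc v).ord (algebraMap F FΩ f) = v.ord f
  /-- a place outside the range of `bc` is trivial on `F` -/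
  gen : ∀ w : Place Ω FΩ, w ∉ Set.range bc → ∀ f : F, w.ord (algebraMap F FΩ f) = 0
  /-- the degree is preserved -/
  deg : ∀ v : Place K F, (bc v).deg = v.deg

namespace IsBcPlace

variable {bc : Place K F → Place Ω FΩ}

/-- The constructor for fields all of whose places have degree one. -/
theorem of_deg_eq_one
    (hord : ∀ (v : Place K F) (f : F), (bc v).ord (algebraMap F FΩ f) = v.ord f)
    (hgen : ∀ w : Place Ω FΩ, w ∉ Set.range bc → ∀ f : F, w.ord (algebraMap F FΩ f) = 0)
    (hdeg : ∀ v : Place K F, v.deg = 1) (hdeg' : ∀ w : Place Ω FΩ, w.deg = 1) :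
    IsBcPlace bc :=
  ⟨hord, hgen, fun v => by rw [hdeg, hdeg']⟩

/-- A base-change map of places is injective. -/
theorem injective (hb : IsBcPlace bc) : Function.Injective bc := by
  intro v v' h
  refine Fermat.Agent.S24.place_eq_of_ord fun f hf => ?_
  rw [← hb.ord v' f, ← h, hb.ord v f]
  exact hf

/-- The order of a function of `F` at an arbitrary place of `FΩ`. -/
theorem ord_algebraMap_cases (hb : IsBcPlace bc) (w : Place Ω FΩ) :
    (∃ v : Place K F, bc v = w ∧ ∀ f : F, w.ord (algebraMap F FΩ f) = v.ord f) ∨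
      (w ∉ Set.range bc ∧ ∀ f : F, w.ord (algebraMap F FΩ f) = 0) := by
  by_cases hw : w ∈ Set.range bc
  · obtain ⟨v, rfl⟩ := hw
    exact Or.inl ⟨v, rfl, hb.ord v⟩
  · exact Or.inr ⟨hw, hb.gen w hw⟩

end IsBcPlace

/-! ### Divisors -/

/-- Base change of divisors: push-forward along the map of places. -/
def bcDiv (bc : Place K F → Place Ω FΩ) : Divisor K F →+ Divisor Ω FΩ :=
  Finsupp.mapDomain.addMonoidHom bc

variable {bc : Place K F → Place Ω FΩ}

omit [Algebra F FΩ] in
theorem bcDiv_eq_mapDomain (D : Divisor K F) : bcDiv bc D = Finsupp.mapDomain bc D := rfl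

omit [Algebra F FΩ] in
@[simp]
theorem bcDiv_single (v : Place K F) (n : ℤ) :
    bcDiv bc (Finsupp.single v n) = Finsupp.single (bc v) n :=
  Finsupp.mapDomain_single

theorem bcDiv_apply (hb : IsBcPlace bc) (D : Divisor K F) (v : Place K F) :
    bcDiv bc D (bc v) = D v :=
  Finsupp.mapDomain_apply hb.injective D v

omit [Algebra F FΩ] in
theorem bcDiv_apply_of_notMem (D : Divisor K F) {w : Place Ω FΩ} (hw : w ∉ Set.range bc) :
    bcDiv bc D w = 0 :=
  Finsupp.mapDomain_of_notMem_range D w hw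

theorem bcDiv_injective (hb : IsBcPlace bc) : Function.Injective (bcDiv bc) :=
  Finsupp.mapDomain_injective hb.injective

theorem degree_bcDiv (hb : IsBcPlace bc) (D : Divisor K F) :
    Divisor.degree (bcDiv bc D) = Divisor.degree D := by
  induction D using Finsupp.induction with
  | zero => simp
  | single_add v n D _ _ ih =>
      rw [map_add, map_add, map_add, ih, bcDiv_single, Divisor.degree_single,
        Divisor.degree_single, hb.deg]

/-- Effectivity is preserved and reflected. -/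
theorem bcDiv_nonneg_iff (hb : IsBcPlace bc) (D : Divisor K F) :
    (∀ w : Place Ω FΩ, 0 ≤ bcDiv bc D w) ↔ ∀ v : Place K F, 0 ≤ D v := by
  constructor
  · intro h v
    rw [← bcDiv_apply hb D v]
    exact h (bc v)
  · intro h w
    by_cases hw : w ∈ Set.range bc
    · obtain ⟨v, rfl⟩ := hw
      rw [bcDiv_apply hb]
      exact h v
    · rw [bcDiv_apply_of_notMem D hw]

/-- The divisor of `f` goes to the divisor of `algebraMap F FΩ f`. -/
theorem bcDiv_ord (hb : IsBcPlace bc) {D : Divisor K F} {f : F} (hD : ∀ v, D v = v.ord f)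
    (w : Place Ω FΩ) : bcDiv bc D w = w.ord (algebraMap F FΩ f) := by
  by_cases hw : w ∈ Set.range bc
  · obtain ⟨v, rfl⟩ := hw
    rw [bcDiv_apply hb, hb.ord, hD]
  · rw [bcDiv_apply_of_notMem D hw, hb.gen w hw]

theorem bcDiv_mem_principal (hb : IsBcPlace bc) {D : Divisor K F}
    (hD : D ∈ Divisor.principal (K := K) (F := F)) :
    bcDiv bc D ∈ Divisor.principal (K := Ω) (F := FΩ) := by
  obtain ⟨f, hf, hD⟩ := hD
  exact ⟨algebraMap F FΩ f, (map_ne_zero _).2 hf, bcDiv_ord hb hD⟩

theorem bcDiv_mem_degZero (hb : IsBcPlace bc) {D : Divisor K F}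
    (hD : D ∈ Divisor.degZero (K := K) (F := F)) :
    bcDiv bc D ∈ Divisor.degZero (K := Ω) (F := FΩ) := by
  rw [Divisor.mem_degZero] at hD ⊢
  rw [degree_bcDiv hb, hD]

/-! ### Riemann–Roch spaces -/

/-- `algebraMap F FΩ f ∈ L(D_Ω) ↔ f ∈ L(D)`. -/
theorem mem_riemannRochSpace_bcDiv_iff (hb : IsBcPlace bc) (D : Divisor K F) (f : F) :
    algebraMap F FΩ f ∈ riemannRochSpace (bcDiv bc D) ↔ f ∈ riemannRochSpace D := by
  rw [mem_riemannRochSpace_iff, mem_riemannRochSpace_iff]
  constructor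
  · intro h v
    rcases h (bc v) with h0 | h1
    · exact Or.inl ((map_eq_zero _).1 h0)
    · rw [bcDiv_apply hb, hb.ord] at h1
      exact Or.inr h1
  · intro h w
    by_cases hw : w ∈ Set.range bc
    · obtain ⟨v, rfl⟩ := hw
      rcases h v with rfl | h1
      · exact Or.inl (map_zero _)
      · rw [bcDiv_apply hb, hb.ord]
        exact Or.inr h1
    · rw [bcDiv_apply_of_notMem D hw, hb.gen w hw]
      exact Or.inr (by simp)

/-- `L(D) ⊆ L(D_Ω)`. -/
theorem algebraMap_mem_riemannRochSpace_bcDiv (hb : IsBcPlace bc) {D : Divisor K F} {f : F}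
    (hf : f ∈ riemannRochSpace D) : algebraMap F FΩ f ∈ riemannRochSpace (bcDiv bc D) :=
  (mem_riemannRochSpace_bcDiv_iff hb D f).2 hf

/-! ### `Pic0` -/

/-- Base change of divisors of degree zero. -/
def bcDegZero (hb : IsBcPlace bc) :
    Divisor.degZero (K := K) (F := F) →+ Divisor.degZero (K := Ω) (F := FΩ) :=
  ((bcDiv bc).domRestrict (Divisor.degZero (K := K) (F := F))).codRestrict _
    (fun D => bcDiv_mem_degZero hb D.2)

@[simp]
theorem coe_bcDegZero (hb : IsBcPlace bc) (D : Divisor.degZero (K := K) (F := F)) :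
    (bcDegZero hb D : Divisor Ω FΩ) = bcDiv bc (D : Divisor K F) := rfl

/-- Base change of divisor classes of degree zero. -/
def bcPic0 (hb : IsBcPlace bc) : Pic0 K F →+ Pic0 Ω FΩ :=
  QuotientAddGroup.map _ _ (bcDegZero hb) (by
    rintro ⟨D, hD0⟩ hD
    simp only [AddSubgroup.mem_addSubgroupOf, AddSubgroup.mem_comap] at hD ⊢
    exact bcDiv_mem_principal hb hD)

theorem bcPic0_mk (hb : IsBcPlace bc) (D : Divisor.degZero (K := K) (F := F)) :
    bcPic0 hb (Pic0.mk D) = Pic0.mk (bcDegZero hb D) := rfl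

/-- `bcPic0` is `[D] ↦ [bc_* D]`. -/
theorem bcPic0_mk' (hb : IsBcPlace bc) (D : Divisor.degZero (K := K) (F := F)) :
    bcPic0 hb (Pic0.mk D) =
      Pic0.mk ⟨Finsupp.mapDomain bc (D : Divisor K F), bcDiv_mem_degZero hb D.2⟩ := rfl

/-- A class of `F` dies in `Pic0 Ω FΩ` iff its base-changed divisor is principal. -/
theorem bcPic0_mk_eq_zero_iff (hb : IsBcPlace bc) (D : Divisor.degZero (K := K) (F := F)) :
    bcPic0 hb (Pic0.mk D) = 0 ↔
      bcDiv bc (D : Divisor K F) ∈ Divisor.principal (K := Ω) (F := FΩ) := by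
  rw [bcPic0_mk]
  show (QuotientAddGroup.mk (bcDegZero hb D) : Pic0 Ω FΩ) = 0 ↔ _
  rw [QuotientAddGroup.eq_zero_iff, AddSubgroup.mem_addSubgroupOf, coe_bcDegZero]

/-! ### Invariance under semilinear automorphisms -/

/-- A semilinear automorphism of `FΩ/Ω` fixing `F` pointwise fixes every place `bc v`, provided
the extension of `v` is unique (`huniq`, row (BC-7)). -/
theorem smul_bc_of_fixes
    (huniq : ∀ (w : Place Ω FΩ) (v : Place K F),
      (∀ f : F, w.ord (algebraMap F FΩ f) = v.ord f) → w = bc v)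
    (hb : IsBcPlace bc) (g : SemilinearAut Ω FΩ)
    (hg : ∀ f : F, g • algebraMap F FΩ f = algebraMap F FΩ f) (v : Place K F) :
    g • bc v = bc v := by
  refine huniq _ v fun f => ?_
  have h := SemilinearAut.ord_smul g (bc v) (algebraMap F FΩ f)
  rw [hg f] at h
  rw [h, hb.ord]

omit [Algebra F FΩ] in
theorem smul_bcDiv (g : SemilinearAut Ω FΩ) (hg : ∀ v : Place K F, g • bc v = bc v)
    (D : Divisor K F) : g • bcDiv bc D = bcDiv bc D := by
  induction D using Finsupp.induction with
  | zero => simp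
  | single_add v n D _ _ ih =>
      rw [map_add, smul_add, ih, bcDiv_single, SemilinearAut.smul_single, hg]

theorem smul_bcPic0 (hb : IsBcPlace bc) (g : SemilinearAut Ω FΩ)
    (hg : ∀ v : Place K F, g • bc v = bc v) (c : Pic0 K F) : g • bcPic0 hb c = bcPic0 hb c := by
  obtain ⟨D, rfl⟩ := Pic0.mk_surjective c
  rw [bcPic0_mk, SemilinearAut.pic0_smul_mk]
  refine congrArg Pic0.mk (Subtype.ext ?_)
  rw [SemilinearAut.coe_degZeroSMulHom, coe_bcDegZero, smul_bcDiv g hg]

/-! ### Equivariance -/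

omit [Algebra F FΩ] in
/-- Equivariance of `bcDiv` for a pair of semilinear automorphisms compatible on places. -/
theorem bcDiv_smul (g₀ : SemilinearAut K F) (g : SemilinearAut Ω FΩ)
    (hg : ∀ v : Place K F, bc (g₀ • v) = g • bc v) (D : Divisor K F) :
    bcDiv bc (g₀ • D) = g • bcDiv bc D := by
  induction D using Finsupp.induction with
  | zero => simp
  | single_add v n D _ _ ih =>
      rw [smul_add, map_add, map_add, smul_add, ih, SemilinearAut.smul_single, bcDiv_single,
        bcDiv_single, SemilinearAut.smul_single, hg]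

theorem bcPic0_smul (hb : IsBcPlace bc) (g₀ : SemilinearAut K F) (g : SemilinearAut Ω FΩ)
    (hg : ∀ v : Place K F, bc (g₀ • v) = g • bc v) (c : Pic0 K F) :
    bcPic0 hb (g₀ • c) = g • bcPic0 hb c := by
  obtain ⟨D, rfl⟩ := Pic0.mk_surjective c
  rw [SemilinearAut.pic0_smul_mk, bcPic0_mk, bcPic0_mk, SemilinearAut.pic0_smul_mk]
  refine congrArg Pic0.mk (Subtype.ext ?_)
  rw [SemilinearAut.coe_degZeroSMulHom, coe_bcDegZero, coe_bcDegZero,
    SemilinearAut.coe_degZeroSMulHom, bcDiv_smul g₀ g hg]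

end Fermat.Agent.S27P.BC.BcDiv

/-! ### Towers -/

namespace Fermat.Agent.S27P.BC.BcDiv

open AlgebraicCurve

universe u v w x u' x'

variable {K : Type u} {F : Type v} {M : Type w} {FM : Type x} {Ω : Type u'} {FΩ : Type x'}
  [Field K] [Field F] [Field M] [Field FM] [Field Ω] [Field FΩ]
  [Algebra K F] [Algebra M FM] [Algebra Ω FΩ] [Algebra F FM] [Algebra FM FΩ] [Algebra F FΩ]
  [IsScalarTower F FM FΩ]
  {bc₁ : Place K F → Place M FM} {bc₂ : Place M FM → Place Ω FΩ}

/-- Base-change maps of places compose. -/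
theorem IsBcPlace.comp (h₂ : IsBcPlace bc₂) (h₁ : IsBcPlace bc₁) : IsBcPlace (bc₂ ∘ bc₁) where
  ord v f := by
    rw [Function.comp_apply, IsScalarTower.algebraMap_apply F FM FΩ, h₂.ord, h₁.ord]
  gen w hw f := by
    rw [IsScalarTower.algebraMap_apply F FM FΩ]
    by_cases hw₂ : w ∈ Set.range bc₂
    · obtain ⟨u, rfl⟩ := hw₂
      rw [h₂.ord]
      refine h₁.gen u (fun hu => hw ?_) f
      obtain ⟨v, rfl⟩ := hu
      exact ⟨v, rfl⟩
    · exact h₂.gen w hw₂ _
  deg v := by rw [Function.comp_apply, h₂.deg, h₁.deg]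

omit [Algebra F FM] [Algebra FM FΩ] [Algebra F FΩ] [IsScalarTower F FM FΩ] in
theorem bcDiv_comp (D : Divisor K F) : bcDiv (bc₂ ∘ bc₁) D = bcDiv bc₂ (bcDiv bc₁ D) := by
  rw [bcDiv_eq_mapDomain, bcDiv_eq_mapDomain, bcDiv_eq_mapDomain, Finsupp.mapDomain_comp]

theorem bcPic0_comp (h₂ : IsBcPlace bc₂) (h₁ : IsBcPlace bc₁) (c : Pic0 K F) :
    bcPic0 (h₂.comp h₁) c = bcPic0 h₂ (bcPic0 h₁ c) := by
  obtain ⟨D, rfl⟩ := Pic0.mk_surjective c
  rw [bcPic0_mk, bcPic0_mk, bcPic0_mk]
  refine congrArg Pic0.mk (Subtype.ext ?_)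
  rw [coe_bcDegZero, coe_bcDegZero, coe_bcDegZero, bcDiv_comp]

end Fermat.Agent.S27P.BC.BcDiv
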