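/-
S27 / (BC), row (BC-7) (helper58): restriction of a place of the constant field extension `FΩ`
to `F`, and uniqueness of the extension of a place of `F`.

Setting of `S27P/BC/Defs.lean`: `h : IsConstExt K F Ω FΩ`.

* `exists_place_restrict` : a place `w` of `FΩ/Ω` which is nontrivial on `F` restricts to
  `e · ord_v` for a place `v` of `F/K` and some `e > 0`;
* `adicValuation_sum_eq_one`, `ord_sum_eq` : the **Gauss formula** for ANY place `u` of `FΩ`
  restricting to `e · ord_v` (`v` with residue field `K`): for `K`-linearly independent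
  constants `c i ∈ Ω`,  `ord_u (∑ c i • f i) = e · min_i ord_v (f i)`;
* `exists_rep` : every element of the `Ω`-span of `F` is `∑ c i • f i` with `c` a fixed `K`-basis
  of `Ω`;
* `eq_of_restrict` : **uniqueness of the extension** — if `w` restricts to `ord_v` and `w'` to
  `e · ord_v`, then `w' = w`;
* `ord_algebraMap_eq_zero`, `ord_eq_zero_of_notMem_range` : a place of `FΩ` which is not such an
  extension is trivial on `F`.
-/
import Mathlib
import Fermat.Agent.S27P.BC.Defs
import Fermat.Agent.S24.PlaceOfVal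
import Fermat.Agent.S24.PlaceBasic
import Fermat.Agent.Lib.FF.RRLocal

set_option autoImplicit false

noncomputable section

namespace Fermat.Agent.S27P.BC.Restrict

open AlgebraicCurve WithZero
open Fermat.Agent.S27P.BC Fermat.Agent.Lib.FF

universe u v w x

variable {K : Type u} {F : Type v} {Ω : Type w} {FΩ : Type x} [Field K] [Field F]
  [Field Ω] [Field FΩ] [Algebra K F] [Algebra K Ω] [Algebra F FΩ] [Algebra Ω FΩ]

/-! ### Restriction -/

/-- **Restriction of a place of `FΩ` to `F`.**  A place of `FΩ/Ω` which is nontrivial on (the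
image of) `F` restricts to a positive multiple of the order function of a place of `F/K`. -/
theorem exists_place_restrict (h : IsConstExt K F Ω FΩ) (w : Place Ω FΩ) {f : F}
    (hf : w.ord (algebraMap F FΩ f) ≠ 0) :
    ∃ (v : Place K F) (e : ℕ), 0 < e ∧ ∀ g : F, w.ord (algebraMap F FΩ g) = e * v.ord g := by
  have hne : ∀ g : F, g ≠ 0 → algebraMap F FΩ g ≠ 0 := fun g hg => (map_ne_zero _).2 hg
  obtain ⟨v, e, he, hv⟩ := Fermat.Agent.S24.PlaceOfVal.exists_place_of_val (K := K)
    (fun g : F => w.ord (algebraMap F FΩ g))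
    (fun a b ha hb => by
      show w.ord (algebraMap F FΩ (a * b)) = _
      rw [map_mul, w.ord_mul (hne a ha) (hne b hb)])
    (fun a b ha hb hab => by
      show min (w.ord _) (w.ord _) ≤ w.ord (algebraMap F FΩ (a + b))
      rw [map_add]
      exact Fermat.Agent.S24.ord_add_ge w (hne a ha) (hne b hb)
        (by rw [← map_add]; exact hne _ hab))
    (fun c _ => by
      show w.ord (algebraMap F FΩ (algebraMap K F c)) = 0
      rw [h.comm]
      exact Fermat.Agent.S24.ord_algebraMap w _)
    ⟨f, fun h0 => hf (by rw [h0, map_zero, Place.ord_zero]), hf⟩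
  refine ⟨v, e, he, fun g => ?_⟩
  rcases eq_or_ne g 0 with rfl | hg
  · simp
  · exact hv g hg

/-! ### Small facts on places -/

/-- Every place has a uniformizer. -/
theorem exists_ord_eq_one {K F : Type*} [Field K] [Field F] [Algebra K F] (v : Place K F) :
    ∃ π : F, π ≠ 0 ∧ v.ord π = 1 := by
  obtain ⟨π, hπ⟩ := IsDiscreteValuationRing.exists_irreducible v.toValuationSubring
  refine ⟨(π : F), ?_, v.ord_coe_irreducible hπ⟩
  intro h0
  exact hπ.ne_zero (Subtype.ext h0)

/-- `adicValuation = 1` means: nonzero of order zero. -/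
theorem adicValuation_eq_one_iff {K F : Type*} [Field K] [Field F] [Algebra K F] (v : Place K F)
    {f : F} : v.adicValuation f = 1 ↔ f ≠ 0 ∧ v.ord f = 0 := by
  constructor
  · intro h1
    have hf : f ≠ 0 := by
      rintro rfl
      rw [map_zero] at h1
      exact zero_ne_one h1
    refine ⟨hf, ?_⟩
    rw [v.adicValuation_eq_exp_neg_ord hf, ← exp_zero, exp_inj] at h1
    omega
  · rintro ⟨hf, h0⟩
    rw [v.adicValuation_eq_exp_neg_ord hf, h0, neg_zero, exp_zero]

/-- `adicValuation < 1` means: zero, or of positive order. -/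
theorem adicValuation_lt_one_iff {K F : Type*} [Field K] [Field F] [Algebra K F] (v : Place K F)
    {f : F} : v.adicValuation f < 1 ↔ f = 0 ∨ 0 < v.ord f := by
  rcases eq_or_ne f 0 with rfl | hf
  · simp
  · rw [v.adicValuation_eq_exp_neg_ord hf, ← exp_zero, exp_lt_exp, or_iff_right hf]
    omega

/-- Moving a scalar of `K` across: `(a • c) • f = c • (a • f)` in `FΩ`. -/
theorem smul_smul_algebraMap (h : IsConstExt K F Ω FΩ) (a : K) (c : Ω) (g : F) :
    (a • c) • algebraMap F FΩ g = c • algebraMap F FΩ (a • g) := by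
  rw [Algebra.smul_def, Algebra.smul_def, Algebra.smul_def, Algebra.smul_def, map_mul, map_mul,
    h.comm]
  ring

/-! ### The Gauss formula -/

section Gauss

variable {v : Place K F} {I : Type*}

/-- **Unit lemma.**  Let `u` be a place of `FΩ` restricting to `e · ord_v`, `e > 0`, where `v` has
residue field `K`.  If the `c i ∈ Ω` are `K`-linearly independent, the `g i ∈ F` are regular at
`v` and one of them is a unit at `v`, then `∑ c i • g i` is a unit at `u`. -/
theorem adicValuation_sum_eq_one (h : IsConstExt K F Ω FΩ) (hv : RR.ResK v) (u : Place Ω FΩ)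
    (e : ℕ) (he : 0 < e) (hu : ∀ g : F, u.ord (algebraMap F FΩ g) = e * v.ord g)
    (c : I → Ω) (hc : LinearIndependent K c) (g : I →₀ F)
    (hg : ∀ i ∈ g.support, 0 ≤ v.ord (g i)) (hg' : ∃ i ∈ g.support, v.ord (g i) = 0) :
    u.adicValuation (g.sum fun i f => c i • algebraMap F FΩ f) = 1 := by
  classical
  -- all `g i` are in the valuation ring
  have hmem : ∀ i, g i ∈ v.toValuationSubring := by
    intro i
    by_cases hi : i ∈ g.support
    · exact Fermat.Agent.S24.mem_of_ord_nonneg v (hg i hi)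
    · rw [Finsupp.notMem_support_iff.1 hi]
      exact v.toValuationSubring.zero_mem
  -- the residues
  choose a ha using fun i => hv ⟨g i, hmem i⟩
  have hn : ∀ i, v.adicValuation (g i - algebraMap K F (a i)) < 1 := by
    intro i
    have h2 := RR.val_le_exp_neg_one_of_mem_maximalIdeal v _ (ha i)
    have h4 : ((⟨g i, hmem i⟩ - algebraMap K v.toValuationSubring (a i) :
        v.toValuationSubring) : F) = g i - algebraMap K F (a i) := rfl
    rw [h4] at h2
    refine lt_of_le_of_lt h2 ?_
    rw [← exp_zero, exp_lt_exp]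
    norm_num
  -- the image of a "small" element of `F` is small at `u`
  have hsmall : ∀ n : F, v.adicValuation n < 1 → u.adicValuation (algebraMap F FΩ n) < 1 := by
    intro n hn1
    rw [adicValuation_lt_one_iff] at hn1 ⊢
    rcases hn1 with rfl | hpos
    · left; simp
    · right
      rw [hu]
      positivity
  -- the constant part
  obtain ⟨i₀, hi₀, hi₀0⟩ := hg'
  have hgi₀ : g i₀ ≠ 0 := Finsupp.mem_support_iff.1 hi₀
  have hai₀ : a i₀ ≠ 0 := by
    intro h0
    have h1 := hn i₀
    rw [h0, map_zero, sub_zero] at h1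
    have h2 := (adicValuation_eq_one_iff v).2 ⟨hgi₀, hi₀0⟩
    rw [h2] at h1
    exact lt_irrefl _ h1
  have hγ : (∑ i ∈ g.support, a i • c i) ≠ 0 := by
    intro h0
    exact hai₀ (linearIndependent_iff'.1 hc g.support a h0 i₀ hi₀)
  -- decomposition
  have hdec : (g.sum fun i f => c i • algebraMap F FΩ f) =
      algebraMap Ω FΩ (∑ i ∈ g.support, a i • c i) +
        ∑ i ∈ g.support, c i • algebraMap F FΩ (g i - algebraMap K F (a i)) := by
    rw [Finsupp.sum, map_sum, ← Finset.sum_add_distrib]
    refine Finset.sum_congr rfl fun i _ => ?_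
    rw [map_sub, smul_sub, h.comm, Algebra.smul_def (a i) (c i), map_mul, Algebra.smul_def,
      Algebra.smul_def]
    ring
  have h1 : u.adicValuation (algebraMap Ω FΩ (∑ i ∈ g.support, a i • c i)) = 1 :=
    (adicValuation_eq_one_iff u).2 ⟨(map_ne_zero _).2 hγ, Fermat.Agent.S24.ord_algebraMap u _⟩
  have h2 : u.adicValuation
      (∑ i ∈ g.support, c i • algebraMap F FΩ (g i - algebraMap K F (a i))) < 1 := by
    refine Valuation.map_sum_lt _ one_ne_zero fun i _ => ?_
    rw [Algebra.smul_def, map_mul]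
    calc u.adicValuation (algebraMap Ω FΩ (c i)) *
          u.adicValuation (algebraMap F FΩ (g i - algebraMap K F (a i)))
        ≤ 1 * u.adicValuation (algebraMap F FΩ (g i - algebraMap K F (a i))) :=
          mul_le_mul_left (u.adicValuation_algebraMap_le_one (c i)) _
      _ = u.adicValuation (algebraMap F FΩ (g i - algebraMap K F (a i))) := one_mul _
      _ < 1 := hsmall _ (hn i)
  rw [hdec, Valuation.map_add_eq_of_lt_left _ (by rw [h1]; exact h2), h1]

/-- **Gauss formula** for a place `u` of `FΩ` restricting to `e · ord_v`: for `K`-linearly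
independent constants `c i`, the order of `∑ c i • b i` at `u` is `e` times the minimum of the
orders of the `b i` at `v`. -/
theorem ord_sum_eq (h : IsConstExt K F Ω FΩ) (hv : RR.ResK v) (u : Place Ω FΩ)
    (e : ℕ) (he : 0 < e) (hu : ∀ g : F, u.ord (algebraMap F FΩ g) = e * v.ord g)
    (c : I → Ω) (hc : LinearIndependent K c) (b : I →₀ F) (m : ℤ)
    (hm : ∀ i ∈ b.support, m ≤ v.ord (b i)) (hm' : ∃ i ∈ b.support, v.ord (b i) = m) :
    (b.sum fun i f => c i • algebraMap F FΩ f) ≠ 0 ∧
      u.ord (b.sum fun i f => c i • algebraMap F FΩ f) = e * m := by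
  classical
  obtain ⟨π, hπ0, hπ1⟩ := exists_ord_eq_one v
  have hπm : π ^ (-m) ≠ 0 := zpow_ne_zero _ hπ0
  have hπm' : π ^ m ≠ 0 := zpow_ne_zero _ hπ0
  have hinj : Function.Injective (fun f : F => f * π ^ (-m)) := mul_left_injective₀ hπm
  set g : I →₀ F := b.mapRange (fun f : F => f * π ^ (-m)) (zero_mul _) with hgdef
  have hsupp : g.support = b.support :=
    Finsupp.support_mapRange_of_injective (e := fun f : F => f * π ^ (-m)) (zero_mul _) b hinj
  have hgi : ∀ i, g i = b i * π ^ (-m) := fun i => Finsupp.mapRange_apply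
  have hordg : ∀ i ∈ b.support, v.ord (g i) = v.ord (b i) - m := by
    intro i hi
    rw [hgi, v.ord_mul (Finsupp.mem_support_iff.1 hi) hπm, v.ord_zpow, hπ1]
    ring
  have hunit := adicValuation_sum_eq_one h hv u e he hu c hc g
    (fun i hi => by
      rw [hsupp] at hi
      rw [hordg i hi]
      have := hm i hi
      omega)
    (by
      obtain ⟨i, hi, him⟩ := hm'
      exact ⟨i, hsupp ▸ hi, by rw [hordg i hi, him, sub_self]⟩)
  obtain ⟨hne, hord⟩ := (adicValuation_eq_one_iff u).1 hunit
  have hfac : (b.sum fun i f => c i • algebraMap F FΩ f) =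
      algebraMap F FΩ (π ^ m) * (g.sum fun i f => c i • algebraMap F FΩ f) := by
    rw [Finsupp.sum, Finsupp.sum, hsupp, Finset.mul_sum]
    refine Finset.sum_congr rfl fun i _ => ?_
    rw [hgi, mul_smul_comm, ← map_mul]
    congr 2
    rw [zpow_neg, mul_comm (b i), ← mul_assoc, mul_inv_cancel₀ hπm', one_mul]
  have hιπ : algebraMap F FΩ (π ^ m) ≠ 0 := (map_ne_zero _).2 hπm'
  refine ⟨by rw [hfac]; exact mul_ne_zero hιπ hne, ?_⟩
  rw [hfac, u.ord_mul hιπ hne, hord, add_zero, hu, v.ord_zpow, hπ1, mul_one]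

/-- The minimum of the orders over the support of a nonzero finitely supported family. -/
theorem exists_min_ord (v : Place K F) (b : I →₀ F) (hb : b ≠ 0) :
    ∃ m : ℤ, (∀ i ∈ b.support, m ≤ v.ord (b i)) ∧ ∃ i ∈ b.support, v.ord (b i) = m := by
  have hne : b.support.Nonempty := Finsupp.support_nonempty_iff.2 hb
  obtain ⟨i, hi, hmin⟩ := Finset.exists_min_image b.support (fun i => v.ord (b i)) hne
  exact ⟨v.ord (b i), fun j hj => hmin j hj, i, hi, rfl⟩

end Gauss

/-! ### Representation of the span in a `K`-basis of `Ω` -/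

/-- Every element of the `Ω`-span of `F` in `FΩ` is `∑ c i • f i` for the fixed `K`-basis `c` of
`Ω` (finitely many `f i ≠ 0`). -/
theorem exists_rep (h : IsConstExt K F Ω FΩ) {I : Type*} (ℬ : Module.Basis I K Ω) {r : FΩ}
    (hr : r ∈ IsConstExt.span K F Ω FΩ) :
    ∃ b : I →₀ F, r = b.sum fun i f => ℬ i • algebraMap F FΩ f := by
  classical
  -- monomials
  have hmono : ∀ (d : Ω) (g : F),
      ∃ b : I →₀ F, d • algebraMap F FΩ g = b.sum fun i f => ℬ i • algebraMap F FΩ f := by
    intro d g
    refine ⟨(ℬ.repr d).mapRange (fun a : K => a • g) (zero_smul _ _), ?_⟩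
    rw [Finsupp.sum_mapRange_index (fun i => by rw [map_zero, smul_zero])]
    have h1 : (ℬ.repr d).sum (fun i a => ℬ i • algebraMap F FΩ (a • g)) =
        (ℬ.repr d).sum (fun i a => (a • ℬ i) • algebraMap F FΩ g) := by
      refine Finsupp.sum_congr fun i _ => ?_
      rw [smul_smul_algebraMap h]
    have h2 := ℬ.linearCombination_repr d
    rw [Finsupp.linearCombination_apply] at h2
    rw [h1]
    conv_lhs => rw [← h2]
    rw [Finsupp.sum, Finsupp.sum, Finset.sum_smul]
  -- sums
  have hadd : ∀ r₁ r₂ : FΩ,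
      (∃ b : I →₀ F, r₁ = b.sum fun i f => ℬ i • algebraMap F FΩ f) →
      (∃ b : I →₀ F, r₂ = b.sum fun i f => ℬ i • algebraMap F FΩ f) →
      ∃ b : I →₀ F, r₁ + r₂ = b.sum fun i f => ℬ i • algebraMap F FΩ f := by
    rintro r₁ r₂ ⟨b₁, rfl⟩ ⟨b₂, rfl⟩
    refine ⟨b₁ + b₂, ?_⟩
    rw [Finsupp.sum_add_index']
    · intro i
      rw [map_zero, smul_zero]
    · intro i f₁ f₂
      rw [map_add, smul_add]
  have hzero : ∃ b : I →₀ F, (0 : FΩ) = b.sum fun i f => ℬ i • algebraMap F FΩ f :=
    ⟨0, by simp⟩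
  refine Submodule.span_induction (p := fun r _ =>
    ∃ b : I →₀ F, r = b.sum fun i f => ℬ i • algebraMap F FΩ f) ?_ hzero ?_ ?_ hr
  · rintro _ ⟨g, rfl⟩
    obtain ⟨b, hb⟩ := hmono 1 g
    exact ⟨b, by rw [← hb, one_smul]⟩
  · intro r₁ r₂ _ _ h₁ h₂
    exact hadd r₁ r₂ h₁ h₂
  · rintro d r₁ _ ⟨b, rfl⟩
    rw [Finsupp.sum, Finset.smul_sum]
    refine Finset.sum_induction _ (fun r => ∃ b : I →₀ F,
      r = b.sum fun i f => ℬ i • algebraMap F FΩ f) hadd hzero fun i _ => ?_
    rw [smul_smul]
    exact hmono _ _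

/-! ### Uniqueness of the extension -/

/-- **Uniqueness of the extension of a place.**  If `v` has residue field `K`, `w` restricts to
`ord_v` and `w'` restricts to `e · ord_v` (`e > 0`), then `w' = w`. -/
theorem eq_of_restrict (h : IsConstExt K F Ω FΩ) (v : Place K F) (hv : RR.ResK v)
    {w w' : Place Ω FΩ} (hw : ∀ g : F, w.ord (algebraMap F FΩ g) = v.ord g)
    (e : ℕ) (he : 0 < e) (hw' : ∀ g : F, w'.ord (algebraMap F FΩ g) = e * v.ord g) :
    w' = w := by
  classical
  have hw1 : ∀ g : F, w.ord (algebraMap F FΩ g) = ((1 : ℕ) : ℤ) * v.ord g := fun g => by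
    rw [hw, Nat.cast_one, one_mul]
  set ℬ := Module.Basis.ofVectorSpace K Ω with hℬ
  have hind : LinearIndependent K (fun i => ℬ i) := ℬ.linearIndependent
  -- both orders on the span
  have key : ∀ r : FΩ, r ∈ IsConstExt.span K F Ω FΩ → r ≠ 0 →
      ∃ m : ℤ, w'.ord r = e * m ∧ w.ord r = m := by
    intro r hr hr0
    obtain ⟨b, rfl⟩ := exists_rep h ℬ hr
    have hb : b ≠ 0 := by
      rintro rfl
      exact hr0 (by simp)
    obtain ⟨m, hm, hm'⟩ := exists_min_ord v b hb
    refine ⟨m, (ord_sum_eq h hv w' e he hw' _ hind b m hm hm').2, ?_⟩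
    have := (ord_sum_eq h hv w 1 Nat.one_pos hw1 _ hind b m hm hm').2
    rw [this, Nat.cast_one, one_mul]
  refine Fermat.Agent.S24.place_eq_of_ord fun z hz => ?_
  rcases eq_or_ne z 0 with rfl | hz0
  · simp
  obtain ⟨A, hA, B, hB, hB0, hzB⟩ := h.exists_div z
  have hA0 : A ≠ 0 := by
    rw [← hzB]
    exact mul_ne_zero hz0 hB0
  obtain ⟨mA, hA', hAw⟩ := key A hA hA0
  obtain ⟨mB, hB', hBw⟩ := key B hB hB0
  have h1 : w'.ord z + w'.ord B = w'.ord A := by rw [← hzB, w'.ord_mul hz0 hB0]
  have h2 : w.ord z + w.ord B = w.ord A := by rw [← hzB, w.ord_mul hz0 hB0]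
  rw [hA', hB'] at h1
  rw [hAw, hBw] at h2
  have h3 : w'.ord z = (e : ℤ) * (mA - mB) := by rw [mul_sub]; omega
  have h4 : w.ord z = mA - mB := by omega
  rw [h4]
  rw [h3] at hz
  have he' : (0 : ℤ) < (e : ℤ) := by exact_mod_cast he
  by_contra hneg
  rw [not_le] at hneg
  have := mul_neg_of_pos_of_neg he' hneg
  omega

/-- In particular the index `e` of an extension is `1`. -/
theorem ord_eq_of_restrict (h : IsConstExt K F Ω FΩ) (v : Place K F) (hv : RR.ResK v)
    {w w' : Place Ω FΩ} (hw : ∀ g : F, w.ord (algebraMap F FΩ g) = v.ord g)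
    (e : ℕ) (he : 0 < e) (hw' : ∀ g : F, w'.ord (algebraMap F FΩ g) = e * v.ord g) (g : F) :
    w'.ord (algebraMap F FΩ g) = v.ord g := by
  rw [eq_of_restrict h v hv hw e he hw', hw]

/-! ### Places which are no extension are trivial on `F` -/

/-- A place of `FΩ` whose restriction to `F` is not a multiple of a place of `F` is trivial
on `F`. -/
theorem ord_algebraMap_eq_zero (h : IsConstExt K F Ω FΩ) (w : Place Ω FΩ)
    (hw : ∀ (v : Place K F) (e : ℕ), 0 < e →
      ¬ ∀ g : F, w.ord (algebraMap F FΩ g) = e * v.ord g) (g : F) :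
    w.ord (algebraMap F FΩ g) = 0 := by
  by_contra hg
  obtain ⟨v, e, he, hv⟩ := exists_place_restrict h w hg
  exact hw v e he hv

/-- The form consumed by (BC-8): if `bc` is an extension map of places (index one) and all places
of `F` have residue field `K`, a place of `FΩ` outside the range of `bc` is trivial on `F`. -/
theorem ord_eq_zero_of_notMem_range (h : IsConstExt K F Ω FΩ)
    (hres : ∀ v : Place K F, RR.ResK v) (bc : Place K F → Place Ω FΩ)
    (hbc : ∀ (v : Place K F) (f : F), (bc v).ord (algebraMap F FΩ f) = v.ord f)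
    {w : Place Ω FΩ} (hw : w ∉ Set.range bc) (f : F) : w.ord (algebraMap F FΩ f) = 0 := by
  by_contra hf
  obtain ⟨v, e, he, hv⟩ := exists_place_restrict h w hf
  exact hw ⟨v, (eq_of_restrict h v (hres v) (hbc v) e he hv).symm⟩

/-- Every place of `FΩ` nontrivial on `F` is THE extension of a place of `F` (given an extension
map `bc` of index one). -/
theorem exists_eq_bc_of_ord_ne_zero (h : IsConstExt K F Ω FΩ)
    (hres : ∀ v : Place K F, RR.ResK v) (bc : Place K F → Place Ω FΩ)
    (hbc : ∀ (v : Place K F) (f : F), (bc v).ord (algebraMap F FΩ f) = v.ord f)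
    (w : Place Ω FΩ) {f : F} (hf : w.ord (algebraMap F FΩ f) ≠ 0) : ∃ v : Place K F, w = bc v := by
  obtain ⟨v, e, he, hv⟩ := exists_place_restrict h w hf
  exact ⟨v, eq_of_restrict h v (hres v) (hbc v) e he hv⟩

omit [Algebra K Ω] in
/-- An extension map of index one is injective. -/
theorem bc_injective (bc : Place K F → Place Ω FΩ)
    (hbc : ∀ (v : Place K F) (f : F), (bc v).ord (algebraMap F FΩ f) = v.ord f) :
    Function.Injective bc := by
  intro v₁ v₂ h12
  refine Fermat.Agent.S24.place_eq_of_ord fun f hf => ?_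
  rw [← hbc v₂ f, ← h12, hbc v₁ f]
  exact hf

end Fermat.Agent.S27P.BC.Restrict
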