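/-
S27 / (BC), row (BC-8), second file (helper15): the `IsConstExt` wrappers of `BcDiv.lean`.

Setting of `S27P/BC/Defs.lean`: `h : IsConstExt K F Ω FΩ`, all places of `F/K` (and, for the
degrees, of `FΩ/Ω`) with trivial residue field extension (`RR.ResK`).  An *extension map of
places of index one* is a map `bc : Place K F → Place Ω FΩ` with
`hbc : ∀ v f, (bc v).ord (algebraMap F FΩ f) = v.ord f` (e.g. the Gauss extension of row (BC-6)).
On top of helper58's `Restrict.lean` (uniqueness of the extension; places which are no extension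
are trivial on `F`):

* `isBcPlace` : ANY such map is a base-change map of places (`BcDiv.IsBcPlace`), so `bcDiv bc`,
  `bcPic0 _` and all of `BcDiv.lean` apply;
* `eq_bc`, `bc_unique` : a place restricting to `ord_v` is `bc v`; the map `bc` is unique;
* `exists_eq_bc` : every place of `FΩ` nontrivial on `F` is some `bc v`;
* `smul_bc`, `smul_bcDiv`, `smul_bcPic0` : a semilinear automorphism of `FΩ/Ω` fixing `F`
  pointwise fixes the places `bc v`, the divisors `bcDiv bc D` and the classes `bcPic0 _ c`;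
  `semilinearAut_smul_*` : the case of the action of `Aut(Ω/K)` (helper88's `Basic.lean`);
* `riemannRochSpace_bcDiv_stable` : `L(D_Ω)` is stable under such automorphisms (the input of the
  descent in row (BC-9)).
-/
import Mathlib
import Fermat.Agent.S27P.BC.BcDiv
import Fermat.Agent.S27P.BC.Restrict
import Fermat.Agent.S27P.BC.Basic
import Fermat.Agent.Lib.FF.RRMain

set_option autoImplicit false

noncomputable section

namespace Fermat.Agent.S27P.BC.BcPlace

open AlgebraicCurve
open Fermat.Agent.S27P.BC Fermat.Agent.S27P.BC.BcDiv Fermat.Agent.Lib.FF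

universe u v w x

variable {K : Type u} {F : Type v} {Ω : Type w} {FΩ : Type x} [Field K] [Field F]
  [Field Ω] [Field FΩ] [Algebra K F] [Algebra K Ω] [Algebra F FΩ] [Algebra Ω FΩ]
  {bc : Place K F → Place Ω FΩ}

/-- **Any extension map of places of index one is a base-change map of places.** -/
theorem isBcPlace (h : IsConstExt K F Ω FΩ) (hres : ∀ v : Place K F, RR.ResK v)
    (hresΩ : ∀ w : Place Ω FΩ, RR.ResK w)
    (hbc : ∀ (v : Place K F) (f : F), (bc v).ord (algebraMap F FΩ f) = v.ord f) :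
    IsBcPlace bc :=
  IsBcPlace.of_deg_eq_one hbc
    (fun _ hw f => Restrict.ord_eq_zero_of_notMem_range h hres bc hbc hw f)
    (fun v => RR.deg_eq_one (hres v)) (fun w => RR.deg_eq_one (hresΩ w))

/-- A place of `FΩ` restricting to `ord_v` is `bc v`. -/
theorem eq_bc (h : IsConstExt K F Ω FΩ) (hres : ∀ v : Place K F, RR.ResK v)
    (hbc : ∀ (v : Place K F) (f : F), (bc v).ord (algebraMap F FΩ f) = v.ord f)
    {w : Place Ω FΩ} {v : Place K F} (hw : ∀ f : F, w.ord (algebraMap F FΩ f) = v.ord f) :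
    w = bc v :=
  Restrict.eq_of_restrict h v (hres v) (hbc v) 1 Nat.one_pos
    (fun g => by rw [hw, Nat.cast_one, one_mul])

/-- The extension map of index one is unique. -/
theorem bc_unique (h : IsConstExt K F Ω FΩ) (hres : ∀ v : Place K F, RR.ResK v)
    {bc' : Place K F → Place Ω FΩ}
    (hbc : ∀ (v : Place K F) (f : F), (bc v).ord (algebraMap F FΩ f) = v.ord f)
    (hbc' : ∀ (v : Place K F) (f : F), (bc' v).ord (algebraMap F FΩ f) = v.ord f) :
    bc = bc' :=
  funext fun v => eq_bc h hres hbc' (hbc v)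

/-- Every place of `FΩ` nontrivial on `F` is an extension. -/
theorem exists_eq_bc (h : IsConstExt K F Ω FΩ) (hres : ∀ v : Place K F, RR.ResK v)
    (hbc : ∀ (v : Place K F) (f : F), (bc v).ord (algebraMap F FΩ f) = v.ord f)
    (w : Place Ω FΩ) {f : F} (hf : w.ord (algebraMap F FΩ f) ≠ 0) : ∃ v : Place K F, w = bc v :=
  Restrict.exists_eq_bc_of_ord_ne_zero h hres bc hbc w hf

/-- A place of `FΩ` is an extension or is trivial on `F`. -/
theorem eq_bc_or_trivial (h : IsConstExt K F Ω FΩ) (hres : ∀ v : Place K F, RR.ResK v)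
    (hbc : ∀ (v : Place K F) (f : F), (bc v).ord (algebraMap F FΩ f) = v.ord f)
    (w : Place Ω FΩ) :
    (∃ v : Place K F, w = bc v) ∨ ∀ f : F, w.ord (algebraMap F FΩ f) = 0 := by
  by_cases hw : ∀ f : F, w.ord (algebraMap F FΩ f) = 0
  · exact Or.inr hw
  · push Not at hw
    obtain ⟨f, hf⟩ := hw
    exact Or.inl (exists_eq_bc h hres hbc w hf)

/-! ### Invariance under the automorphisms fixing `F` -/

/-- A semilinear automorphism of `FΩ/Ω` fixing `F` pointwise fixes every extended place. -/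
theorem smul_bc (h : IsConstExt K F Ω FΩ) (hres : ∀ v : Place K F, RR.ResK v)
    (hbc : ∀ (v : Place K F) (f : F), (bc v).ord (algebraMap F FΩ f) = v.ord f)
    (g : SemilinearAut Ω FΩ) (hg : ∀ f : F, g • algebraMap F FΩ f = algebraMap F FΩ f)
    (v : Place K F) : g • bc v = bc v := by
  refine eq_bc h hres hbc fun f => ?_
  have h1 := SemilinearAut.ord_smul g (bc v) (algebraMap F FΩ f)
  rw [hg f] at h1
  rw [h1, hbc]

theorem smul_bcDiv (h : IsConstExt K F Ω FΩ) (hres : ∀ v : Place K F, RR.ResK v)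
    (hbc : ∀ (v : Place K F) (f : F), (bc v).ord (algebraMap F FΩ f) = v.ord f)
    (g : SemilinearAut Ω FΩ) (hg : ∀ f : F, g • algebraMap F FΩ f = algebraMap F FΩ f)
    (D : Divisor K F) : g • bcDiv bc D = bcDiv bc D :=
  BcDiv.smul_bcDiv g (smul_bc h hres hbc g hg) D

theorem smul_bcPic0 (h : IsConstExt K F Ω FΩ) (hres : ∀ v : Place K F, RR.ResK v)
    (hb : IsBcPlace bc) (g : SemilinearAut Ω FΩ)
    (hg : ∀ f : F, g • algebraMap F FΩ f = algebraMap F FΩ f) (c : Pic0 K F) :
    g • bcPic0 hb c = bcPic0 hb c :=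
  BcDiv.smul_bcPic0 hb g (smul_bc h hres hb.ord g hg) c

/-- The action of `Aut(Ω/K)` fixes the extended places. -/
theorem semilinearAut_smul_bc (h : IsConstExt K F Ω FΩ) (hres : ∀ v : Place K F, RR.ResK v)
    (hbc : ∀ (v : Place K F) (f : F), (bc v).ord (algebraMap F FΩ f) = v.ord f)
    (σ : Ω ≃ₐ[K] Ω) (v : Place K F) : h.semilinearAut σ • bc v = bc v :=
  smul_bc h hres hbc _ (fun f => h.semilinearAut_smul_algebraMap σ f) v

/-- The action of `Aut(Ω/K)` fixes the base-changed divisors. -/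
theorem semilinearAut_smul_bcDiv (h : IsConstExt K F Ω FΩ) (hres : ∀ v : Place K F, RR.ResK v)
    (hbc : ∀ (v : Place K F) (f : F), (bc v).ord (algebraMap F FΩ f) = v.ord f)
    (σ : Ω ≃ₐ[K] Ω) (D : Divisor K F) : h.semilinearAut σ • bcDiv bc D = bcDiv bc D :=
  smul_bcDiv h hres hbc _ (fun f => h.semilinearAut_smul_algebraMap σ f) D

/-- The action of `Aut(Ω/K)` fixes the base-changed classes. -/
theorem semilinearAut_smul_bcPic0 (h : IsConstExt K F Ω FΩ) (hres : ∀ v : Place K F, RR.ResK v)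
    (hb : IsBcPlace bc) (σ : Ω ≃ₐ[K] Ω) (c : Pic0 K F) :
    h.semilinearAut σ • bcPic0 hb c = bcPic0 hb c :=
  smul_bcPic0 h hres hb _ (fun f => h.semilinearAut_smul_algebraMap σ f) c

/-! ### Stability of `L(D_Ω)` -/

omit [Algebra K F] [Algebra K Ω] [Algebra F FΩ] in
/-- A semilinear automorphism fixing a divisor stabilises its Riemann–Roch space. -/
theorem smul_mem_riemannRochSpace_of_smul_eq (g : SemilinearAut Ω FΩ) {E : Divisor Ω FΩ}
    (hE : g • E = E) {z : FΩ} (hz : z ∈ riemannRochSpace E) : g • z ∈ riemannRochSpace E := by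
  rw [mem_riemannRochSpace_iff] at hz ⊢
  intro w
  rcases hz (g⁻¹ • w) with h0 | h1
  · left
    rw [h0, smul_zero]
  · right
    have h2 := SemilinearAut.ord_smul g (g⁻¹ • w) z
    rw [smul_inv_smul] at h2
    have h3 : E w = E (g⁻¹ • w) := by
      conv_lhs => rw [← hE]
      exact SemilinearAut.divisor_smul_apply g E w
    rw [h2, h3]
    exact h1

/-- `L(D_Ω)` is stable under the semilinear automorphisms of `FΩ/Ω` fixing `F` pointwise. -/
theorem riemannRochSpace_bcDiv_stable (h : IsConstExt K F Ω FΩ)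
    (hres : ∀ v : Place K F, RR.ResK v)
    (hbc : ∀ (v : Place K F) (f : F), (bc v).ord (algebraMap F FΩ f) = v.ord f)
    (g : SemilinearAut Ω FΩ) (hg : ∀ f : F, g • algebraMap F FΩ f = algebraMap F FΩ f)
    (D : Divisor K F) {z : FΩ} (hz : z ∈ riemannRochSpace (bcDiv bc D)) :
    g • z ∈ riemannRochSpace (bcDiv bc D) :=
  smul_mem_riemannRochSpace_of_smul_eq g (smul_bcDiv h hres hbc g hg D) hz

/-- `L(D_Ω)` is stable under `Aut(Ω/K)`. -/
theorem semilinearAut_smul_mem_riemannRochSpace (h : IsConstExt K F Ω FΩ)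
    (hres : ∀ v : Place K F, RR.ResK v)
    (hbc : ∀ (v : Place K F) (f : F), (bc v).ord (algebraMap F FΩ f) = v.ord f)
    (σ : Ω ≃ₐ[K] Ω) (D : Divisor K F) {z : FΩ} (hz : z ∈ riemannRochSpace (bcDiv bc D)) :
    h.semilinearAut σ • z ∈ riemannRochSpace (bcDiv bc D) :=
  riemannRochSpace_bcDiv_stable h hres hbc _ (fun f => h.semilinearAut_smul_algebraMap σ f) D hz

end Fermat.Agent.S27P.BC.BcPlace
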