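/-
S27 / (BC), helper28: THE GAUSS EXTENSION OF A PLACE to a constant field extension.

Setting (hypothesis form of the predicate `IsConstExt K F Ω FΩ` of the (BC) cut):
`F/K` a field extension, `Ω/K` a field extension, `FΩ` a field containing `F` and `Ω`
(compatibly over `K`) such that

* `hcomm hli`  : `K`-linearly independent finite families of `F` are `Ω`-linearly independent in `FΩ`;
* `hgen` : every element of `FΩ` is a quotient of two `Ω`-linear combinations of elements of `F`.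

For a place `P` of `F/K` with residue field `K` (`RR.ResK P`) the localisation of
`S = span_Ω (O_P)` at the prime `S₊ = span_Ω (m_P)` is a discrete valuation ring of `FΩ`
containing `Ω`: the place `gaussPlace hcomm hli P hgen hP` of `FΩ/Ω`.
-/
import Mathlib
import Fermat.Prelude.Def_AlgebraicCurve_DivisorClassGroup
import Fermat.Prelude.Def_AlgebraicCurve_BaseChangeGalois
import Fermat.Agent.Lib.FF.RRLocal
import Fermat.Agent.S24.PlaceBasic
import Fermat.Agent.S27P.BC.Defs

set_option autoImplicit false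
set_option linter.unusedSectionVars false
set_option linter.unusedVariables false
set_option linter.style.haveILetI false

noncomputable section

namespace Fermat.Agent.S27P.BC.GaussPlace

open AlgebraicCurve Fermat.Agent.Lib.FF

variable {K F Ω FΩ : Type*} [Field K] [Field F] [Field Ω] [Field FΩ]
  [Algebra K F] [Algebra K Ω] [Algebra F FΩ] [Algebra Ω FΩ]

variable (hcomm : ∀ a : K, algebraMap F FΩ (algebraMap K F a) = algebraMap Ω FΩ (algebraMap K Ω a))

/-! ### Linear algebra of the constant field extension -/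

include hcomm in
/-- `F → FΩ` is `K`-semilinear over `K → Ω`. -/
theorem algebraMap_smul_F (a : K) (f : F) :
    algebraMap F FΩ (a • f) = (algebraMap K Ω a) • algebraMap F FΩ f := by
  rw [Algebra.smul_def, map_mul, hcomm, Algebra.smul_def]

include hcomm in
/-- The `Ω`-span of the image of a `K`-span is the `Ω`-span of the images of the generators. -/
theorem algebraMap_mem_span_of_mem_span {s : Set F} {f : F}
    (hf : f ∈ Submodule.span K s) :
    algebraMap F FΩ f ∈ Submodule.span Ω (algebraMap F FΩ '' s) := by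
  induction hf using Submodule.span_induction with
  | mem x hx => exact Submodule.subset_span ⟨x, hx, rfl⟩
  | zero => rw [map_zero]; exact Submodule.zero_mem _
  | add x y _ _ hx hy => rw [map_add]; exact Submodule.add_mem _ hx hy
  | smul a x _ hx =>
    rw [algebraMap_smul_F hcomm]
    exact Submodule.smul_mem _ _ hx

include hcomm in
/-- **Normal form**: an element of the `Ω`-span of the image of a `K`-subspace `W` of `F` is a
combination `∑ d j • g j` with `K`-linearly independent coefficients `d j ∈ Ω` and `g j ∈ W`. -/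
theorem exists_indep_repr (W : Submodule K F) {r : FΩ}
    (hr : r ∈ Submodule.span Ω (algebraMap F FΩ '' (W : Set F))) :
    ∃ (k : ℕ) (d : Fin k → Ω) (g : Fin k → F), LinearIndependent K d ∧ (∀ j, g j ∈ W) ∧
      r = ∑ j, d j • algebraMap F FΩ (g j) := by
  classical
  obtain ⟨n, c, w, rfl⟩ := Submodule.mem_span_set'.1 hr
  choose w' hw'W hw' using fun i => (w i).2
  -- a basis of the `K`-span of the coefficients
  let V : Submodule K Ω := Submodule.span K (Set.range c)
  haveI : Module.Finite K V := Module.Finite.span_of_finite K (Set.finite_range c)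
  let b := Module.finBasis K V
  have hcV : ∀ i, c i ∈ V := fun i => Submodule.subset_span ⟨i, rfl⟩
  refine ⟨Module.finrank K V, fun j => (b j : Ω),
    fun j => ∑ i, (b.repr ⟨c i, hcV i⟩ j) • w' i, ?_, ?_, ?_⟩
  · exact b.linearIndependent.map' V.subtype (Submodule.ker_subtype V)
  · intro j
    exact Submodule.sum_mem _ fun i _ => Submodule.smul_mem _ _ (hw'W i)
  · have hc : ∀ i, c i = ∑ j, (b.repr ⟨c i, hcV i⟩ j) • (b j : Ω) := by
      intro i
      have h1 := b.sum_repr ⟨c i, hcV i⟩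
      have h2 : ((∑ j, (b.repr ⟨c i, hcV i⟩ j) • b j : V) : Ω) = c i :=
        congrArg (Subtype.val) h1
      refine h2.symm.trans ?_
      simp only [Submodule.coe_sum, Submodule.coe_smul]
    have e1 : ∀ j, (b j : Ω) • algebraMap F FΩ (∑ i, (b.repr ⟨c i, hcV i⟩ j) • w' i) =
        ∑ i, ((b.repr ⟨c i, hcV i⟩ j) • (b j : Ω)) • algebraMap F FΩ (w' i) := by
      intro j
      rw [map_sum, Finset.smul_sum]
      refine Finset.sum_congr rfl fun i _ => ?_
      rw [algebraMap_smul_F hcomm, smul_smul, mul_comm, ← Algebra.smul_def]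
    simp_rw [e1]
    rw [Finset.sum_comm]
    refine Finset.sum_congr rfl fun i _ => ?_
    rw [← Finset.sum_smul, ← hc i, hw' i]

variable (hli : ∀ (n : ℕ) (v : Fin n → F), LinearIndependent K v →
    LinearIndependent Ω (fun i => algebraMap F FΩ (v i)))

include hcomm hli in
/-- **Descent of membership**: if the image of `f ∈ F` lies in the `Ω`-span of the image of a
`K`-subspace `W` of `F`, then `f ∈ W`. -/
theorem mem_of_algebraMap_mem_span (W : Submodule K F) {f : F}
    (hf : algebraMap F FΩ f ∈ Submodule.span Ω (algebraMap F FΩ '' (W : Set F))) : f ∈ W := by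
  classical
  by_contra hfW
  obtain ⟨n, c, w, hsum⟩ := Submodule.mem_span_set'.1 hf
  choose w' hw'W hw' using fun i => (w i).2
  let V : Submodule K F := Submodule.span K (Set.range w')
  have hVW : V ≤ W := Submodule.span_le.2 (by rintro _ ⟨i, rfl⟩; exact hw'W i)
  haveI : Module.Finite K V := Module.Finite.span_of_finite K (Set.finite_range w')
  let b := Module.finBasis K V
  have hb : LinearIndependent K (fun j => (b j : F)) :=
    b.linearIndependent.map' V.subtype (Submodule.ker_subtype V)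
  have hspan : Submodule.span K (Set.range fun j => (b j : F)) = V := by
    have h1 : (fun j => (b j : F)) = V.subtype ∘ b := rfl
    rw [h1, Set.range_comp, ← Submodule.map_span, b.span_eq, Submodule.map_top,
      Submodule.range_subtype]
  have hfV : f ∉ Submodule.span K (Set.range fun j => (b j : F)) := by
    rw [hspan]
    exact fun h => hfW (hVW h)
  have hcons : LinearIndependent K (Fin.cons f (fun j => (b j : F)) : Fin (_ + 1) → F) :=
    linearIndependent_finCons.2 ⟨hb, hfV⟩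
  have h2 := hli _ _ hcons
  have e : (fun i => algebraMap F FΩ ((Fin.cons f (fun j => (b j : F)) : Fin (_ + 1) → F) i)) =
      Fin.cons (algebraMap F FΩ f) (fun j => algebraMap F FΩ (b j : F)) := by
    funext i
    refine Fin.cases ?_ (fun j => ?_) i <;> simp
  rw [e] at h2
  have h3 := (linearIndependent_finCons.1 h2).2
  apply h3
  rw [← hsum]
  refine Submodule.sum_mem _ fun i _ => Submodule.smul_mem _ _ ?_
  rw [← hw' i]
  have h4 : w' i ∈ Submodule.span K (Set.range fun j => (b j : F)) := by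
    rw [hspan]
    exact Submodule.subset_span ⟨i, rfl⟩
  have h5 := algebraMap_mem_span_of_mem_span hcomm h4
  rwa [← Set.range_comp] at h5

/-! ### The rings `S = span_Ω (O_P)`, `S₊ = span_Ω (m_P)` and the residue relation -/

section Place

variable (P : Place K F)

/-- The valuation ring of `P` as a `K`-subspace of `F`. -/
def oSub : Submodule K F where
  carrier := {f | f ∈ P.toValuationSubring}
  zero_mem' := P.toValuationSubring.zero_mem
  add_mem' := fun ha hb => P.toValuationSubring.add_mem _ _ ha hb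
  smul_mem' := fun c f hf => by
    show c • f ∈ P.toValuationSubring
    rw [Algebra.smul_def]
    exact P.toValuationSubring.mul_mem _ _ (P.algebraMap_mem' c) hf

/-- The maximal ideal of `P` as a `K`-subspace of `F`. -/
def mSub : Submodule K F where
  carrier := {f | ∃ h : f ∈ P.toValuationSubring,
    (⟨f, h⟩ : P.toValuationSubring) ∈ IsLocalRing.maximalIdeal P.toValuationSubring}
  zero_mem' := ⟨P.toValuationSubring.zero_mem, Ideal.zero_mem _⟩
  add_mem' := by
    rintro a b ⟨ha, ha'⟩ ⟨hb, hb'⟩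
    exact ⟨P.toValuationSubring.add_mem _ _ ha hb, Ideal.add_mem _ ha' hb'⟩
  smul_mem' := by
    rintro c f ⟨hf, hf'⟩
    have hc : c • f ∈ P.toValuationSubring := by
      rw [Algebra.smul_def]
      exact P.toValuationSubring.mul_mem _ _ (P.algebraMap_mem' c) hf
    refine ⟨hc, ?_⟩
    have e : (⟨c • f, hc⟩ : P.toValuationSubring) =
        ⟨algebraMap K F c, P.algebraMap_mem' c⟩ * ⟨f, hf⟩ := by
      apply Subtype.ext
      show c • f = algebraMap K F c * f
      rw [Algebra.smul_def]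
    rw [e]
    exact Ideal.mul_mem_left _ _ hf'

theorem mem_oSub {f : F} : f ∈ oSub P ↔ f ∈ P.toValuationSubring := Iff.rfl

theorem mSub_le_oSub : mSub P ≤ oSub P := fun _ h => h.1

theorem one_not_mem_mSub : (1 : F) ∉ mSub P := by
  rintro ⟨h, h'⟩
  exact (IsLocalRing.mem_maximalIdeal _).1 h' (by
    have : (⟨1, h⟩ : P.toValuationSubring) = 1 := rfl
    rw [this]
    exact isUnit_one)

/-- `S = span_Ω (O_P)`. -/
def SO (Ω FΩ : Type*) [Field Ω] [Field FΩ] [Algebra F FΩ] [Algebra Ω FΩ] (P : Place K F) :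
    Submodule Ω FΩ := Submodule.span Ω (algebraMap F FΩ '' (oSub P : Set F))

/-- `S₊ = span_Ω (m_P)`. -/
def SM (Ω FΩ : Type*) [Field Ω] [Field FΩ] [Algebra F FΩ] [Algebra Ω FΩ] (P : Place K F) :
    Submodule Ω FΩ := Submodule.span Ω (algebraMap F FΩ '' (mSub P : Set F))

theorem SM_le_SO : SM Ω FΩ P ≤ SO Ω FΩ P :=
  Submodule.span_mono (Set.image_mono (mSub_le_oSub P))

theorem algebraMap_mem_SO {f : F} (hf : f ∈ P.toValuationSubring) :
    algebraMap F FΩ f ∈ SO Ω FΩ P :=
  Submodule.subset_span ⟨f, hf, rfl⟩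

theorem algebraMap_mem_SM {f : F} (hf : f ∈ mSub P) :
    algebraMap F FΩ f ∈ SM Ω FΩ P :=
  Submodule.subset_span ⟨f, hf, rfl⟩

theorem one_mem_SO : (1 : FΩ) ∈ SO Ω FΩ P := by
  have := algebraMap_mem_SO (Ω := Ω) (FΩ := FΩ) P P.toValuationSubring.one_mem
  rwa [map_one] at this

theorem const_mem_SO (c : Ω) : algebraMap Ω FΩ c ∈ SO Ω FΩ P := by
  rw [Algebra.algebraMap_eq_smul_one]
  exact Submodule.smul_mem _ _ (one_mem_SO P)

theorem mul_mem_SO {x y : FΩ} (hx : x ∈ SO Ω FΩ P) (hy : y ∈ SO Ω FΩ P) :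
    x * y ∈ SO Ω FΩ P := by
  have h := Submodule.mul_mem_mul hx hy
  rw [SO, Submodule.span_mul_span] at h
  refine Submodule.span_mono ?_ h
  rintro _ ⟨_, ⟨a, ha, rfl⟩, _, ⟨b, hb, rfl⟩, rfl⟩
  exact ⟨a * b, P.toValuationSubring.mul_mem _ _ ha hb, map_mul _ _ _⟩

theorem mul_mem_SM {x y : FΩ} (hx : x ∈ SO Ω FΩ P) (hy : y ∈ SM Ω FΩ P) :
    x * y ∈ SM Ω FΩ P := by
  have h := Submodule.mul_mem_mul hx hy
  rw [SO, SM, Submodule.span_mul_span] at h
  refine Submodule.span_mono ?_ h
  rintro _ ⟨_, ⟨a, ha, rfl⟩, _, ⟨b, ⟨hb, hb'⟩, rfl⟩, rfl⟩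
  refine ⟨a * b, ⟨P.toValuationSubring.mul_mem _ _ ha hb, ?_⟩, map_mul _ _ _⟩
  have e : (⟨a * b, P.toValuationSubring.mul_mem _ _ ha hb⟩ : P.toValuationSubring) =
      ⟨a, ha⟩ * ⟨b, hb⟩ := rfl
  rw [e]
  exact Ideal.mul_mem_left _ _ hb'

theorem pow_mem_SO {x : FΩ} (hx : x ∈ SO Ω FΩ P) (n : ℕ) :
    x ^ n ∈ SO Ω FΩ P := by
  induction n with
  | zero => rw [pow_zero]; exact one_mem_SO P
  | succ n ih => rw [pow_succ]; exact mul_mem_SO P ih hx

include hcomm hli in
theorem one_not_mem_SM : (1 : FΩ) ∉ SM Ω FΩ P := by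
  intro h
  have h1 : algebraMap F FΩ (1 : F) ∈
      Submodule.span Ω (algebraMap F FΩ '' (mSub P : Set F)) := by
    rw [map_one]
    exact h
  exact one_not_mem_mSub P (mem_of_algebraMap_mem_span hcomm hli (mSub P) h1)

/-- `z` has residue `c ∈ Ω`. -/
def IsRes (z : FΩ) (c : Ω) : Prop := z - algebraMap Ω FΩ c ∈ SM Ω FΩ P

theorem isRes_zero_iff {z : FΩ} : IsRes P z (0 : Ω) ↔ z ∈ SM Ω FΩ P := by
  rw [IsRes, map_zero, sub_zero]

theorem isRes_const (c : Ω) : IsRes P (algebraMap Ω FΩ c) c := by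
  rw [IsRes, sub_self]
  exact Submodule.zero_mem _

theorem IsRes.add {z z' : FΩ} {c c' : Ω} (h : IsRes P z c) (h' : IsRes P z' c') :
    IsRes P (z + z') (c + c') := by
  have := Submodule.add_mem _ h h'
  rw [IsRes, map_add]
  convert this using 1
  ring

theorem IsRes.sub {z z' : FΩ} {c c' : Ω} (h : IsRes P z c) (h' : IsRes P z' c') :
    IsRes P (z - z') (c - c') := by
  have := Submodule.sub_mem _ h h'
  rw [IsRes, map_sub]
  convert this using 1
  ring

theorem IsRes.smul {z : FΩ} {c : Ω} (e : Ω) (h : IsRes P z c) : IsRes P (e • z) (e * c) := by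
  have := Submodule.smul_mem _ e h
  rw [IsRes, map_mul]
  convert this using 1
  rw [smul_sub, Algebra.smul_def, Algebra.smul_def]

theorem IsRes.mul {z z' : FΩ} {c c' : Ω} (h : IsRes P z c) (hz' : z' ∈ SO Ω FΩ P)
    (h' : IsRes P z' c') : IsRes P (z * z') (c * c') := by
  have h1 : z' * (z - algebraMap Ω FΩ c) ∈ SM Ω FΩ P := mul_mem_SM P hz' h
  have h2 : algebraMap Ω FΩ c * (z' - algebraMap Ω FΩ c') ∈ SM Ω FΩ P :=
    mul_mem_SM P (const_mem_SO P c) h'
  have := Submodule.add_mem _ h1 h2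
  rw [IsRes, map_mul]
  convert this using 1
  ring

include hcomm hli in
theorem isRes_unique {z : FΩ} {c c' : Ω} (h : IsRes P z c) (h' : IsRes P z c') : c = c' := by
  by_contra hne
  have h1 : algebraMap Ω FΩ (c' - c) ∈ SM Ω FΩ P := by
    have := Submodule.sub_mem _ h h'
    rw [map_sub]
    convert this using 1
    ring
  have h2 : (c' - c)⁻¹ • algebraMap Ω FΩ (c' - c) ∈ SM Ω FΩ P :=
    Submodule.smul_mem _ _ h1
  rw [Algebra.smul_def, ← map_mul, inv_mul_cancel₀ (sub_ne_zero.2 (Ne.symm hne)), map_one] at h2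
  exact one_not_mem_SM hcomm hli P h2

include hcomm in
/-- The residue of the image of an element of `O_P` with residue `γ ∈ K`. -/
theorem isRes_algebraMap {a : F} {γ : K} (h : a - algebraMap K F γ ∈ mSub P) :
    IsRes P (algebraMap F FΩ a) (algebraMap K Ω γ) := by
  have := algebraMap_mem_SM (Ω := Ω) (FΩ := FΩ) P h
  rw [IsRes]
  convert this using 1
  rw [map_sub, hcomm]

include hcomm in
/-- Every element of `S` has a residue. -/
theorem exists_isRes (hP : RR.ResK P) {z : FΩ} (hz : z ∈ SO Ω FΩ P) :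
    ∃ c : Ω, IsRes P z c := by
  induction hz using Submodule.span_induction with
  | mem x hx =>
    obtain ⟨a, ha, rfl⟩ := hx
    obtain ⟨γ, hγ⟩ := hP ⟨a, ha⟩
    refine ⟨algebraMap K Ω γ, isRes_algebraMap hcomm P ⟨?_, ?_⟩⟩
    · exact sub_mem ha (P.algebraMap_mem' γ)
    · exact hγ
  | zero => exact ⟨0, by rw [isRes_zero_iff]; exact Submodule.zero_mem _⟩
  | add x y _ _ hx hy =>
    obtain ⟨c, hc⟩ := hx
    obtain ⟨c', hc'⟩ := hy
    exact ⟨c + c', hc.add P hc'⟩
  | smul e x _ hx =>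
    obtain ⟨c, hc⟩ := hx
    exact ⟨e * c, hc.smul P e⟩

/-- The "units" of `S`: elements of `S` with nonzero residue. -/
def IsU (Ω : Type*) {FΩ : Type*} [Field Ω] [Field FΩ] [Algebra F FΩ] [Algebra Ω FΩ]
    (P : Place K F) (z : FΩ) : Prop :=
  z ∈ SO Ω FΩ P ∧ ∃ c : Ω, c ≠ 0 ∧ IsRes P z c

theorem isU_one : IsU Ω P (1 : FΩ) :=
  ⟨one_mem_SO P, 1, one_ne_zero, by
    have := isRes_const (FΩ := FΩ) P (1 : Ω)
    rwa [map_one] at this⟩

theorem IsU.mul {z z' : FΩ} (h : IsU Ω P z) (h' : IsU Ω P z') : IsU Ω P (z * z') := by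
  obtain ⟨hz, c, hc, hr⟩ := h
  obtain ⟨hz', c', hc', hr'⟩ := h'
  exact ⟨mul_mem_SO P hz hz', c * c', mul_ne_zero hc hc', hr.mul P hz' hr'⟩

include hcomm hli in
theorem IsU.not_mem_SM {z : FΩ} (h : IsU Ω P z) : z ∉ SM Ω FΩ P := by
  obtain ⟨-, c, hc, hr⟩ := h
  intro hz
  exact hc (isRes_unique hcomm hli P hr ((isRes_zero_iff P).2 hz))

include hcomm hli in
theorem IsU.ne_zero {z : FΩ} (h : IsU Ω P z) : z ≠ 0 := by
  rintro rfl
  exact h.not_mem_SM hcomm hli P (Submodule.zero_mem _)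

end Place

/-! ### The uniformiser and the Gauss factorisation -/

section Unif

variable (P : Place K F) (π : P.toValuationSubring)

theorem pi_mem_mSub (hπ : Irreducible π) : (π : F) ∈ mSub P :=
  ⟨π.2, (IsLocalRing.mem_maximalIdeal _).2 hπ.not_isUnit⟩

theorem pi_ne_zero (hπ : Irreducible π) : (π : F) ≠ 0 := fun h =>
  hπ.ne_zero (Subtype.ext h)

theorem T_ne_zero (hπ : Irreducible π) : algebraMap F FΩ (π : F) ≠ 0 := by
  rw [Ne, map_eq_zero]
  exact pi_ne_zero P π hπ

theorem T_mul_mem_SM (hπ : Irreducible π) {x : FΩ} (hx : x ∈ SO Ω FΩ P) :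
    algebraMap F FΩ (π : F) * x ∈ SM Ω FΩ P := by
  rw [mul_comm]
  exact mul_mem_SM P hx (algebraMap_mem_SM P (pi_mem_mSub P π hπ))

theorem exists_eq_T_mul (hπ : Irreducible π) {x : FΩ} (hx : x ∈ SM Ω FΩ P) :
    ∃ y ∈ SO Ω FΩ P, x = algebraMap F FΩ (π : F) * y := by
  induction hx using Submodule.span_induction with
  | mem x hx =>
    obtain ⟨m, ⟨hm, hm'⟩, rfl⟩ := hx
    rw [hπ.maximalIdeal_eq, Ideal.mem_span_singleton'] at hm'
    obtain ⟨a, ha⟩ := hm'
    refine ⟨algebraMap F FΩ (a : F), algebraMap_mem_SO P a.2, ?_⟩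
    rw [← map_mul]
    congr 1
    have h1 : (a : F) * (π : F) = m := congrArg Subtype.val ha
    rw [← h1, mul_comm]
  | zero => exact ⟨0, Submodule.zero_mem _, by rw [mul_zero]⟩
  | add x y _ _ hx hy =>
    obtain ⟨a, ha, rfl⟩ := hx
    obtain ⟨b, hb, rfl⟩ := hy
    exact ⟨a + b, Submodule.add_mem _ ha hb, by ring⟩
  | smul e x _ hx =>
    obtain ⟨a, ha, rfl⟩ := hx
    exact ⟨e • a, Submodule.smul_mem _ _ ha, by rw [mul_smul_comm]⟩

theorem isRes_sum {ι : Type*} (s : Finset ι) (z : ι → FΩ) (c : ι → Ω)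
    (h : ∀ i ∈ s, IsRes P (z i) (c i)) : IsRes P (∑ i ∈ s, z i) (∑ i ∈ s, c i) := by
  classical
  induction s using Finset.induction_on with
  | empty =>
    rw [Finset.sum_empty, Finset.sum_empty, isRes_zero_iff]
    exact Submodule.zero_mem _
  | insert i s hi ih =>
    rw [Finset.sum_insert hi, Finset.sum_insert hi]
    exact (h i (Finset.mem_insert_self _ _)).add P
      (ih fun j hj => h j (Finset.mem_insert_of_mem hj))

include hcomm hli in
/-- **The Gauss factorisation**: a combination `∑ d j • g j` with `K`-linearly independent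
`d j ∈ Ω` and `g j ∈ F`, not all zero, is `t ^ n` times a unit of `S`, `n` the minimum of the
orders of the `g j`. -/
theorem gauss_fact (hP : RR.ResK P) (hπ : Irreducible π) {k : ℕ} (d : Fin k → Ω)
    (hd : LinearIndependent K d) (g : Fin k → F) (j₀ : Fin k) (hj₀ : g j₀ ≠ 0)
    (hmin : ∀ j, g j ≠ 0 → P.ord (g j₀) ≤ P.ord (g j)) :
    ∃ s : FΩ, IsU Ω P s ∧
      ∑ j, d j • algebraMap F FΩ (g j) = algebraMap F FΩ (π : F) ^ (P.ord (g j₀)) * s := by
  classical
  have ht0 : (π : F) ≠ 0 := pi_ne_zero P π hπ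
  have hordt : P.ord (π : F) = 1 := P.ord_coe_irreducible hπ
  have ha : ∀ j, (π : F) ^ (-P.ord (g j₀)) * g j ∈ P.toValuationSubring := by
    intro j
    by_cases hg : g j = 0
    · rw [hg, mul_zero]
      exact zero_mem _
    · apply Fermat.Agent.S24.mem_of_ord_nonneg
      rw [P.ord_mul (zpow_ne_zero _ ht0) hg, P.ord_zpow, hordt]
      have := hmin j hg
      omega
  choose γ hγ using fun j => hP ⟨_, ha j⟩
  have hres : ∀ j, IsRes P (algebraMap F FΩ ((π : F) ^ (-P.ord (g j₀)) * g j))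
      (algebraMap K Ω (γ j)) := fun j =>
    isRes_algebraMap hcomm P ⟨sub_mem (ha j) (P.algebraMap_mem' _), hγ j⟩
  refine ⟨∑ j, d j • algebraMap F FΩ ((π : F) ^ (-P.ord (g j₀)) * g j),
    ⟨?_, ∑ j, d j * algebraMap K Ω (γ j), ?_, ?_⟩, ?_⟩
  · exact Submodule.sum_mem _ fun j _ => Submodule.smul_mem _ _ (algebraMap_mem_SO P (ha j))
  · intro h0
    have h1 : ∑ j, γ j • d j = 0 := by
      rw [← h0]
      refine Finset.sum_congr rfl fun j _ => ?_
      rw [Algebra.smul_def, mul_comm]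
    have h2 := Fintype.linearIndependent_iff.1 hd γ h1 j₀
    have h3 := hγ j₀
    rw [h2, map_zero, sub_zero] at h3
    have ha0 : (π : F) ^ (-P.ord (g j₀)) * g j₀ ≠ 0 := mul_ne_zero (zpow_ne_zero _ ht0) hj₀
    have hord0 : P.ord ((π : F) ^ (-P.ord (g j₀)) * g j₀) = 0 := by
      rw [P.ord_mul (zpow_ne_zero _ ht0) hj₀, P.ord_zpow, hordt]
      ring
    have hinv : ((π : F) ^ (-P.ord (g j₀)) * g j₀)⁻¹ ∈ P.toValuationSubring :=
      Fermat.Agent.S24.mem_of_ord_nonneg P (by rw [P.ord_inv, hord0]; simp)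
    apply (IsLocalRing.mem_maximalIdeal _).1 h3
    exact IsUnit.of_mul_eq_one (⟨_, hinv⟩ : P.toValuationSubring)
      (Subtype.ext (mul_inv_cancel₀ ha0))
  · exact isRes_sum P _ _ _ fun j _ => (hres j).smul P (d j)
  · rw [Finset.mul_sum]
    refine Finset.sum_congr rfl fun j _ => ?_
    rw [mul_smul_comm, ← map_zpow₀, ← map_mul]
    congr 2
    rw [← mul_assoc, ← zpow_add₀ ht0, add_neg_cancel, zpow_zero, one_mul]

include hcomm hli in
/-- Every nonzero element of `F·Ω = span_Ω (F)` is `t ^ n` times a unit of `S`. -/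
theorem exists_zpow_isU (hP : RR.ResK P) (hπ : Irreducible π) {r : FΩ}
    (hr : r ∈ Submodule.span Ω (Set.range (algebraMap F FΩ))) (hr0 : r ≠ 0) :
    ∃ (n : ℤ) (s : FΩ), IsU Ω P s ∧ r = algebraMap F FΩ (π : F) ^ n * s := by
  classical
  have hr' : r ∈ Submodule.span Ω (algebraMap F FΩ '' ((⊤ : Submodule K F) : Set F)) := by
    rwa [Submodule.top_coe, Set.image_univ]
  obtain ⟨k, d, g, hd, -, rfl⟩ := exists_indep_repr hcomm (⊤ : Submodule K F) hr'
  have hne : (Finset.univ.filter fun j => g j ≠ 0).Nonempty := by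
    by_contra hemp
    rw [Finset.not_nonempty_iff_eq_empty] at hemp
    apply hr0
    refine Finset.sum_eq_zero fun j _ => ?_
    have : j ∉ Finset.univ.filter fun j => g j ≠ 0 := by rw [hemp]; exact Finset.notMem_empty _
    rw [Finset.mem_filter, not_and, not_not] at this
    rw [this (Finset.mem_univ _), map_zero, smul_zero]
  obtain ⟨j₀, hj₀, hmin⟩ := Finset.exists_min_image _ (fun j => P.ord (g j)) hne
  rw [Finset.mem_filter] at hj₀
  obtain ⟨s, hs, e⟩ := gauss_fact hcomm hli P π hP hπ d hd g j₀ hj₀.2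
    (fun j hj => hmin j (Finset.mem_filter.2 ⟨Finset.mem_univ _, hj⟩))
  exact ⟨_, s, hs, e⟩

end Unif

/-! ### The Gauss valuation ring -/

section Ring

variable (Ω) in
/-- The localisation of `S` at the prime `S₊`, as a subring of `FΩ`. -/
def gaussRing (P : Place K F) : Subring FΩ where
  carrier := {z | ∃ a b : FΩ, a ∈ SO Ω FΩ P ∧ IsU Ω P b ∧ z * b = a}
  mul_mem' := by
    rintro z z' ⟨a, b, ha, hb, e⟩ ⟨a', b', ha', hb', e'⟩
    exact ⟨a * a', b * b', mul_mem_SO P ha ha', hb.mul P hb', by rw [← e, ← e']; ring⟩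
  one_mem' := ⟨1, 1, one_mem_SO P, isU_one P, by ring⟩
  add_mem' := by
    rintro z z' ⟨a, b, ha, hb, e⟩ ⟨a', b', ha', hb', e'⟩
    exact ⟨a * b' + a' * b, b * b',
      Submodule.add_mem _ (mul_mem_SO P ha hb'.1) (mul_mem_SO P ha' hb.1), hb.mul P hb',
      by rw [← e, ← e']; ring⟩
  zero_mem' := ⟨0, 1, Submodule.zero_mem _, isU_one P, by ring⟩
  neg_mem' := by
    rintro z ⟨a, b, ha, hb, e⟩
    exact ⟨-a, b, Submodule.neg_mem _ ha, hb, by rw [← e]; ring⟩

variable (P : Place K F) (π : P.toValuationSubring)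

theorem mem_gaussRing_iff {z : FΩ} :
    z ∈ gaussRing Ω P ↔ ∃ a b : FΩ, a ∈ SO Ω FΩ P ∧ IsU Ω P b ∧ z * b = a := Iff.rfl

theorem mem_gaussRing_of_nonneg {z s s' : FΩ} {n : ℤ} (hn : 0 ≤ n) (hs : IsU Ω P s)
    (hs' : IsU Ω P s') (e : z * s' = algebraMap F FΩ (π : F) ^ n * s) : z ∈ gaussRing Ω P := by
  refine ⟨algebraMap F FΩ (π : F) ^ n * s, s', mul_mem_SO P ?_ hs.1, hs', e⟩
  lift n to ℕ using hn
  rw [zpow_natCast]
  exact pow_mem_SO P (algebraMap_mem_SO P π.2) n

include hcomm hli in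
theorem not_mem_gaussRing_of_neg (hπ : Irreducible π) {z s s' : FΩ} {n : ℤ} (hn : n < 0)
    (hs : IsU Ω P s) (hs' : IsU Ω P s')
    (e : z * s' = algebraMap F FΩ (π : F) ^ n * s) : z ∉ gaussRing Ω P := by
  rintro ⟨a, b, ha, hb, e'⟩
  have hT0 : algebraMap F FΩ (π : F) ≠ 0 := T_ne_zero P π hπ
  have h0 : algebraMap F FΩ (π : F) ^ n * (s * b) = a * s' := by
    calc algebraMap F FΩ (π : F) ^ n * (s * b)
        = (algebraMap F FΩ (π : F) ^ n * s) * b := by ring
      _ = z * s' * b := by rw [e]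
      _ = (z * b) * s' := by ring
      _ = a * s' := by rw [e']
  have h1 : s * b = algebraMap F FΩ (π : F) ^ (-n) * (a * s') := by
    rw [← h0, ← mul_assoc, ← zpow_add₀ hT0, neg_add_cancel, zpow_zero, one_mul]
  obtain ⟨k, hk⟩ : ∃ k : ℕ, -n = (k : ℤ) + 1 := ⟨(-n - 1).toNat, by omega⟩
  have h2 : s * b ∈ SM Ω FΩ P := by
    rw [h1, hk, zpow_add₀ hT0, zpow_one, zpow_natCast]
    have e2 : algebraMap F FΩ (π : F) ^ k * algebraMap F FΩ (π : F) * (a * s') =
        algebraMap F FΩ (π : F) * (algebraMap F FΩ (π : F) ^ k * (a * s')) := by ring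
    rw [e2]
    exact T_mul_mem_SM P π hπ
      (mul_mem_SO P (pow_mem_SO P (algebraMap_mem_SO P π.2) k) (mul_mem_SO P ha hs'.1))
  exact (hs.mul P hb).not_mem_SM hcomm hli P h2

variable (hgen : ∀ z : FΩ, ∃ a b : FΩ, a ∈ Submodule.span Ω (Set.range (algebraMap F FΩ)) ∧
    b ∈ Submodule.span Ω (Set.range (algebraMap F FΩ)) ∧ b ≠ 0 ∧ z * b = a)

include hcomm hli hgen in
/-- Every nonzero element of `FΩ` is `t ^ n` times a quotient of two units of `S`. -/
theorem exists_zpow_repr (hP : RR.ResK P) (hπ : Irreducible π) {z : FΩ} (hz : z ≠ 0) :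
    ∃ (n : ℤ) (s s' : FΩ), IsU Ω P s ∧ IsU Ω P s' ∧
      z * s' = algebraMap F FΩ (π : F) ^ n * s := by
  have hT0 : algebraMap F FΩ (π : F) ≠ 0 := T_ne_zero P π hπ
  obtain ⟨a, b, ha, hb, hb0, e⟩ := hgen z
  have ha0 : a ≠ 0 := by
    rw [← e]
    exact mul_ne_zero hz hb0
  obtain ⟨n, s, hs, rfl⟩ := exists_zpow_isU hcomm hli P π hP hπ ha ha0
  obtain ⟨m, s', hs', rfl⟩ := exists_zpow_isU hcomm hli P π hP hπ hb hb0
  refine ⟨n - m, s, s', hs, hs', ?_⟩
  have h1 : z * s' = z * (algebraMap F FΩ (π : F) ^ m * s') * algebraMap F FΩ (π : F) ^ (-m) := by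
    have : algebraMap F FΩ (π : F) ^ m * algebraMap F FΩ (π : F) ^ (-m) = 1 := by
      rw [← zpow_add₀ hT0, add_neg_cancel, zpow_zero]
    calc z * s' = z * s' * (algebraMap F FΩ (π : F) ^ m * algebraMap F FΩ (π : F) ^ (-m)) := by
          rw [this, mul_one]
      _ = _ := by ring
  rw [h1, e, sub_eq_add_neg, zpow_add₀ hT0]
  ring

/-- The Gauss valuation ring of `P` in `FΩ`. -/
def gaussVS (hP : RR.ResK P) : ValuationSubring FΩ :=
  { gaussRing Ω P with
    mem_or_inv_mem' := by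
      intro z
      by_cases hz : z = 0
      · left
        rw [hz]
        exact (gaussRing Ω P).zero_mem
      obtain ⟨π, hπ⟩ := IsDiscreteValuationRing.exists_irreducible P.toValuationSubring
      have hT0 : algebraMap F FΩ (π : F) ≠ 0 := T_ne_zero P π hπ
      obtain ⟨n, s, s', hs, hs', e⟩ := exists_zpow_repr hcomm hli P π hgen hP hπ hz
      rcases le_or_gt 0 n with hn | hn
      · left
        exact mem_gaussRing_of_nonneg P π hn hs hs' e
      · right
        refine mem_gaussRing_of_nonneg P π (n := -n) (by omega) hs' hs ?_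
        have h1 : s' = z⁻¹ * (algebraMap F FΩ (π : F) ^ n * s) := by
          rw [← e, ← mul_assoc, inv_mul_cancel₀ hz, one_mul]
        rw [h1]
        have h2 : algebraMap F FΩ (π : F) ^ (-n) * algebraMap F FΩ (π : F) ^ n = 1 := by
          rw [← zpow_add₀ hT0, neg_add_cancel, zpow_zero]
        calc z⁻¹ * s = z⁻¹ * s * (algebraMap F FΩ (π : F) ^ (-n) * algebraMap F FΩ (π : F) ^ n) := by
              rw [h2, mul_one]
          _ = _ := by ring }

theorem mem_gaussVS_iff (hP : RR.ResK P) {z : FΩ} :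
    z ∈ gaussVS hcomm hli P hgen hP ↔ z ∈ gaussRing Ω P := Iff.rfl

end Ring

/-! ### The Gauss place -/

section ThePlace

variable (P : Place K F)
variable (hgen : ∀ z : FΩ, ∃ a b : FΩ, a ∈ Submodule.span Ω (Set.range (algebraMap F FΩ)) ∧
    b ∈ Submodule.span Ω (Set.range (algebraMap F FΩ)) ∧ b ≠ 0 ∧ z * b = a)
variable (hP : RR.ResK P)

theorem T_mem (π : P.toValuationSubring) :
    algebraMap F FΩ (π : F) ∈ gaussVS hcomm hli P hgen hP :=
  ⟨algebraMap F FΩ (π : F), 1, algebraMap_mem_SO P π.2, isU_one P, by ring⟩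

theorem isU_mem {s : FΩ} (hs : IsU Ω P s) : s ∈ gaussVS hcomm hli P hgen hP :=
  ⟨s, 1, hs.1, isU_one P, by ring⟩

theorem isU_inv_mem {s : FΩ} (hs : IsU Ω P s) : s⁻¹ ∈ gaussVS hcomm hli P hgen hP :=
  ⟨1, s, one_mem_SO P, hs, inv_mul_cancel₀ (hs.ne_zero hcomm hli P)⟩

/-- A unit of `S` is a unit of the Gauss valuation ring. -/
def unitOfIsU {s : FΩ} (hs : IsU Ω P s) : (gaussVS hcomm hli P hgen hP)ˣ where
  val := ⟨s, isU_mem hcomm hli P hgen hP hs⟩
  inv := ⟨s⁻¹, isU_inv_mem hcomm hli P hgen hP hs⟩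
  val_inv := Subtype.ext (mul_inv_cancel₀ (hs.ne_zero hcomm hli P))
  inv_val := Subtype.ext (inv_mul_cancel₀ (hs.ne_zero hcomm hli P))

theorem T_inv_not_mem (π : P.toValuationSubring) (hπ : Irreducible π) :
    (algebraMap F FΩ (π : F))⁻¹ ∉ gaussVS hcomm hli P hgen hP := by
  refine not_mem_gaussRing_of_neg hcomm hli P π hπ (n := -1) (by omega) (isU_one P) (isU_one P) ?_
  rw [zpow_neg_one]

theorem T_not_isUnit (π : P.toValuationSubring) (hπ : Irreducible π) :
    ¬ IsUnit (⟨_, T_mem hcomm hli P hgen hP π⟩ : gaussVS hcomm hli P hgen hP) := by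
  intro hu
  obtain ⟨y, hy⟩ := hu.exists_right_inv
  have h1 : algebraMap F FΩ (π : F) * (y : FΩ) = 1 := congrArg Subtype.val hy
  have h2 : (y : FΩ) = (algebraMap F FΩ (π : F))⁻¹ := eq_inv_of_mul_eq_one_right h1
  exact T_inv_not_mem hcomm hli P hgen hP π hπ (h2 ▸ y.2)

/-- Every nonzero element of the Gauss valuation ring is `t ^ n` times a unit. -/
theorem exists_pow_mul_unit (π : P.toValuationSubring) (hπ : Irreducible π)
    (x : gaussVS hcomm hli P hgen hP) (hx : x ≠ 0) :
    ∃ (n : ℕ) (u : (gaussVS hcomm hli P hgen hP)ˣ),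
      x = (⟨_, T_mem hcomm hli P hgen hP π⟩ : gaussVS hcomm hli P hgen hP) ^ n * u := by
  have hx0 : (x : FΩ) ≠ 0 := fun h => hx (Subtype.ext h)
  obtain ⟨n, s, s', hs, hs', e⟩ := exists_zpow_repr hcomm hli P π hgen hP hπ hx0
  have hn : 0 ≤ n := by
    by_contra hneg
    exact not_mem_gaussRing_of_neg hcomm hli P π hπ (not_le.1 hneg) hs hs' e x.2
  lift n to ℕ using hn
  refine ⟨n, unitOfIsU hcomm hli P hgen hP hs * (unitOfIsU hcomm hli P hgen hP hs')⁻¹, Subtype.ext ?_⟩
  show (x : FΩ) = algebraMap F FΩ (π : F) ^ n * (s * s'⁻¹)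
  rw [zpow_natCast] at e
  rw [← mul_assoc, ← e, mul_assoc, mul_inv_cancel₀ (hs'.ne_zero hcomm hli P), mul_one]

theorem T_irreducible (π : P.toValuationSubring) (hπ : Irreducible π) :
    Irreducible (⟨_, T_mem hcomm hli P hgen hP π⟩ : gaussVS hcomm hli P hgen hP) := by
  set p : gaussVS hcomm hli P hgen hP := ⟨_, T_mem hcomm hli P hgen hP π⟩ with hp
  have hp0 : p ≠ 0 := fun h => T_ne_zero P π hπ (congrArg Subtype.val h)
  have hnu : ¬ IsUnit p := T_not_isUnit hcomm hli P hgen hP π hπ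
  refine irreducible_iff.2 ⟨hnu, fun a b hab => ?_⟩
  have ha0 : a ≠ 0 := by
    rintro rfl
    exact hp0 (by rw [hab, zero_mul])
  have hb0 : b ≠ 0 := by
    rintro rfl
    exact hp0 (by rw [hab, mul_zero])
  obtain ⟨i, u, rfl⟩ := exists_pow_mul_unit hcomm hli P hgen hP π hπ a ha0
  obtain ⟨j, u', rfl⟩ := exists_pow_mul_unit hcomm hli P hgen hP π hπ b hb0
  rcases Nat.eq_zero_or_pos i with rfl | hi
  · left
    rw [pow_zero, one_mul]
    exact u.isUnit
  rcases Nat.eq_zero_or_pos j with rfl | hj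
  · right
    rw [pow_zero, one_mul]
    exact u'.isUnit
  exfalso
  apply hnu
  obtain ⟨m, hm⟩ : ∃ m : ℕ, i + j = m + 2 := ⟨i + j - 2, by omega⟩
  have h1 : p * 1 = p * (p * (p ^ m * (u * u'))) := by
    have : p = p ^ (i + j) * ((u : gaussVS hcomm hli P hgen hP) * u') := by
      rw [pow_add]
      calc p = p ^ i * ↑u * (p ^ j * ↑u') := hab
        _ = _ := by ring
    rw [mul_one]
    conv_lhs => rw [this, hm]
    ring
  have h2 := mul_left_cancel₀ hp0 h1
  exact IsUnit.of_mul_eq_one _ h2.symm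

theorem hasFactorization :
    IsDiscreteValuationRing.HasUnitMulPowIrreducibleFactorization (gaussVS hcomm hli P hgen hP) := by
  obtain ⟨π, hπ⟩ := IsDiscreteValuationRing.exists_irreducible P.toValuationSubring
  refine ⟨⟨_, T_mem hcomm hli P hgen hP π⟩, T_irreducible hcomm hli P hgen hP π hπ, fun {x} hx => ?_⟩
  obtain ⟨n, u, rfl⟩ := exists_pow_mul_unit hcomm hli P hgen hP π hπ x hx
  exact ⟨n, u, rfl⟩

/-- **The Gauss extension** of the place `P` of `F/K` to `FΩ/Ω`. -/
def gaussPlace : Place Ω FΩ where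
  toValuationSubring := gaussVS hcomm hli P hgen hP
  algebraMap_mem' := fun c => ⟨algebraMap Ω FΩ c, 1, const_mem_SO P c, isU_one P, by ring⟩
  ne_top' := by
    obtain ⟨π, hπ⟩ := IsDiscreteValuationRing.exists_irreducible P.toValuationSubring
    intro h
    apply T_inv_not_mem hcomm hli P hgen hP π hπ
    rw [h]
    exact ValuationSubring.mem_top _
  isPrincipalIdealRing' := by
    haveI := IsDiscreteValuationRing.ofHasUnitMulPowIrreducibleFactorization
      (hasFactorization hcomm hli P hgen hP)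
    infer_instance

theorem gaussPlace_toValuationSubring :
    (gaussPlace hcomm hli P hgen hP).toValuationSubring = gaussVS hcomm hli P hgen hP := rfl

theorem mem_gaussPlace_iff {z : FΩ} :
    z ∈ (gaussPlace hcomm hli P hgen hP).toValuationSubring ↔
      ∃ a b : FΩ, a ∈ SO Ω FΩ P ∧ IsU Ω P b ∧ z * b = a := Iff.rfl

end ThePlace

/-! ### Orders at the Gauss place -/

section Ord

variable (P : Place K F)
variable (hgen : ∀ z : FΩ, ∃ a b : FΩ, a ∈ Submodule.span Ω (Set.range (algebraMap F FΩ)) ∧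
    b ∈ Submodule.span Ω (Set.range (algebraMap F FΩ)) ∧ b ≠ 0 ∧ z * b = a)
variable (hP : RR.ResK P)

theorem ord_T (π : P.toValuationSubring) (hπ : Irreducible π) :
    (gaussPlace hcomm hli P hgen hP).ord (algebraMap F FΩ (π : F)) = 1 :=
  (gaussPlace hcomm hli P hgen hP).ord_coe_irreducible (T_irreducible hcomm hli P hgen hP π hπ)

theorem ord_isU {s : FΩ} (hs : IsU Ω P s) : (gaussPlace hcomm hli P hgen hP).ord s = 0 :=
  (gaussPlace hcomm hli P hgen hP).ord_coe_unit (unitOfIsU hcomm hli P hgen hP hs)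

theorem ord_zpow_mul_isU (π : P.toValuationSubring) (hπ : Irreducible π) (n : ℤ) {s : FΩ}
    (hs : IsU Ω P s) :
    (gaussPlace hcomm hli P hgen hP).ord (algebraMap F FΩ (π : F) ^ n * s) = n := by
  rw [Place.ord_mul _ (zpow_ne_zero _ (T_ne_zero P π hπ)) (hs.ne_zero hcomm hli P), Place.ord_zpow,
    ord_T hcomm hli P hgen hP π hπ, ord_isU hcomm hli P hgen hP hs]
  ring

/-- **The Gauss formula**: the order at the Gauss place of a combination `∑ d j • g j` with
`K`-linearly independent coefficients `d j ∈ Ω` is the minimum of the orders of the `g j ≠ 0`. -/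
theorem ord_gaussPlace_sum {k : ℕ} (d : Fin k → Ω) (hd : LinearIndependent K d) (g : Fin k → F)
    (j₀ : Fin k) (hj₀ : g j₀ ≠ 0) (hmin : ∀ j, g j ≠ 0 → P.ord (g j₀) ≤ P.ord (g j)) :
    (gaussPlace hcomm hli P hgen hP).ord (∑ j, d j • algebraMap F FΩ (g j)) = P.ord (g j₀) := by
  obtain ⟨π, hπ⟩ := IsDiscreteValuationRing.exists_irreducible P.toValuationSubring
  obtain ⟨s, hs, e⟩ := gauss_fact hcomm hli P π hP hπ d hd g j₀ hj₀ hmin
  rw [e, ord_zpow_mul_isU hcomm hli P hgen hP π hπ _ hs]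

include hcomm hli hP in
/-- The symmetric form of linear disjointness: a combination with `K`-linearly independent
coefficients in `Ω` of elements of `F`, not all zero, is nonzero. -/
theorem sum_ne_zero {k : ℕ} (d : Fin k → Ω) (hd : LinearIndependent K d) (g : Fin k → F)
    (j₁ : Fin k) (hj₁ : g j₁ ≠ 0) : ∑ j, d j • algebraMap F FΩ (g j) ≠ 0 := by
  classical
  obtain ⟨π, hπ⟩ := IsDiscreteValuationRing.exists_irreducible P.toValuationSubring
  have hne : (Finset.univ.filter fun j => g j ≠ 0).Nonempty :=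
    ⟨j₁, Finset.mem_filter.2 ⟨Finset.mem_univ _, hj₁⟩⟩
  obtain ⟨j₀, hj₀, hmin⟩ := Finset.exists_min_image _ (fun j => P.ord (g j)) hne
  rw [Finset.mem_filter] at hj₀
  obtain ⟨s, hs, e⟩ := gauss_fact hcomm hli P π hP hπ d hd g j₀ hj₀.2
    (fun j hj => hmin j (Finset.mem_filter.2 ⟨Finset.mem_univ _, hj⟩))
  rw [e]
  exact mul_ne_zero (zpow_ne_zero _ (T_ne_zero P π hπ)) (hs.ne_zero hcomm hli P)

/-- The Gauss place extends `P`: orders of elements of `F` are unchanged. -/
theorem ord_gaussPlace (f : F) :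
    (gaussPlace hcomm hli P hgen hP).ord (algebraMap F FΩ f) = P.ord f := by
  by_cases hf : f = 0
  · rw [hf, map_zero, Place.ord_zero, Place.ord_zero]
  have hd : LinearIndependent K (fun _ : Fin 1 => (1 : Ω)) :=
    linearIndependent_unique_iff.2 one_ne_zero
  have h := ord_gaussPlace_sum hcomm hli P hgen hP (fun _ : Fin 1 => (1 : Ω)) hd (fun _ => f) 0 hf
    (fun _ _ => le_rfl)
  simpa using h

/-- The Gauss extension is injective on places. -/
theorem gaussPlace_inj {P Q : Place K F} (hP : RR.ResK P) (hQ : RR.ResK Q)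
    (h : gaussPlace hcomm hli P hgen hP = gaussPlace hcomm hli Q hgen hQ) : P = Q := by
  refine Fermat.Agent.S24.place_eq_of_ord fun f hf => ?_
  rw [← ord_gaussPlace hcomm hli Q hgen hQ f, ← h, ord_gaussPlace]
  exact hf

/-- The residue field of the Gauss place is `Ω`. -/
theorem resK_gaussPlace : RR.ResK (gaussPlace hcomm hli P hgen hP) := by
  intro z
  obtain ⟨π, hπ⟩ := IsDiscreteValuationRing.exists_irreducible P.toValuationSubring
  obtain ⟨a, b, ha, hb, e⟩ := (mem_gaussPlace_iff hcomm hli P hgen hP).1 z.2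
  obtain ⟨α, hα⟩ := exists_isRes hcomm P hP ha
  have hb' := hb
  obtain ⟨hbS, β, hβ0, hβ⟩ := hb'
  refine ⟨α / β, ?_⟩
  have h1 : IsRes P (a - algebraMap Ω FΩ (α / β) * b) (α - α / β * β) :=
    hα.sub P ((isRes_const P (α / β)).mul P hbS hβ)
  rw [div_mul_cancel₀ α hβ0, sub_self, isRes_zero_iff] at h1
  obtain ⟨y, hy, hy'⟩ := exists_eq_T_mul P π hπ h1
  have hb0 : b ≠ 0 := hb.ne_zero hcomm hli P
  -- `z - c = t * (y / b)`
  have hw : y * b⁻¹ ∈ (gaussPlace hcomm hli P hgen hP).toValuationSubring :=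
    (mem_gaussPlace_iff hcomm hli P hgen hP).2 ⟨y, b, hy, hb, by rw [mul_assoc, inv_mul_cancel₀ hb0, mul_one]⟩
  have hz : ((z - algebraMap Ω (gaussPlace hcomm hli P hgen hP).toValuationSubring (α / β) :
        (gaussPlace hcomm hli P hgen hP).toValuationSubring) : FΩ) =
      algebraMap F FΩ (π : F) * (y * b⁻¹) := by
    have h2 : ((z : FΩ) - algebraMap Ω FΩ (α / β)) * b = algebraMap F FΩ (π : F) * y := by
      rw [sub_mul, e, hy']
    show (z : FΩ) - algebraMap Ω FΩ (α / β) = _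
    rw [← mul_assoc, ← h2, mul_assoc, mul_inv_cancel₀ hb0, mul_one]
  rw [IsLocalRing.mem_maximalIdeal, mem_nonunits_iff]
  intro hu
  have e2 : (z - algebraMap Ω (gaussPlace hcomm hli P hgen hP).toValuationSubring (α / β) :
        (gaussPlace hcomm hli P hgen hP).toValuationSubring) =
      (⟨_, T_mem hcomm hli P hgen hP π⟩ : (gaussPlace hcomm hli P hgen hP).toValuationSubring) * ⟨_, hw⟩ :=
    Subtype.ext hz
  rw [e2] at hu
  exact T_not_isUnit hcomm hli P hgen hP π hπ (isUnit_of_mul_isUnit_left hu)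

end Ord

/-! ### Invariance under the semilinear automorphisms fixing `F` -/

section Invariance

open scoped Pointwise

variable (P : Place K F)
variable (hgen : ∀ z : FΩ, ∃ a b : FΩ, a ∈ Submodule.span Ω (Set.range (algebraMap F FΩ)) ∧
    b ∈ Submodule.span Ω (Set.range (algebraMap F FΩ)) ∧ b ≠ 0 ∧ z * b = a)
variable (hP : RR.ResK P)

theorem smul_smul_eq (τ : SemilinearAut Ω FΩ) (c : Ω) (x : FΩ) :
    τ • (c • x) = (SemilinearAut.baseAut τ c) • (τ • x) := by
  rw [Algebra.smul_def, smul_mul', SemilinearAut.smul_algebraMap, Algebra.smul_def]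

theorem smul_mem_span (W : Submodule K F) (τ : SemilinearAut Ω FΩ)
    (hτ : ∀ f : F, τ • algebraMap F FΩ f = algebraMap F FΩ f) {x : FΩ}
    (hx : x ∈ Submodule.span Ω (algebraMap F FΩ '' (W : Set F))) :
    τ • x ∈ Submodule.span Ω (algebraMap F FΩ '' (W : Set F)) := by
  induction hx using Submodule.span_induction with
  | mem x hx =>
    obtain ⟨a, ha, rfl⟩ := hx
    rw [hτ a]
    exact Submodule.subset_span ⟨a, ha, rfl⟩
  | zero => rw [smul_zero]; exact Submodule.zero_mem _
  | add x y _ _ hx hy => rw [smul_add]; exact Submodule.add_mem _ hx hy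
  | smul c x _ hx => rw [smul_smul_eq]; exact Submodule.smul_mem _ _ hx

theorem smul_mem_gaussRing (τ : SemilinearAut Ω FΩ)
    (hτ : ∀ f : F, τ • algebraMap F FΩ f = algebraMap F FΩ f) {z : FΩ}
    (hz : z ∈ gaussRing Ω P) : τ • z ∈ gaussRing Ω P := by
  obtain ⟨a, b, ha, ⟨hbS, β, hβ0, hβ⟩, e⟩ := hz
  refine ⟨τ • a, τ • b, smul_mem_span (oSub P) τ hτ ha,
    ⟨smul_mem_span (oSub P) τ hτ hbS, SemilinearAut.baseAut τ β, ?_, ?_⟩, ?_⟩
  · rw [Ne, map_eq_zero]
    exact hβ0
  · have := smul_mem_span (mSub P) τ hτ hβ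
    rw [smul_sub, SemilinearAut.smul_algebraMap] at this
    exact this
  · rw [← smul_mul', e]

/-- A semilinear automorphism of `FΩ/Ω` which fixes `F` pointwise fixes every Gauss place. -/
theorem smul_gaussPlace (σ : SemilinearAut Ω FΩ)
    (hσ : ∀ f : F, σ • algebraMap F FΩ f = algebraMap F FΩ f) :
    σ • gaussPlace hcomm hli P hgen hP = gaussPlace hcomm hli P hgen hP := by
  have hσ' : ∀ f : F, σ⁻¹ • algebraMap F FΩ f = algebraMap F FΩ f := by
    intro f
    rw [inv_smul_eq_iff, hσ f]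
  apply Place.ext
  show σ • (gaussPlace hcomm hli P hgen hP).toValuationSubring = _
  ext x
  rw [ValuationSubring.mem_pointwise_smul_iff_inv_smul_mem]
  constructor
  · intro hx
    have := smul_mem_gaussRing P σ hσ hx
    rwa [smul_inv_smul] at this
  · intro hx
    exact smul_mem_gaussRing P σ⁻¹ hσ' hx

end Invariance

/-! ### Predicate form: `h : IsConstExt K F Ω FΩ` -/

section Predicate

open Fermat.Agent.S27P.BC

/-- The `frac` clause of `IsConstExt` in the shape used above. -/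
theorem hgen_of (h : IsConstExt K F Ω FΩ) :
    ∀ z : FΩ, ∃ a b : FΩ, a ∈ Submodule.span Ω (Set.range (algebraMap F FΩ)) ∧
      b ∈ Submodule.span Ω (Set.range (algebraMap F FΩ)) ∧ b ≠ 0 ∧ z * b = a := by
  intro z
  obtain ⟨a, ha, b, hb, hb0, e⟩ := h.exists_div z
  exact ⟨a, b, ha, hb, hb0, e⟩

/-- **The Gauss extension** of a place `P` of `F/K` (with residue field `K`) to the constant
field extension `FΩ/Ω`. -/
def gaussPlaceOf (h : IsConstExt K F Ω FΩ) (P : Place K F) (hP : RR.ResK P) : Place Ω FΩ :=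
  gaussPlace h.comm h.indep P (hgen_of h) hP

/-- The Gauss extension restricts to `P`: orders of elements of `F` are unchanged. -/
theorem ord_gaussPlaceOf (h : IsConstExt K F Ω FΩ) (P : Place K F) (hP : RR.ResK P) (f : F) :
    (gaussPlaceOf h P hP).ord (algebraMap F FΩ f) = P.ord f :=
  ord_gaussPlace h.comm h.indep P (hgen_of h) hP f

/-- The Gauss formula. -/
theorem ord_gaussPlaceOf_sum (h : IsConstExt K F Ω FΩ) (P : Place K F) (hP : RR.ResK P) {k : ℕ}
    (d : Fin k → Ω) (hd : LinearIndependent K d) (g : Fin k → F) (j₀ : Fin k) (hj₀ : g j₀ ≠ 0)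
    (hmin : ∀ j, g j ≠ 0 → P.ord (g j₀) ≤ P.ord (g j)) :
    (gaussPlaceOf h P hP).ord (∑ j, d j • algebraMap F FΩ (g j)) = P.ord (g j₀) :=
  ord_gaussPlace_sum h.comm h.indep P (hgen_of h) hP d hd g j₀ hj₀ hmin

/-- Symmetric linear disjointness (needs one place of `F/K` with residue field `K`). -/
theorem sum_ne_zero_of (h : IsConstExt K F Ω FΩ) (P : Place K F) (hP : RR.ResK P) {k : ℕ}
    (d : Fin k → Ω) (hd : LinearIndependent K d) (g : Fin k → F) (j₁ : Fin k) (hj₁ : g j₁ ≠ 0) :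
    ∑ j, d j • algebraMap F FΩ (g j) ≠ 0 :=
  sum_ne_zero h.comm h.indep P hP d hd g j₁ hj₁

/-- The Gauss extension is injective. -/
theorem gaussPlaceOf_inj (h : IsConstExt K F Ω FΩ) {P Q : Place K F} (hP : RR.ResK P)
    (hQ : RR.ResK Q) (e : gaussPlaceOf h P hP = gaussPlaceOf h Q hQ) : P = Q :=
  gaussPlace_inj h.comm h.indep (hgen_of h) hP hQ e

/-- The residue field of the Gauss extension is `Ω`. -/
theorem resK_gaussPlaceOf (h : IsConstExt K F Ω FΩ) (P : Place K F) (hP : RR.ResK P) :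
    RR.ResK (gaussPlaceOf h P hP) :=
  resK_gaussPlace h.comm h.indep P (hgen_of h) hP

/-- A semilinear automorphism of `FΩ/Ω` fixing `F` pointwise fixes every Gauss extension. -/
theorem smul_gaussPlaceOf (h : IsConstExt K F Ω FΩ) (P : Place K F) (hP : RR.ResK P)
    (σ : SemilinearAut Ω FΩ) (hσ : ∀ f : F, σ • algebraMap F FΩ f = algebraMap F FΩ f) :
    σ • gaussPlaceOf h P hP = gaussPlaceOf h P hP :=
  smul_gaussPlace h.comm h.indep P (hgen_of h) hP σ hσ

/-- The extension map `Place K F → Place Ω FΩ` when all places of `F/K` have residue field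
`K`, with its two characteristic properties (the `hbc` binder of `BcDiv` / `Restrict`). -/
theorem exists_bc (h : IsConstExt K F Ω FΩ) (hres : ∀ v : Place K F, RR.ResK v) :
    ∃ bc : Place K F → Place Ω FΩ,
      (∀ (v : Place K F) (f : F), (bc v).ord (algebraMap F FΩ f) = v.ord f) ∧
      (∀ v : Place K F, RR.ResK (bc v)) ∧
      (∀ (σ : SemilinearAut Ω FΩ), (∀ f : F, σ • algebraMap F FΩ f = algebraMap F FΩ f) →
        ∀ v : Place K F, σ • bc v = bc v) :=
  ⟨fun v => gaussPlaceOf h v (hres v), fun v f => ord_gaussPlaceOf h v (hres v) f,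
    fun v => resK_gaussPlaceOf h v (hres v),
    fun σ hσ v => smul_gaussPlaceOf h v (hres v) σ hσ⟩

end Predicate

end Fermat.Agent.S27P.BC.GaussPlace
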