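/-
S27 / (BC), row (BC-8), third file (helper15): THE base-change map of places, divisors and
classes of a constant field extension — the instance of `BcDiv.lean` / `BcPlace.lean` at
helper28's Gauss extension (`GaussPlace.gaussPlaceOf`).

Setting of `S27P/BC/Defs.lean`: `h : IsConstExt K F Ω FΩ`, and all places of `F/K` have residue
field `K` (`hres : ∀ v : Place K F, RR.ResK v`; automatic under `IsFF1`).  No hypothesis on the
places of `FΩ/Ω`, no algebraic closedness, no characteristic.

* `bcPlace h hres : Place K F → Place Ω FΩ` with `ord_bcPlace`, `resK_bcPlace`, `deg_bcPlace`,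
  `bcPlace_injective`, `eq_bcPlace` (uniqueness), `exists_eq_bcPlace`, `eq_bcPlace_or_trivial`;
* `isBcPlace h hres : BcDiv.IsBcPlace (bcPlace h hres)`;
* `bcDivisor h hres : Divisor K F →+ Divisor Ω FΩ`, `bcPic h hres : Pic0 K F →+ Pic0 Ω FΩ`
  (`= BcDiv.bcDiv _`, `BcDiv.bcPic0 _`; all lemmas of `BcDiv.lean` apply through
  `isBcPlace h hres`), `bcPic_mk`;
* invariance: `smul_bcPlace`, `smul_bcDivisor`, `smul_bcPic` for semilinear automorphisms of
  `FΩ/Ω` fixing `F` pointwise; `semilinearAut_smul_bcPlace`, `…_bcDivisor`, `…_bcPic`,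
  `semilinearAut_smul_mem_riemannRochSpace` for the action of `Aut(Ω/K)`.
-/
import Mathlib
import Fermat.Agent.S27P.BC.BcPlace
import Fermat.Agent.S27P.BC.GaussPlace

set_option autoImplicit false

noncomputable section

namespace Fermat.Agent.S27P.BC.BcGauss

open AlgebraicCurve
open Fermat.Agent.S27P.BC Fermat.Agent.S27P.BC.BcDiv Fermat.Agent.Lib.FF

universe u v w x

variable {K : Type u} {F : Type v} {Ω : Type w} {FΩ : Type x} [Field K] [Field F]
  [Field Ω] [Field FΩ] [Algebra K F] [Algebra K Ω] [Algebra F FΩ] [Algebra Ω FΩ]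

/-- **The base-change map of places**: the Gauss extension of a place of `F/K` to the constant
field extension `FΩ/Ω`. -/
def bcPlace (h : IsConstExt K F Ω FΩ) (hres : ∀ v : Place K F, RR.ResK v) :
    Place K F → Place Ω FΩ :=
  fun v => GaussPlace.gaussPlaceOf h v (hres v)

variable (h : IsConstExt K F Ω FΩ) (hres : ∀ v : Place K F, RR.ResK v)

/-- `bcPlace v` extends `v` without ramification. -/
theorem ord_bcPlace (v : Place K F) (f : F) :
    (bcPlace h hres v).ord (algebraMap F FΩ f) = v.ord f :=
  GaussPlace.ord_gaussPlaceOf h v (hres v) f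

/-- The residue field of `bcPlace v` is `Ω`. -/
theorem resK_bcPlace (v : Place K F) : RR.ResK (bcPlace h hres v) :=
  GaussPlace.resK_gaussPlaceOf h v (hres v)

theorem deg_bcPlace (v : Place K F) : (bcPlace h hres v).deg = v.deg := by
  rw [RR.deg_eq_one (resK_bcPlace h hres v), RR.deg_eq_one (hres v)]

/-- `bcPlace h hres` is a base-change map of places in the sense of `BcDiv.lean`. -/
theorem isBcPlace : IsBcPlace (bcPlace h hres) where
  ord := ord_bcPlace h hres
  gen := fun _ hw f =>
    Restrict.ord_eq_zero_of_notMem_range h hres (bcPlace h hres) (ord_bcPlace h hres) hw f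
  deg := deg_bcPlace h hres

theorem bcPlace_injective : Function.Injective (bcPlace h hres) :=
  (isBcPlace h hres).injective

/-- Uniqueness of the extension: a place of `FΩ` restricting to `ord_v` is `bcPlace v`. -/
theorem eq_bcPlace {w : Place Ω FΩ} {v : Place K F}
    (hw : ∀ f : F, w.ord (algebraMap F FΩ f) = v.ord f) : w = bcPlace h hres v :=
  BcPlace.eq_bc h hres (ord_bcPlace h hres) hw

/-- Every place of `FΩ` nontrivial on `F` is an extension. -/
theorem exists_eq_bcPlace (w : Place Ω FΩ) {f : F} (hf : w.ord (algebraMap F FΩ f) ≠ 0) :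
    ∃ v : Place K F, w = bcPlace h hres v :=
  BcPlace.exists_eq_bc h hres (ord_bcPlace h hres) w hf

/-- A place of `FΩ` is an extension of a place of `F` or is trivial on `F`. -/
theorem eq_bcPlace_or_trivial (w : Place Ω FΩ) :
    (∃ v : Place K F, w = bcPlace h hres v) ∨ ∀ f : F, w.ord (algebraMap F FΩ f) = 0 :=
  BcPlace.eq_bc_or_trivial h hres (ord_bcPlace h hres) w

/-- Any extension map of index one is `bcPlace`. -/
theorem eq_bcPlace_of_ord {bc : Place K F → Place Ω FΩ}
    (hbc : ∀ (v : Place K F) (f : F), (bc v).ord (algebraMap F FΩ f) = v.ord f) :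
    bc = bcPlace h hres :=
  BcPlace.bc_unique h hres hbc (ord_bcPlace h hres)

/-! ### Divisors and classes -/

/-- Base change of divisors. -/
def bcDivisor : Divisor K F →+ Divisor Ω FΩ := bcDiv (bcPlace h hres)

/-- Base change of divisor classes of degree zero. -/
def bcPic : Pic0 K F →+ Pic0 Ω FΩ := bcPic0 (isBcPlace h hres)

theorem bcDivisor_eq : bcDivisor h hres = bcDiv (bcPlace h hres) := rfl

theorem bcPic_eq : bcPic h hres = bcPic0 (isBcPlace h hres) := rfl

theorem bcDivisor_apply (D : Divisor K F) (v : Place K F) :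
    bcDivisor h hres D (bcPlace h hres v) = D v :=
  bcDiv_apply (isBcPlace h hres) D v

theorem degree_bcDivisor (D : Divisor K F) :
    Divisor.degree (bcDivisor h hres D) = Divisor.degree D :=
  degree_bcDiv (isBcPlace h hres) D

theorem bcDivisor_injective : Function.Injective (bcDivisor h hres) :=
  bcDiv_injective (isBcPlace h hres)

/-- The divisor of `f` goes to the divisor of `algebraMap F FΩ f`. -/
theorem bcDivisor_ord {D : Divisor K F} {f : F} (hD : ∀ v, D v = v.ord f) (w : Place Ω FΩ) :
    bcDivisor h hres D w = w.ord (algebraMap F FΩ f) :=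
  bcDiv_ord (isBcPlace h hres) hD w

theorem mem_riemannRochSpace_bcDivisor_iff (D : Divisor K F) (f : F) :
    algebraMap F FΩ f ∈ riemannRochSpace (bcDivisor h hres D) ↔ f ∈ riemannRochSpace D :=
  mem_riemannRochSpace_bcDiv_iff (isBcPlace h hres) D f

/-- `bcPic` is `[D] ↦ [D_Ω]`. -/
theorem bcPic_mk (D : Divisor.degZero (K := K) (F := F)) :
    bcPic h hres (Pic0.mk D) =
      Pic0.mk ⟨bcDivisor h hres (D : Divisor K F),
        bcDiv_mem_degZero (isBcPlace h hres) D.2⟩ := rfl

theorem bcPic_mk_eq_zero_iff (D : Divisor.degZero (K := K) (F := F)) :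
    bcPic h hres (Pic0.mk D) = 0 ↔
      bcDivisor h hres (D : Divisor K F) ∈ Divisor.principal (K := Ω) (F := FΩ) :=
  bcPic0_mk_eq_zero_iff (isBcPlace h hres) D

/-! ### Invariance -/

/-- A semilinear automorphism of `FΩ/Ω` fixing `F` pointwise fixes the extended places. -/
theorem smul_bcPlace (g : SemilinearAut Ω FΩ)
    (hg : ∀ f : F, g • algebraMap F FΩ f = algebraMap F FΩ f) (v : Place K F) :
    g • bcPlace h hres v = bcPlace h hres v :=
  GaussPlace.smul_gaussPlaceOf h v (hres v) g hg

theorem smul_bcDivisor (g : SemilinearAut Ω FΩ)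
    (hg : ∀ f : F, g • algebraMap F FΩ f = algebraMap F FΩ f) (D : Divisor K F) :
    g • bcDivisor h hres D = bcDivisor h hres D :=
  BcDiv.smul_bcDiv g (smul_bcPlace h hres g hg) D

theorem smul_bcPic (g : SemilinearAut Ω FΩ)
    (hg : ∀ f : F, g • algebraMap F FΩ f = algebraMap F FΩ f) (c : Pic0 K F) :
    g • bcPic h hres c = bcPic h hres c :=
  BcDiv.smul_bcPic0 (isBcPlace h hres) g (smul_bcPlace h hres g hg) c

/-- `Aut(Ω/K)` fixes the extended places (the `hinv` binder of `RRSpace.lean`). -/
theorem semilinearAut_smul_bcPlace (σ : Ω ≃ₐ[K] Ω) (v : Place K F) :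
    h.semilinearAut σ • bcPlace h hres v = bcPlace h hres v :=
  smul_bcPlace h hres _ (fun f => h.semilinearAut_smul_algebraMap σ f) v

theorem semilinearAut_smul_bcDivisor (σ : Ω ≃ₐ[K] Ω) (D : Divisor K F) :
    h.semilinearAut σ • bcDivisor h hres D = bcDivisor h hres D :=
  smul_bcDivisor h hres _ (fun f => h.semilinearAut_smul_algebraMap σ f) D

theorem semilinearAut_smul_bcPic (σ : Ω ≃ₐ[K] Ω) (c : Pic0 K F) :
    h.semilinearAut σ • bcPic h hres c = bcPic h hres c :=
  smul_bcPic h hres _ (fun f => h.semilinearAut_smul_algebraMap σ f) c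

/-- `L(D_Ω)` is stable under `Aut(Ω/K)`. -/
theorem semilinearAut_smul_mem_riemannRochSpace (σ : Ω ≃ₐ[K] Ω) (D : Divisor K F) {z : FΩ}
    (hz : z ∈ riemannRochSpace (bcDivisor h hres D)) :
    h.semilinearAut σ • z ∈ riemannRochSpace (bcDivisor h hres D) :=
  BcPlace.smul_mem_riemannRochSpace_of_smul_eq _ (semilinearAut_smul_bcDivisor h hres σ D) hz

end Fermat.Agent.S27P.BC.BcGauss
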