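/-
S27 / (BC) row 3 (helper81): the constant field extension `FΩ` of a function field of one
variable `F/K` is a function field of one variable over `Ω` — in PREDICATE form
(`h : IsConstExt K F Ω FΩ`, no concrete model), characteristic-free.

* `transcendental_map` : a transcendental element of `F` stays transcendental over `Ω`;
* `adjMap h x : K⟮x⟯ →+* Ω⟮x'⟯` (`x' = algebraMap F FΩ x`), the restriction of `F → FΩ`;
* `basisMap h hx b` : a basis `b` of `F` over `K⟮x⟯` gives the basis `i ↦ algebraMap F FΩ (b i)`
  of `FΩ` over `Ω⟮x'⟯`; coordinates of the image of `f : F` are the images of its coordinates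
  (`basisMap_repr_algebraMap`);
* `finrank_map` : `[FΩ : Ω(x')] = [F : K(x)]`;
* `isFF1_map` : for `Ω` algebraically closed, `IsFF1 K F x → IsFF1 Ω FΩ (algebraMap F FΩ x)`.
-/
import Mathlib
import Fermat.Agent.S27P.BC.Defs
import Fermat.Agent.Lib.FF.CharP.Principal

set_option autoImplicit false
set_option linter.style.haveILetI false

noncomputable section

namespace Fermat.Agent.S27P.BC.Field

open AlgebraicCurve IntermediateField Polynomial

universe u v w x

/-! ### Powers and transcendence -/

section Pow

variable {R : Type*} {A : Type*} [Field R] [Ring A] [Algebra R A]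

/-- The powers of a transcendental element are linearly independent. -/
theorem linearIndependent_pow_of_transcendental {y : A} (hy : Transcendental R y) :
    LinearIndependent R (fun n : ℕ => y ^ n) := by
  classical
  rw [linearIndependent_iff']
  intro s g hg n hn
  have h0 : aeval y (∑ m ∈ s, monomial m (g m)) = 0 := by
    rw [map_sum, ← hg]
    refine Finset.sum_congr rfl fun m _ => ?_
    rw [aeval_monomial, Algebra.smul_def]
  have h1 := (transcendental_iff.1 hy) _ h0
  have h2 := congrArg (fun q : R[X] => q.coeff n) h1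
  simp only [finsetSum_coeff, coeff_monomial, coeff_zero] at h2
  rw [Finset.sum_ite_eq' s n] at h2
  simpa [hn] using h2

/-- An element with linearly independent powers is transcendental. -/
theorem transcendental_of_linearIndependent_pow {y : A}
    (h : LinearIndependent R (fun n : ℕ => y ^ n)) : Transcendental R y := by
  rw [transcendental_iff]
  intro q hq
  have hq' : ∑ n ∈ q.support, q.coeff n • y ^ n = 0 := by
    rw [← hq, aeval_def, eval₂_eq_sum, Polynomial.sum]
    refine Finset.sum_congr rfl fun n _ => ?_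
    rw [Algebra.smul_def]
  have h1 := linearIndependent_iff'.1 h q.support (fun n => q.coeff n) hq'
  ext n
  by_cases hn : n ∈ q.support
  · rw [h1 n hn, coeff_zero]
  · rw [notMem_support_iff.1 hn, coeff_zero]

/-- In a finite-dimensional subspace `M` of a field `A`, closed under multiplication: if
`z * d = c` with `c, d ∈ M`, `d ≠ 0`, then `z ∈ M`. -/
theorem mem_of_mul_mem {L : Type*} {B : Type*} [Field L] [Field B] [Algebra L B]
    (M : Submodule L B) [FiniteDimensional L M] (hmul : ∀ a ∈ M, ∀ b ∈ M, a * b ∈ M)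
    {d c z : B} (hd : d ∈ M) (hd0 : d ≠ 0) (hc : c ∈ M) (hz : z * d = c) : z ∈ M := by
  let φ : M →ₗ[L] M := (LinearMap.mulLeft L d).restrict (fun m hm => hmul d hd m hm)
  have hφ : ∀ m : M, ((φ m : M) : B) = d * (m : B) := fun m => rfl
  have hinj : Function.Injective φ := by
    intro a b hab
    have h1 := congrArg Subtype.val hab
    rw [hφ, hφ] at h1
    exact Subtype.ext (mul_left_cancel₀ hd0 h1)
  obtain ⟨m, hm⟩ := LinearMap.surjective_of_injective hinj ⟨c, hc⟩
  have h2 : d * (m : B) = c := by rw [← hφ, hm]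
  have h3 : z = m := by
    apply mul_right_cancel₀ hd0
    rw [hz, mul_comm, h2]
  rw [h3]
  exact m.2

end Pow

variable {K : Type u} {F : Type v} {Ω : Type w} {FΩ : Type x} [Field K] [Field F]
  [Field Ω] [Field FΩ] [Algebra K F] [Algebra K Ω] [Algebra F FΩ] [Algebra Ω FΩ]

/-- **A transcendental element of `F` stays transcendental over `Ω`.** -/
theorem transcendental_map (h : IsConstExt K F Ω FΩ) {x : F} (hx : Transcendental K x) :
    Transcendental Ω (algebraMap F FΩ x) := by
  apply transcendental_of_linearIndependent_pow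
  have h' := h.linearIndependent (linearIndependent_pow_of_transcendental hx)
  simpa only [map_pow] using h'

/-- The image of a polynomial expression over `K`. -/
theorem map_aeval (h : IsConstExt K F Ω FΩ) (x : F) (q : K[X]) :
    algebraMap F FΩ (aeval x q) = aeval (algebraMap F FΩ x) (q.map (algebraMap K Ω)) := by
  have hc : (algebraMap F FΩ).comp (algebraMap K F) = (algebraMap Ω FΩ).comp (algebraMap K Ω) :=
    RingHom.ext h.comm
  rw [aeval_def, hom_eval₂, hc, aeval_def, eval₂_map]

/-- The image of `K⟮x⟯` lies in `Ω⟮x'⟯`. -/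
theorem algebraMap_mem_adjoin (h : IsConstExt K F Ω FΩ) (x : F) (e : K⟮x⟯) :
    algebraMap F FΩ (e : F) ∈ Ω⟮algebraMap F FΩ x⟯ := by
  obtain ⟨r, s, hrs⟩ := (IntermediateField.mem_adjoin_simple_iff K (e : F)).mp e.2
  have key : ∀ q : K[X], algebraMap F FΩ (aeval x q) ∈ Ω⟮algebraMap F FΩ x⟯ := by
    intro q
    rw [map_aeval h]
    exact IntermediateField.algebra_adjoin_le_adjoin Ω _ (aeval_mem_adjoin_singleton _ _)
  rw [hrs, map_div₀]
  exact div_mem (key r) (key s)

/-- The embedding `K⟮x⟯ → Ω⟮x'⟯`, restriction of `F → FΩ`. -/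
def adjMap (h : IsConstExt K F Ω FΩ) (x : F) : K⟮x⟯ →+* Ω⟮algebraMap F FΩ x⟯ :=
  RingHom.codRestrict ((algebraMap F FΩ).comp (algebraMap K⟮x⟯ F))
    Ω⟮algebraMap F FΩ x⟯ (fun e => algebraMap_mem_adjoin h x e)

theorem coe_adjMap (h : IsConstExt K F Ω FΩ) (x : F) (e : K⟮x⟯) :
    ((adjMap h x e : Ω⟮algebraMap F FΩ x⟯) : FΩ) = algebraMap F FΩ (e : F) := rfl

theorem algebraMap_smul_eq (h : IsConstExt K F Ω FΩ) (x : F) (e : K⟮x⟯) (f : F) :
    algebraMap F FΩ (e • f) = adjMap h x e • algebraMap F FΩ f := by
  rw [Algebra.smul_def, map_mul, Algebra.smul_def]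
  rfl

section Indep

open scoped IntermediateField.algebraAdjoinAdjoin

/-- A basis of `F` over `K⟮x⟯` is linearly independent over `Ω⟮x'⟯`. -/
theorem linearIndependent_adjoin (h : IsConstExt K F Ω FΩ) {x : F} (hx : Transcendental K x)
    {ι : Type*} [Fintype ι] (b : Module.Basis ι K⟮x⟯ F) :
    LinearIndependent Ω⟮algebraMap F FΩ x⟯ (fun i => algebraMap F FΩ (b i)) := by
  classical
  obtain ⟨x', hx'⟩ : ∃ x' : FΩ, algebraMap F FΩ x = x' := ⟨_, rfl⟩
  rw [hx']
  -- the family `x ^ n * b i` is `K`-independent, hence `Ω`-independent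
  have hgen : Transcendental K (AdjoinSimple.gen K x) := by
    rw [← transcendental_algebraMap_iff (A := F) (algebraMap K⟮x⟯ F).injective,
      AdjoinSimple.algebraMap_gen]
    exact hx
  have h0 : LinearIndependent K (fun p : ℕ × ι => AdjoinSimple.gen K x ^ p.1 • b p.2) :=
    linearIndependent_smul (linearIndependent_pow_of_transcendental hgen) b.linearIndependent
  have h1 := h.linearIndependent h0
  have h1' : ∀ p : ℕ × ι, algebraMap F FΩ (AdjoinSimple.gen K x ^ p.1 • b p.2) =
      x' ^ p.1 * algebraMap F FΩ (b p.2) := by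
    intro p
    rw [Algebra.smul_def, map_mul]
    congr 1
    rw [map_pow, AdjoinSimple.algebraMap_gen, map_pow, hx']
  -- independence over `Ω[x']`
  have h2 : LinearIndependent (Algebra.adjoin Ω {x'}) (fun i => algebraMap F FΩ (b i)) := by
    rw [Fintype.linearIndependent_iff]
    intro g hg
    have hex : ∀ i, ∃ q : Polynomial Ω, aeval x' q = (g i : FΩ) := by
      intro i
      have h3 : (g i : FΩ) ∈ (aeval x' : Polynomial Ω →ₐ[Ω] FΩ).range := by
        rw [← Algebra.adjoin_singleton_eq_range_aeval]
        exact (g i).2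
      exact h3
    choose q hq using hex
    let N : ℕ := (Finset.univ.sup fun i => (q i).natDegree) + 1
    have hN : ∀ i, (q i).natDegree < N := fun i =>
      Nat.lt_succ_of_le (Finset.le_sup (f := fun i => (q i).natDegree) (Finset.mem_univ i))
    have hsum : ∑ p ∈ Finset.range N ×ˢ (Finset.univ : Finset ι),
        (q p.2).coeff p.1 • algebraMap F FΩ (AdjoinSimple.gen K x ^ p.1 • b p.2) = 0 := by
      rw [Finset.sum_product_right]
      rw [← hg]
      refine Finset.sum_congr rfl fun i _ => ?_
      have e1 : (g i • algebraMap F FΩ (b i) : FΩ) = (g i : FΩ) * algebraMap F FΩ (b i) := rfl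
      rw [e1, ← hq i, aeval_eq_sum_range' (hN i), Finset.sum_mul]
      refine Finset.sum_congr rfl fun n _ => ?_
      rw [h1' (n, i), Algebra.smul_def, Algebra.smul_def, mul_assoc]
    have hz := linearIndependent_iff'.1 h1 (Finset.range N ×ˢ (Finset.univ : Finset ι))
      (fun p => (q p.2).coeff p.1) hsum
    intro i
    have hqi : q i = 0 := by
      ext n
      rw [coeff_zero]
      by_cases hn : n < N
      · exact hz (n, i) (Finset.mem_product.2 ⟨Finset.mem_range.2 hn, Finset.mem_univ i⟩)
      · exact coeff_eq_zero_of_natDegree_lt (lt_of_lt_of_le (hN i) (not_lt.1 hn))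
    apply Subtype.ext
    rw [← hq i, hqi, map_zero]
    rfl
  exact (LinearIndependent.iff_fractionRing (Algebra.adjoin Ω {x'}) Ω⟮x'⟯).1 h2

end Indep

/-! ### Spanning -/

section Span

variable (h : IsConstExt K F Ω FΩ) {x : F} {ι : Type*} [Fintype ι] (b : Module.Basis ι K⟮x⟯ F)

include h in
/-- The image of `f : F` in the coordinates of the image basis. -/
theorem algebraMap_eq_sum (f : F) :
    algebraMap F FΩ f = ∑ i, adjMap h x (b.repr f i) • algebraMap F FΩ (b i) := by
  conv_lhs => rw [← b.sum_repr f]
  rw [map_sum]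
  exact Finset.sum_congr rfl fun i _ => algebraMap_smul_eq h x _ _

include h in
theorem algebraMap_mem_span (f : F) :
    algebraMap F FΩ f ∈ Submodule.span Ω⟮algebraMap F FΩ x⟯
      (Set.range fun i => algebraMap F FΩ (b i)) := by
  rw [algebraMap_eq_sum h b f]
  exact Submodule.sum_mem _ fun i _ => Submodule.smul_mem _ _ (Submodule.subset_span ⟨i, rfl⟩)

include h in
/-- The `Ω⟮x'⟯`-span of the image basis is closed under multiplication. -/
theorem mul_mem_span {y z : FΩ}
    (hy : y ∈ Submodule.span Ω⟮algebraMap F FΩ x⟯ (Set.range fun i => algebraMap F FΩ (b i)))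
    (hz : z ∈ Submodule.span Ω⟮algebraMap F FΩ x⟯ (Set.range fun i => algebraMap F FΩ (b i))) :
    y * z ∈ Submodule.span Ω⟮algebraMap F FΩ x⟯ (Set.range fun i => algebraMap F FΩ (b i)) := by
  have h1 : ∀ i, ∀ z ∈ Submodule.span Ω⟮algebraMap F FΩ x⟯
      (Set.range fun i => algebraMap F FΩ (b i)),
      algebraMap F FΩ (b i) * z ∈ Submodule.span Ω⟮algebraMap F FΩ x⟯
        (Set.range fun i => algebraMap F FΩ (b i)) := by
    intro i z hz
    induction hz using Submodule.span_induction with
    | mem w hw =>
      obtain ⟨j, rfl⟩ := hw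
      rw [← map_mul]
      exact algebraMap_mem_span h b _
    | zero => rw [mul_zero]; exact Submodule.zero_mem _
    | add u w _ _ hu hw => rw [mul_add]; exact Submodule.add_mem _ hu hw
    | smul a u _ hu => rw [mul_smul_comm]; exact Submodule.smul_mem _ _ hu
  induction hy using Submodule.span_induction with
  | mem w hw =>
    obtain ⟨i, rfl⟩ := hw
    exact h1 i z hz
  | zero => rw [zero_mul]; exact Submodule.zero_mem _
  | add u w _ _ hu hw => rw [add_mul]; exact Submodule.add_mem _ hu hw
  | smul a u _ hu => rw [smul_mul_assoc]; exact Submodule.smul_mem _ _ hu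

include h in
/-- The images of a basis of `F` over `K⟮x⟯` span `FΩ` over `Ω⟮x'⟯`. -/
theorem span_eq_top :
    Submodule.span Ω⟮algebraMap F FΩ x⟯ (Set.range fun i => algebraMap F FΩ (b i)) = ⊤ := by
  rw [eq_top_iff]
  intro z _
  obtain ⟨n, f, c, d, hd, e⟩ := h.frac z
  haveI : FiniteDimensional Ω⟮algebraMap F FΩ x⟯
      (Submodule.span Ω⟮algebraMap F FΩ x⟯ (Set.range fun i => algebraMap F FΩ (b i))) :=
    FiniteDimensional.span_of_finite _ (Set.finite_range _)
  have key : ∀ c : Fin n → Ω, ∑ i, c i • algebraMap F FΩ (f i) ∈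
      Submodule.span Ω⟮algebraMap F FΩ x⟯ (Set.range fun i => algebraMap F FΩ (b i)) := by
    intro c
    refine Submodule.sum_mem _ fun i _ => ?_
    rw [← algebraMap_smul Ω⟮algebraMap F FΩ x⟯ (c i) (algebraMap F FΩ (f i))]
    exact Submodule.smul_mem _ _ (algebraMap_mem_span h b _)
  exact mem_of_mul_mem _ (fun a ha b' hb' => mul_mem_span h b ha hb') (key d) hd (key c) e

end Span

/-! ### The basis, the degree, and `IsFF1` -/

section Basis

variable (h : IsConstExt K F Ω FΩ) {x : F} (hx : Transcendental K x) {ι : Type*} [Fintype ι]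
  (b : Module.Basis ι K⟮x⟯ F)

/-- **The basis of `FΩ` over `Ω⟮x'⟯`** induced by a basis of `F` over `K⟮x⟯`. -/
def basisMap : Module.Basis ι Ω⟮algebraMap F FΩ x⟯ FΩ :=
  Module.Basis.mk (linearIndependent_adjoin h hx b) (span_eq_top h b).ge

@[simp]
theorem basisMap_apply (i : ι) : basisMap h hx b i = algebraMap F FΩ (b i) :=
  Module.Basis.mk_apply _ _ i

/-- Coordinates of the image of `f : F` are the images of the coordinates of `f`. -/
theorem basisMap_repr_algebraMap (f : F) (i : ι) :
    (basisMap h hx b).repr (algebraMap F FΩ f) i = adjMap h x (b.repr f i) := by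
  have hf : algebraMap F FΩ f = ∑ i, adjMap h x (b.repr f i) • basisMap h hx b i := by
    rw [algebraMap_eq_sum h b f]
    exact Finset.sum_congr rfl fun i _ => by rw [basisMap_apply]
  rw [hf, Module.Basis.repr_sum_self]

end Basis

/-- **`[FΩ : Ω(x')] = [F : K(x)]`.** -/
theorem finrank_map (h : IsConstExt K F Ω FΩ) {x : F} (hx : Transcendental K x)
    [FiniteDimensional K⟮x⟯ F] :
    FiniteDimensional Ω⟮algebraMap F FΩ x⟯ FΩ ∧
      Module.finrank Ω⟮algebraMap F FΩ x⟯ FΩ = Module.finrank K⟮x⟯ F := by
  let b := Module.finBasis K⟮x⟯ F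
  let b' := basisMap h hx b
  exact ⟨Module.Finite.of_basis b',
    by rw [Module.finrank_eq_card_basis b', Fintype.card_fin]⟩

/-- **The constant field extension of a function field of one variable is a function field of
one variable** (`Ω` algebraically closed, any characteristic). -/
theorem isFF1_map [IsAlgClosed Ω] (h : IsConstExt K F Ω FΩ) {x : F}
    (hF : Fermat.Agent.Lib.FF.IsFF1 K F x) :
    Fermat.Agent.Lib.FF.IsFF1 Ω FΩ (algebraMap F FΩ x) := by
  haveI := hF.finiteDimensional
  haveI := (finrank_map h hF.transcendental).1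
  exact Fermat.Agent.Lib.FF.CharP.isFF1 _ (transcendental_map h hF.transcendental)

end Fermat.Agent.S27P.BC.Field
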