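/-
S27 / (BC-10), abstract core: from "`l(bc D) = l(D)` and `deg (bc D) = deg D`" to
* equality of the genera of `FΩ/Ω` and `F/K`;
* injectivity of the base change on divisor classes of degree `0`.

No hypothesis on the nature of `bc : Divisor K F → Divisor Ω FΩ`; both function fields are in the
characteristic-free setting `IsFF1`.  All four types live in independent universes.
-/
import Mathlib
import Fermat.Agent.Lib.FF.BasePoint

set_option autoImplicit false

namespace Fermat.Agent.S27P.BC.MainCore

open AlgebraicCurve WithZero Fermat.Agent.Lib.FF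

universe u v w x

variable {K : Type u} {F : Type v} {Ω : Type w} {FΩ : Type x} [Field K] [Field F]
  [Field Ω] [Field FΩ] [Algebra K F] [Algebra Ω FΩ]

/-- **Genus equality** from equality of the dimensions of the Riemann–Roch spaces. -/
theorem genusFF_eq_of_finrank {x : F} {y : FΩ} (hK : IsFF1 K F x) (hΩ : IsFF1 Ω FΩ y)
    (bc : Divisor K F → Divisor Ω FΩ)
    (hdeg : ∀ D, Divisor.degree (bc D) = Divisor.degree D)
    (hl : ∀ D, Module.finrank Ω (riemannRochSpace (bc D)) =
      Module.finrank K (riemannRochSpace D)) :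
    genusFF Ω FΩ = genusFF K F := by
  obtain ⟨c, hc⟩ := BasePoint.exists_NS hK
  obtain ⟨c', hc'⟩ := BasePoint.exists_NS hΩ
  obtain ⟨v⟩ := hK.exists_place
  have hdegD : Divisor.degree (Finsupp.single v (max c c') : Divisor K F) = max c c' := by
    rw [Divisor.degree_single, hK.deg_eq_one v]
    simp
  have h1 := hc.finrank_L hK (D := Finsupp.single v (max c c'))
    (by rw [hdegD]; exact le_max_left _ _)
  have h2 := hc'.finrank_L hΩ (D := bc (Finsupp.single v (max c c')))
    (by rw [hdeg, hdegD]; exact le_max_right _ _)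
  rw [hl, hdeg] at h2
  have h3 : (genusFF Ω FΩ : ℤ) = genusFF K F := by linarith
  exact_mod_cast h3

/-- A divisor of degree `0` with `L(D) ≠ 0` is principal. -/
theorem isPrincipal_of_mem_L {x : F} (hK : IsFF1 K F x) (D : Divisor K F)
    (hD : Divisor.degree D = 0) {f : F} (hf : f ≠ 0) (hfD : f ∈ riemannRochSpace D) :
    D ∈ Divisor.principal (K := K) (F := F) := by
  have := hK.hasPrincipalDivisors
  obtain ⟨Df, hDf, hDfdeg⟩ := HasPrincipalDivisors.exists_divisor (K := K) f hf
  have hnn : ∀ v, 0 ≤ (Df + D) v := by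
    intro v
    have h2 := hfD v
    rw [v.adicValuation_eq_exp_neg_ord hf, exp_le_exp] at h2
    rw [Finsupp.add_apply, hDf v]
    omega
  have htot : RR.tot (Df + D) = 0 := by
    have h1 : Divisor.degree (Df + D) = 0 := by rw [map_add, hDfdeg, hD, add_zero]
    rw [hK.degree_eq_sum] at h1
    rw [RR.tot_eq_sum]
    exact h1
  have h0 := RR.eq_zero_of_nonneg_of_tot_eq_zero hnn htot
  refine ⟨f⁻¹, inv_ne_zero hf, fun v => ?_⟩
  have h1 : (Df + D) v = 0 := by rw [h0]; rfl
  rw [Finsupp.add_apply, hDf v] at h1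
  rw [v.ord_inv]
  omega

/-- The inverse of a function with divisor `E` lies in `L(E)`. -/
theorem inv_mem_L_of_div {E : Divisor Ω FΩ} {z : FΩ} (hz : z ≠ 0)
    (hE : ∀ w : Place Ω FΩ, E w = w.ord z) : z⁻¹ ∈ riemannRochSpace E := by
  intro w
  rw [w.adicValuation_eq_exp_neg_ord (inv_ne_zero hz), exp_le_exp, w.ord_inv, hE w]
  omega

/-- **Injectivity of the base change on classes**: if `l(bc D) = l(D)`, a divisor of degree `0`
of `F` which becomes principal in `FΩ` is principal. -/
theorem mem_principal_of_bc_mem_principal {x : F} {y : FΩ} (hK : IsFF1 K F x)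
    (hΩ : IsFF1 Ω FΩ y) (bc : Divisor K F → Divisor Ω FΩ)
    (hl : ∀ D, Module.finrank Ω (riemannRochSpace (bc D)) =
      Module.finrank K (riemannRochSpace D))
    (D : Divisor K F) (hD : Divisor.degree D = 0)
    (hp : bc D ∈ Divisor.principal (K := Ω) (F := FΩ)) :
    D ∈ Divisor.principal (K := K) (F := F) := by
  obtain ⟨z, hz, hE⟩ := hp
  have hmem := inv_mem_L_of_div hz hE
  have hfinΩ : Module.Finite Ω (riemannRochSpace (bc D)) := hΩ.finite_L _
  have hfinK : Module.Finite K (riemannRochSpace D) := hK.finite_L _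
  have hpos : 0 < Module.finrank Ω (riemannRochSpace (bc D)) :=
    Module.finrank_pos_iff_exists_ne_zero.2
      ⟨⟨z⁻¹, hmem⟩, fun h0 => inv_ne_zero hz (congrArg Subtype.val h0)⟩
  rw [hl] at hpos
  obtain ⟨⟨f, hfD⟩, hf0⟩ := Module.finrank_pos_iff_exists_ne_zero.1 hpos
  exact isPrincipal_of_mem_L hK D hD (fun h0 => hf0 (Subtype.ext h0)) hfD

end Fermat.Agent.S27P.BC.MainCore
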