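import Mathlib

/-!
# (BC-DESC) Galois descent of subspaces for a constant field extension

`K ⊆ Ω` fields, `G` a group of automorphisms of `Ω` with fixed field `K`.

* `span_rational_of_stable` (D1): a `G`-stable `Ω`-subspace of `ι →₀ Ω` (coefficientwise action)
  is spanned by its `K`-rational vectors.

In the model-free setting of a constant field extension `FΩ` of `F` (`K`-independent families
of `F` stay `Ω`-independent in `FΩ`; every element of `FΩ` is a quotient of two `Ω`-linear
combinations of elements of `F`), with `G` acting on `FΩ` semilinearly and fixing `F`: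

* `eq_span_inter_of_stable` (D2): a `G`-stable `Ω`-subspace of the `Ω`-span of `F` is spanned
  by its intersection with `F`;
* `mem_range_of_fixed_of_mem_span` (D3), `mem_range_of_fixed` (D4): `FΩ^G = F`;
* `eq_span_inter_of_stable_of_finite`, `finrank_eq_of_stable` (D5): a finite-dimensional
  `G`-stable `Ω`-subspace of `FΩ` is spanned by its intersection with `F`, and the dimensions
  agree.
-/

set_option autoImplicit false

namespace Fermat.Agent.S27P.BC.Descent

/-! ### (D1) the coefficient form -/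

section Coeff

variable {K Ω G ι : Type*} [Field K] [Field Ω] [Algebra K Ω] [Group G] [MulSemiringAction G Ω]

/-- The coefficientwise action of `σ` on finitely supported functions. -/
noncomputable def coeffAct (σ : G) (w : ι →₀ Ω) : ι →₀ Ω := w.mapRange (σ • ·) (smul_zero σ)

@[simp]
theorem coeffAct_apply (σ : G) (w : ι →₀ Ω) (i : ι) : coeffAct σ w i = σ • w i := by
  simp [coeffAct]

theorem coeffAct_sub (σ : G) (w w' : ι →₀ Ω) :
    coeffAct σ (w - w') = coeffAct σ w - coeffAct σ w' := by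
  ext i
  simp [smul_sub]

theorem coeffAct_smul (σ : G) (c : Ω) (w : ι →₀ Ω) :
    coeffAct σ (c • w) = (σ • c) • coeffAct σ w := by
  ext i
  simp [smul_mul']

/-- A nonzero vector of a stable subspace dominates a nonzero rational vector of it. -/
theorem exists_rational_of_ne_zero
    (hfix : ∀ a : Ω, (∀ σ : G, σ • a = a) → a ∈ (algebraMap K Ω).range)
    (W : Submodule Ω (ι →₀ Ω)) (hW : ∀ (σ : G), ∀ w ∈ W, coeffAct σ w ∈ W) :
    ∀ (n : ℕ) (w : ι →₀ Ω), w ∈ W → w ≠ 0 → w.support.card ≤ n →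
      ∃ u ∈ W, u ≠ 0 ∧ u.support ⊆ w.support ∧ ∀ i, u i ∈ (algebraMap K Ω).range := by
  classical
  intro n
  induction n with
  | zero =>
    intro w _ hw0 hcard
    exfalso
    apply hw0
    rw [← Finsupp.support_eq_empty, ← Finset.card_eq_zero]
    omega
  | succ n ih =>
    intro w hw hw0 hcard
    obtain ⟨i0, hi0⟩ : ∃ i0, w i0 ≠ 0 := by
      by_contra h
      push Not at h
      exact hw0 (Finsupp.ext h)
    have hw'W : (w i0)⁻¹ • w ∈ W := W.smul_mem _ hw
    have hw'i0 : ((w i0)⁻¹ • w) i0 = 1 := by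
      rw [Finsupp.smul_apply, smul_eq_mul, inv_mul_cancel₀ hi0]
    have hsupp : ((w i0)⁻¹ • w).support ⊆ w.support := Finsupp.support_smul
    by_cases hall : ∀ σ : G, coeffAct σ ((w i0)⁻¹ • w) = (w i0)⁻¹ • w
    · refine ⟨(w i0)⁻¹ • w, hw'W, ?_, hsupp, fun i => hfix _ fun σ => ?_⟩
      · intro h
        rw [h] at hw'i0
        simp at hw'i0
      · have := DFunLike.congr_fun (hall σ) i
        rwa [coeffAct_apply] at this
    · push Not at hall
      obtain ⟨σ, hσ⟩ := hall
      have hvW : coeffAct σ ((w i0)⁻¹ • w) - (w i0)⁻¹ • w ∈ W :=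
        W.sub_mem (hW σ _ hw'W) hw'W
      have hv0 : coeffAct σ ((w i0)⁻¹ • w) - (w i0)⁻¹ • w ≠ 0 := sub_ne_zero.2 hσ
      have hvi0 : (coeffAct σ ((w i0)⁻¹ • w) - (w i0)⁻¹ • w) i0 = 0 := by
        rw [Finsupp.sub_apply, coeffAct_apply, hw'i0, smul_one, sub_self]
      have hvsupp : (coeffAct σ ((w i0)⁻¹ • w) - (w i0)⁻¹ • w).support ⊆ w.support.erase i0 := by
        intro i hi
        rw [Finsupp.mem_support_iff] at hi
        rw [Finset.mem_erase]
        refine ⟨fun h => hi (h ▸ hvi0), ?_⟩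
        rw [Finsupp.mem_support_iff]
        intro hwi
        apply hi
        rw [Finsupp.sub_apply, coeffAct_apply, Finsupp.smul_apply, hwi, smul_zero, smul_zero,
          sub_zero]
      have hcard' : (coeffAct σ ((w i0)⁻¹ • w) - (w i0)⁻¹ • w).support.card ≤ n := by
        have := Finset.card_le_card hvsupp
        rw [Finset.card_erase_of_mem (Finsupp.mem_support_iff.2 hi0)] at this
        omega
      obtain ⟨u, huW, hu0, husupp, hurat⟩ := ih _ hvW hv0 hcard'
      exact ⟨u, huW, hu0, husupp.trans (hvsupp.trans (Finset.erase_subset _ _)), hurat⟩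

/-- **(D1)** A `G`-stable `Ω`-subspace of `ι →₀ Ω` is spanned by its `K`-rational vectors. -/
theorem span_rational_of_stable
    (hfix : ∀ a : Ω, (∀ σ : G, σ • a = a) → a ∈ (algebraMap K Ω).range)
    (W : Submodule Ω (ι →₀ Ω))
    (hW : ∀ (σ : G), ∀ w ∈ W, w.mapRange (σ • ·) (smul_zero σ) ∈ W) :
    W = Submodule.span Ω {w | w ∈ W ∧ ∀ i, w i ∈ (algebraMap K Ω).range} := by
  classical
  have hW' : ∀ (σ : G), ∀ w ∈ W, coeffAct σ w ∈ W := hW
  refine le_antisymm ?_ (Submodule.span_le.2 fun w hw => hw.1)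
  have key : ∀ (n : ℕ) (w : ι →₀ Ω), w ∈ W → w.support.card ≤ n →
      w ∈ Submodule.span Ω {w | w ∈ W ∧ ∀ i, w i ∈ (algebraMap K Ω).range} := by
    intro n
    induction n with
    | zero =>
      intro w _ hcard
      have : w = 0 := by
        rw [← Finsupp.support_eq_empty, ← Finset.card_eq_zero]
        omega
      rw [this]
      exact Submodule.zero_mem _
    | succ n ih =>
      intro w hw hcard
      by_cases hw0 : w = 0
      · rw [hw0]
        exact Submodule.zero_mem _
      obtain ⟨u, huW, hu0, husupp, hurat⟩ :=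
        exists_rational_of_ne_zero hfix W hW' _ w hw hw0 le_rfl
      obtain ⟨i0, hi0⟩ : ∃ i0, u i0 ≠ 0 := by
        by_contra h
        push Not at h
        exact hu0 (Finsupp.ext h)
      have hi0w : i0 ∈ w.support := husupp (Finsupp.mem_support_iff.2 hi0)
      have huS : u ∈ Submodule.span Ω {w | w ∈ W ∧ ∀ i, w i ∈ (algebraMap K Ω).range} :=
        Submodule.subset_span ⟨huW, hurat⟩
      have hw'W : w - (w i0 / u i0) • u ∈ W := W.sub_mem hw (W.smul_mem _ huW)
      have hw'i0 : (w - (w i0 / u i0) • u) i0 = 0 := by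
        rw [Finsupp.sub_apply, Finsupp.smul_apply, smul_eq_mul, div_mul_cancel₀ _ hi0, sub_self]
      have hw'supp : (w - (w i0 / u i0) • u).support ⊆ w.support.erase i0 := by
        intro i hi
        rw [Finsupp.mem_support_iff] at hi
        rw [Finset.mem_erase]
        refine ⟨fun h => hi (h ▸ hw'i0), ?_⟩
        rw [Finsupp.mem_support_iff]
        intro hwi
        apply hi
        have hui : u i = 0 := by
          by_contra hne
          exact (Finsupp.mem_support_iff.1 (husupp (Finsupp.mem_support_iff.2 hne))) hwi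
        rw [Finsupp.sub_apply, Finsupp.smul_apply, hwi, hui, smul_zero, sub_zero]
      have hcard' : (w - (w i0 / u i0) • u).support.card ≤ n := by
        have := Finset.card_le_card hw'supp
        rw [Finset.card_erase_of_mem hi0w] at this
        omega
      have := Submodule.add_mem _ (ih _ hw'W hcard') (Submodule.smul_mem _ (w i0 / u i0) huS)
      rwa [sub_add_cancel] at this
  intro w hw
  exact key _ w hw le_rfl

end Coeff

/-! ### The model-free setting of a constant field extension -/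

section Ext

variable {K F Ω FΩ G : Type*} [Field K] [Field Ω] [Algebra K Ω] [Field F] [Algebra K F]
  [Field FΩ] [Algebra F FΩ] [Algebra Ω FΩ] [Group G] [MulSemiringAction G Ω]
  [MulSemiringAction G FΩ]

variable (F Ω FΩ) in
/-- The `Ω`-span of the image of `F` in `FΩ`. -/
def spanF : Submodule Ω FΩ := Submodule.span Ω (Set.range (algebraMap F FΩ))

theorem algebraMap_mem_spanF (f : F) : algebraMap F FΩ f ∈ spanF F Ω FΩ :=
  Submodule.subset_span ⟨f, rfl⟩

theorem one_mem_spanF : (1 : FΩ) ∈ spanF F Ω FΩ := by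
  have := algebraMap_mem_spanF (Ω := Ω) (FΩ := FΩ) (1 : F)
  rwa [map_one] at this

theorem mul_mem_spanF {a b : FΩ} (ha : a ∈ spanF F Ω FΩ) (hb : b ∈ spanF F Ω FΩ) :
    a * b ∈ spanF F Ω FΩ := by
  have h : spanF F Ω FΩ * spanF F Ω FΩ ≤ spanF F Ω FΩ := by
    rw [spanF, Submodule.span_mul_span]
    apply Submodule.span_mono
    rintro _ ⟨_, ⟨f, rfl⟩, _, ⟨g, rfl⟩, rfl⟩
    exact ⟨f * g, map_mul _ _ _⟩
  exact h (Submodule.mul_mem_mul ha hb)

theorem prod_mem_spanF {α : Type*} (s : Finset α) (b : α → FΩ)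
    (hb : ∀ i ∈ s, b i ∈ spanF F Ω FΩ) : ∏ i ∈ s, b i ∈ spanF F Ω FΩ :=
  Finset.prod_induction _ (· ∈ spanF F Ω FΩ) (fun _ _ hx hy => mul_mem_spanF hx hy)
    one_mem_spanF hb

variable (K F Ω FΩ) in
/-- The coordinate map attached to a `K`-basis of `F`. -/
noncomputable def coordMap : (Module.Basis.ofVectorSpaceIndex K F →₀ Ω) →ₗ[Ω] FΩ :=
  Finsupp.linearCombination Ω (fun i => algebraMap F FΩ (Module.Basis.ofVectorSpace K F i))

section

variable (hcomm : ∀ c : K, algebraMap Ω FΩ (algebraMap K Ω c) = algebraMap F FΩ (algebraMap K F c))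
  (hli : ∀ (n : ℕ) (v : Fin n → F), LinearIndependent K v →
    LinearIndependent Ω (fun i => algebraMap F FΩ (v i)))
  (hfix : ∀ a : Ω, (∀ σ : G, σ • a = a) → a ∈ (algebraMap K Ω).range)
  (hΩ : ∀ (σ : G) (c : Ω), σ • algebraMap Ω FΩ c = algebraMap Ω FΩ (σ • c))
  (hF : ∀ (σ : G) (f : F), σ • algebraMap F FΩ f = algebraMap F FΩ f)

omit [Algebra K Ω] in
include hli in
theorem coordMap_injective : Function.Injective (coordMap K F Ω FΩ) := by
  have hb := (Module.Basis.ofVectorSpace K F).linearIndependent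
  have : LinearIndependent Ω
      (fun i => algebraMap F FΩ (Module.Basis.ofVectorSpace K F i)) := by
    rw [linearIndependent_iff_finset_linearIndependent]
    intro s
    have h1 : LinearIndependent K
        (fun j : Fin s.card => Module.Basis.ofVectorSpace K F (s.equivFin.symm j)) :=
      hb.comp _ (Subtype.val_injective.comp s.equivFin.symm.injective)
    have h3 := (hli _ _ h1).comp s.equivFin s.equivFin.injective
    convert h3 using 1
    ext j
    simp
  exact this

include hcomm in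
theorem range_coordMap : LinearMap.range (coordMap K F Ω FΩ) = spanF F Ω FΩ := by
  rw [coordMap, Finsupp.range_linearCombination]
  apply le_antisymm
  · apply Submodule.span_mono
    rintro _ ⟨i, rfl⟩
    exact ⟨_, rfl⟩
  · rw [spanF, Submodule.span_le]
    rintro _ ⟨f, rfl⟩
    have hf := (Module.Basis.ofVectorSpace K F).linearCombination_repr f
    rw [← hf, Finsupp.linearCombination_apply, Finsupp.sum, map_sum]
    refine Submodule.sum_mem _ fun i _ => ?_
    rw [Algebra.smul_def, map_mul, ← hcomm, ← Algebra.smul_def]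
    exact Submodule.smul_mem _ _ (Submodule.subset_span ⟨i, rfl⟩)

omit [Algebra K Ω] in
include hΩ hF in
theorem smul_coordMap (σ : G) (w : Module.Basis.ofVectorSpaceIndex K F →₀ Ω) :
    σ • coordMap K F Ω FΩ w = coordMap K F Ω FΩ (coeffAct σ w) := by
  have h1 : (Finsupp.mapRange (fun x => σ • x) (smul_zero σ) w).sum
      (fun i a => a • algebraMap F FΩ (Module.Basis.ofVectorSpace K F i)) =
      w.sum (fun i a => (σ • a) • algebraMap F FΩ (Module.Basis.ofVectorSpace K F i)) :=
    Finsupp.sum_mapRange_index (fun i => zero_smul _ _)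
  rw [coordMap, Finsupp.linearCombination_apply, Finsupp.linearCombination_apply, coeffAct,
    h1, Finsupp.sum, Finsupp.sum, Finset.smul_sum]
  refine Finset.sum_congr rfl fun i _ => ?_
  rw [Algebra.smul_def, Algebra.smul_def, smul_mul', hΩ, hF]

include hcomm in
theorem coordMap_mem_range_of_rational (w : Module.Basis.ofVectorSpaceIndex K F →₀ Ω)
    (hw : ∀ i, w i ∈ (algebraMap K Ω).range) :
    coordMap K F Ω FΩ w ∈ Set.range (algebraMap F FΩ) := by
  choose c hc using hw
  refine ⟨∑ i ∈ w.support, c i • Module.Basis.ofVectorSpace K F i, ?_⟩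
  rw [coordMap, Finsupp.linearCombination_apply, Finsupp.sum, map_sum]
  refine Finset.sum_congr rfl fun i _ => ?_
  rw [Algebra.smul_def, map_mul, ← hcomm, hc, ← Algebra.smul_def]

include hΩ hF in
theorem smul_mem_spanF (σ : G) {z : FΩ} (hz : z ∈ spanF F Ω FΩ) : σ • z ∈ spanF F Ω FΩ := by
  unfold spanF at hz ⊢
  induction hz using Submodule.span_induction with
  | mem x hx =>
    obtain ⟨f, rfl⟩ := hx
    rw [hF]
    exact Submodule.subset_span ⟨f, rfl⟩
  | zero =>
    rw [smul_zero]
    exact Submodule.zero_mem _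
  | add x y _ _ hx hy =>
    rw [smul_add]
    exact Submodule.add_mem _ hx hy
  | smul c x _ hx =>
    rw [Algebra.smul_def, smul_mul', hΩ, ← Algebra.smul_def]
    exact Submodule.smul_mem _ _ hx

include hcomm hfix hΩ hF in
/-- **(D2)** A `G`-stable `Ω`-subspace of the `Ω`-span of `F` is spanned by its intersection
with `F`. -/
theorem eq_span_inter_of_stable (W : Submodule Ω FΩ) (hWle : W ≤ spanF F Ω FΩ)
    (hW : ∀ (σ : G), ∀ w ∈ W, σ • w ∈ W) :
    W = Submodule.span Ω {z | z ∈ W ∧ z ∈ Set.range (algebraMap F FΩ)} := by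
  refine le_antisymm ?_ (Submodule.span_le.2 fun z hz => hz.1)
  intro z hz
  have hz' := hWle hz
  rw [← range_coordMap hcomm] at hz'
  obtain ⟨w, rfl⟩ := hz'
  have hstab : ∀ (σ : G), ∀ w ∈ W.comap (coordMap K F Ω FΩ),
      w.mapRange (σ • ·) (smul_zero σ) ∈ W.comap (coordMap K F Ω FΩ) := by
    intro σ w hw
    rw [Submodule.mem_comap] at hw ⊢
    have := hW σ _ hw
    rwa [smul_coordMap hΩ hF] at this
  have hD1 := span_rational_of_stable hfix (W.comap (coordMap K F Ω FΩ)) hstab
  have hw : w ∈ W.comap (coordMap K F Ω FΩ) := hz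
  rw [hD1] at hw
  have := Submodule.apply_mem_span_image_of_mem_span (coordMap K F Ω FΩ) hw
  refine Submodule.span_mono ?_ this
  rintro _ ⟨u, ⟨huW, hurat⟩, rfl⟩
  exact ⟨huW, coordMap_mem_range_of_rational hcomm u hurat⟩

include hcomm hli hfix hΩ hF in
/-- **(D3)** A `G`-fixed element of the `Ω`-span of `F` lies in `F`. -/
theorem mem_range_of_fixed_of_mem_span (z : FΩ) (hz : z ∈ spanF F Ω FΩ)
    (hfixz : ∀ σ : G, σ • z = z) : z ∈ Set.range (algebraMap F FΩ) := by
  rw [← range_coordMap hcomm] at hz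
  obtain ⟨w, rfl⟩ := hz
  refine coordMap_mem_range_of_rational hcomm w fun i => hfix _ fun σ => ?_
  have h := hfixz σ
  rw [smul_coordMap hΩ hF] at h
  have := DFunLike.congr_fun (coordMap_injective hli h) i
  rwa [coeffAct_apply] at this

include hcomm hfix hΩ hF in
/-- A nonzero `G`-stable subspace of the span of `F` contains a nonzero element of `F`. -/
theorem exists_ne_zero_mem_of_stable (I : Submodule Ω FΩ) (hIle : I ≤ spanF F Ω FΩ)
    (hI : ∀ (σ : G), ∀ w ∈ I, σ • w ∈ I) {d : FΩ} (hd : d ∈ I) (hd0 : d ≠ 0) :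
    ∃ f0 : F, f0 ≠ 0 ∧ algebraMap F FΩ f0 ∈ I := by
  have hspan := eq_span_inter_of_stable hcomm hfix hΩ hF I hIle hI
  by_contra hcon
  push Not at hcon
  have : I = ⊥ := by
    rw [hspan, Submodule.span_eq_bot]
    rintro _ ⟨hxI, f, rfl⟩
    by_contra hne
    exact hcon f (fun h => hne (by rw [h, map_zero])) hxI
  rw [this, Submodule.mem_bot] at hd
  exact hd0 hd

include hcomm hli hfix hΩ hF in
/-- **(D4)** The fixed field: `FΩ^G = F`. -/
theorem mem_range_of_fixed
    (hfrac : ∀ z : FΩ, ∃ a b : FΩ, a ∈ spanF F Ω FΩ ∧ b ∈ spanF F Ω FΩ ∧ b ≠ 0 ∧ z * b = a)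
    (z : FΩ) (hz : ∀ σ : G, σ • z = z) : z ∈ Set.range (algebraMap F FΩ) := by
  let I : Submodule Ω FΩ :=
    { carrier := {b | b ∈ spanF F Ω FΩ ∧ b * z ∈ spanF F Ω FΩ}
      zero_mem' := ⟨Submodule.zero_mem _, by rw [zero_mul]; exact Submodule.zero_mem _⟩
      add_mem' := fun {a b} ha hb =>
        ⟨Submodule.add_mem _ ha.1 hb.1, by rw [add_mul]; exact Submodule.add_mem _ ha.2 hb.2⟩
      smul_mem' := fun c b hb =>
        ⟨Submodule.smul_mem _ c hb.1, by
          rw [smul_mul_assoc]; exact Submodule.smul_mem _ c hb.2⟩ }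
  have hIle : I ≤ spanF F Ω FΩ := fun b hb => hb.1
  have hIstab : ∀ (σ : G), ∀ b ∈ I, σ • b ∈ I := by
    intro σ b hb
    refine ⟨smul_mem_spanF hΩ hF σ hb.1, ?_⟩
    have := smul_mem_spanF hΩ hF σ hb.2
    rwa [smul_mul', hz σ] at this
  obtain ⟨a, b, ha, hb, hb0, hab⟩ := hfrac z
  have hbI : b ∈ I := ⟨hb, by rw [mul_comm, hab]; exact ha⟩
  obtain ⟨f0, hf0, hf0I⟩ :=
    exists_ne_zero_mem_of_stable hcomm hfix hΩ hF I hIle hIstab hbI hb0
  have hfix1 : ∀ σ : G, σ • (algebraMap F FΩ f0 * z) = algebraMap F FΩ f0 * z := by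
    intro σ
    rw [smul_mul', hF, hz]
  obtain ⟨f1, hf1⟩ := mem_range_of_fixed_of_mem_span hcomm hli hfix hΩ hF _ hf0I.2 hfix1
  refine ⟨f1 / f0, ?_⟩
  have h0 : algebraMap F FΩ f0 ≠ 0 := by
    rwa [Ne, map_eq_zero]
  rw [map_div₀, hf1]
  field_simp

include hcomm hfix hΩ hF in
/-- **(D5)** A finite-dimensional `G`-stable `Ω`-subspace of `FΩ` is spanned by its
intersection with `F`. -/
theorem eq_span_inter_of_stable_of_finite
    (hfrac : ∀ z : FΩ, ∃ a b : FΩ, a ∈ spanF F Ω FΩ ∧ b ∈ spanF F Ω FΩ ∧ b ≠ 0 ∧ z * b = a)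
    (W : Submodule Ω FΩ) [Module.Finite Ω W] (hW : ∀ (σ : G), ∀ w ∈ W, σ • w ∈ W) :
    W = Submodule.span Ω {z | z ∈ W ∧ z ∈ Set.range (algebraMap F FΩ)} := by
  classical
  refine le_antisymm ?_ (Submodule.span_le.2 fun z hz => hz.1)
  let I : Submodule Ω FΩ :=
    { carrier := {b | b ∈ spanF F Ω FΩ ∧ ∀ w ∈ W, b * w ∈ spanF F Ω FΩ}
      zero_mem' := ⟨Submodule.zero_mem _, fun w _ => by
        rw [zero_mul]; exact Submodule.zero_mem _⟩
      add_mem' := fun {a b} ha hb =>
        ⟨Submodule.add_mem _ ha.1 hb.1, fun w hw => by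
          rw [add_mul]; exact Submodule.add_mem _ (ha.2 w hw) (hb.2 w hw)⟩
      smul_mem' := fun c b hb =>
        ⟨Submodule.smul_mem _ c hb.1, fun w hw => by
          rw [smul_mul_assoc]; exact Submodule.smul_mem _ c (hb.2 w hw)⟩ }
  have hIle : I ≤ spanF F Ω FΩ := fun b hb => hb.1
  have hIstab : ∀ (σ : G), ∀ b ∈ I, σ • b ∈ I := by
    intro σ b hb
    refine ⟨smul_mem_spanF hΩ hF σ hb.1, fun w hw => ?_⟩
    have h1 := smul_mem_spanF hΩ hF σ (hb.2 _ (hW σ⁻¹ w hw))
    rwa [smul_mul', smul_inv_smul] at h1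
  obtain ⟨d, hdI, hd0⟩ : ∃ d ∈ I, d ≠ 0 := by
    obtain ⟨s, hs⟩ : W.FG := Module.Finite.iff_fg.1 ‹_›
    choose a b ha hb hb0 hab using hfrac
    refine ⟨∏ z ∈ s, b z, ⟨prod_mem_spanF s b fun z _ => hb z, ?_⟩,
      Finset.prod_ne_zero_iff.2 fun z _ => hb0 z⟩
    intro w hw
    rw [← hs] at hw
    induction hw using Submodule.span_induction with
    | mem x hx =>
      have hx' : x ∈ s := hx
      rw [← Finset.mul_prod_erase s b hx', mul_comm (b x), mul_assoc, mul_comm (b x) x, hab]
      exact mul_mem_spanF (prod_mem_spanF _ b fun z _ => hb z) (ha x)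
    | zero =>
      rw [mul_zero]
      exact Submodule.zero_mem _
    | add x y _ _ hx hy =>
      rw [mul_add]
      exact Submodule.add_mem _ hx hy
    | smul c x _ hx =>
      rw [mul_smul_comm]
      exact Submodule.smul_mem _ c hx
  obtain ⟨f0, hf0, hf0I⟩ :=
    exists_ne_zero_mem_of_stable hcomm hfix hΩ hF I hIle hIstab hdI hd0
  have h0 : algebraMap F FΩ f0 ≠ 0 := by
    rwa [Ne, map_eq_zero]
  have hW1le : W.map (LinearMap.mulLeft Ω (algebraMap F FΩ f0)) ≤ spanF F Ω FΩ := by
    rintro _ ⟨w, hw, rfl⟩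
    exact hf0I.2 w hw
  have hW1stab : ∀ (σ : G), ∀ y ∈ W.map (LinearMap.mulLeft Ω (algebraMap F FΩ f0)),
      σ • y ∈ W.map (LinearMap.mulLeft Ω (algebraMap F FΩ f0)) := by
    rintro σ _ ⟨w, hw, rfl⟩
    refine ⟨σ • w, hW σ w hw, ?_⟩
    rw [LinearMap.mulLeft_apply, LinearMap.mulLeft_apply, smul_mul', hF]
  have hW1 := eq_span_inter_of_stable hcomm hfix hΩ hF _ hW1le hW1stab
  intro w hw
  have hb0w : algebraMap F FΩ f0 * w ∈ W.map (LinearMap.mulLeft Ω (algebraMap F FΩ f0)) :=
    ⟨w, hw, rfl⟩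
  rw [hW1] at hb0w
  have h2 := Submodule.apply_mem_span_image_of_mem_span
    (LinearMap.mulLeft Ω (algebraMap F FΩ f0)⁻¹) hb0w
  rw [LinearMap.mulLeft_apply, inv_mul_cancel_left₀ h0] at h2
  refine Submodule.span_mono ?_ h2
  rintro _ ⟨y, ⟨⟨w', hw', hw'y⟩, f1, rfl⟩, rfl⟩
  rw [LinearMap.mulLeft_apply] at hw'y
  have h3 : (algebraMap F FΩ f0)⁻¹ * algebraMap F FΩ f1 = w' := by
    rw [← hw'y, inv_mul_cancel_left₀ h0]
  rw [LinearMap.mulLeft_apply, h3]
  exact ⟨hw', f1 / f0, by rw [map_div₀, div_eq_inv_mul, h3]⟩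

include hcomm hli hfix hΩ hF in
/-- **(D5)** Dimensions: for a finite-dimensional `G`-stable `Ω`-subspace `W` of `FΩ`, the
`K`-dimension of `W ∩ F` is the `Ω`-dimension of `W`. -/
theorem finrank_eq_of_stable
    (hfrac : ∀ z : FΩ, ∃ a b : FΩ, a ∈ spanF F Ω FΩ ∧ b ∈ spanF F Ω FΩ ∧ b ≠ 0 ∧ z * b = a)
    (W : Submodule Ω FΩ) [Module.Finite Ω W] (hW : ∀ (σ : G), ∀ w ∈ W, σ • w ∈ W)
    (W₀ : Submodule K F) (hW₀ : ∀ f : F, f ∈ W₀ ↔ algebraMap F FΩ f ∈ W) :
    Module.finrank K W₀ = Module.finrank Ω W := by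
  classical
  have hle : ∀ (m : ℕ) (v : Fin m → F), LinearIndependent K v → (∀ i, v i ∈ W₀) →
      m ≤ Module.finrank Ω W := by
    intro m v hv hmem
    have h1 := hli m v hv
    have h2 : Submodule.span Ω (Set.range fun i => algebraMap F FΩ (v i)) ≤ W := by
      rw [Submodule.span_le]
      rintro _ ⟨i, rfl⟩
      exact (hW₀ _).1 (hmem i)
    have h3 := Submodule.finrank_mono h2
    rw [finrank_span_eq_card h1, Fintype.card_fin] at h3
    exact h3
  have hrank : Module.rank K W₀ ≤ (Module.finrank Ω W : ℕ) := by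
    apply rank_le
    intro s hs
    have h1 : LinearIndependent K (fun i : s => ((i : W₀) : F)) :=
      hs.map' W₀.subtype (Submodule.ker_subtype _)
    have h2 : LinearIndependent K
        (fun j : Fin s.card => (((s.equivFin.symm j : s) : W₀) : F)) :=
      h1.comp _ s.equivFin.symm.injective
    exact hle _ _ h2 (fun j => Subtype.property _)
  have hfin : Module.Finite K W₀ :=
    Module.rank_lt_aleph0_iff.1 (hrank.trans_lt Cardinal.natCast_lt_aleph0)
  apply le_antisymm
  · exact Module.finrank_le_of_rank_le hrank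
  · have hspan : W ≤ Submodule.span Ω
        (Set.range fun i => algebraMap F FΩ ((Module.finBasis K W₀ i : W₀) : F)) := by
      have hW' := eq_span_inter_of_stable_of_finite hcomm hfix hΩ hF hfrac W hW
      intro w hw
      rw [hW'] at hw
      refine Submodule.span_le.2 ?_ hw
      rintro _ ⟨hzW, f, rfl⟩
      have hf : f ∈ W₀ := (hW₀ f).2 hzW
      have hsum := (Module.finBasis K W₀).sum_repr ⟨f, hf⟩
      have hsum' : f = ∑ i, (Module.finBasis K W₀).repr ⟨f, hf⟩ i •
          ((Module.finBasis K W₀ i : W₀) : F) := by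
        have h := congrArg (W₀.subtype) hsum
        rw [map_sum] at h
        simp only [map_smul, Submodule.subtype_apply] at h
        exact h.symm
      rw [hsum', map_sum]
      refine Submodule.sum_mem _ fun i _ => ?_
      rw [Algebra.smul_def, map_mul, ← hcomm, ← Algebra.smul_def]
      exact Submodule.smul_mem _ _ (Submodule.subset_span ⟨i, rfl⟩)
    have : Module.Finite Ω (Submodule.span Ω
        (Set.range fun i => algebraMap F FΩ ((Module.finBasis K W₀ i : W₀) : F))) :=
      FiniteDimensional.span_of_finite Ω (Set.finite_range _)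
    calc Module.finrank Ω W
        ≤ Module.finrank Ω (Submodule.span Ω
          (Set.range fun i => algebraMap F FΩ ((Module.finBasis K W₀ i : W₀) : F))) :=
          Submodule.finrank_mono hspan
      _ ≤ Fintype.card (Fin (Module.finrank K W₀)) := finrank_range_le_card _
      _ = Module.finrank K W₀ := Fintype.card_fin _

end

end Ext

end Fermat.Agent.S27P.BC.Descent
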