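/-
S27 / (BC), row (BC-4) (helper77): the fixed field of `Aut(Ω / K)` for algebraically closed
fields `K ⊆ Ω` is `K`.  Characteristic-free; Mathlib + `MW/Div/AutField` (the finite-orbit
lemma (A)) only; universe-polymorphic.

* `mem_range_of_fixed` : `(∀ σ : Ω ≃ₐ[K] Ω, σ c = c) → c ∈ (algebraMap K Ω).range`;
* `exists_algEquiv_ne` : `c ∉ (algebraMap K Ω).range → ∃ σ : Ω ≃ₐ[K] Ω, σ c ≠ c`;
* `mem_of_fixed_fixing`, `exists_mem_fixingSubgroup_ne` : the same over an algebraically closed
  intermediate field `M` of `Ω / K`, for the group `M.fixingSubgroup`;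
* `fixedField_top` : `IntermediateField.fixedField (⊤ : Subgroup (Ω ≃ₐ[K] Ω)) = ⊥`.
-/
import Mathlib
import Fermat.Agent.MW.Div.AutField

set_option autoImplicit false

namespace Fermat.Agent.S27P.BC.FixedField

open Fermat.Agent.MW.Div

variable {K Ω : Type*} [Field K] [Field Ω] [Algebra K Ω]

/-- An element of `Ω` fixed by all automorphisms of `Ω / K` lies in `K` (`K`, `Ω` algebraically
closed, any characteristic). -/
theorem mem_range_of_fixed [IsAlgClosed K] [IsAlgClosed Ω] {c : Ω}
    (hfix : ∀ σ : Ω ≃ₐ[K] Ω, σ c = c) : c ∈ (algebraMap K Ω).range := by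
  refine AutField.mem_range_of_finite_orbit c ((Set.finite_singleton c).subset ?_)
  rintro _ ⟨σ, rfl⟩
  exact hfix σ

/-- An element of `Ω` outside `K` is moved by some automorphism of `Ω / K`. -/
theorem exists_algEquiv_ne [IsAlgClosed K] [IsAlgClosed Ω] {c : Ω}
    (hc : c ∉ (algebraMap K Ω).range) : ∃ σ : Ω ≃ₐ[K] Ω, σ c ≠ c := by
  by_contra h
  push Not at h
  exact hc (mem_range_of_fixed h)

/-- The intermediate-field form: an element fixed by the automorphisms of `Ω / K` which fix the
algebraically closed intermediate field `M` pointwise lies in `M`. -/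
theorem mem_of_fixed_fixing [IsAlgClosed Ω] (M : IntermediateField K Ω) [IsAlgClosed M] {c : Ω}
    (hfix : ∀ σ ∈ M.fixingSubgroup, σ c = c) : c ∈ M := by
  refine AutField.mem_of_finite_orbit M c ((Set.finite_singleton c).subset ?_)
  rintro _ ⟨σ, hσ, rfl⟩
  refine hfix σ ?_
  rw [IntermediateField.mem_fixingSubgroup_iff]
  exact hσ

/-- An element outside the algebraically closed intermediate field `M` is moved by an element of
`M.fixingSubgroup`. -/
theorem exists_mem_fixingSubgroup_ne [IsAlgClosed Ω] (M : IntermediateField K Ω) [IsAlgClosed M]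
    {c : Ω} (hc : c ∉ M) : ∃ σ ∈ M.fixingSubgroup, σ c ≠ c := by
  by_contra h
  push Not at h
  exact hc (mem_of_fixed_fixing M h)

/-- The fixed field of the full automorphism group of `Ω / K` is `K`. -/
theorem fixedField_top [IsAlgClosed K] [IsAlgClosed Ω] :
    IntermediateField.fixedField (⊤ : Subgroup (Ω ≃ₐ[K] Ω)) = ⊥ := by
  refine le_antisymm (fun c hc => ?_) bot_le
  rw [IntermediateField.mem_bot]
  have hfix : ∀ σ : Ω ≃ₐ[K] Ω, σ c = c := fun σ => by
    have h := (IntermediateField.mem_fixedField_iff (⊤ : Subgroup (Ω ≃ₐ[K] Ω)) c).mp hc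
    exact h σ (Subgroup.mem_top σ)
  exact mem_range_of_fixed hfix

end Fermat.Agent.S27P.BC.FixedField
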