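/-
S27 / (BC), row (BC-9), core: `L(D_Ω) = L(D)·Ω` and `dim_Ω L(D_Ω) = dim_K L(D)`.

Hypothesis form (the rows Basic / FixedField / Descent / BcDiv of the layer are quoted as named
hypotheses, in their literal shapes):

* `smul_mem_riemannRochSpace` : a semilinear automorphism `g` maps `L(D)` into `L(g • D)`;
* `riemannRochSpace_eq_span_of_descent` : if `L(D_Ω)` is finite-dimensional, `D_Ω` is fixed by a
  family `ρ` of semilinear automorphisms of `FΩ/Ω` for which finite-dimensional `ρ`-stable
  `Ω`-subspaces are spanned by their `F`-rational elements (Galois descent), and the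
  `F`-rational elements of `L(D_Ω)` are those of `L(D)`, then `L(D_Ω) = L(D)·Ω`;
* `finrank_eq_of_span_eq` : linear disjointness turns the span equality into an equality of
  dimensions;
* `finrank_riemannRochSpace_of_descent` : both together.
-/
import Mathlib
import Fermat.Prelude.Def_AlgebraicCurve_Repartitions
import Fermat.Prelude.Def_AlgebraicCurve_BaseChangeGalois
import Fermat.Agent.S27P.BC.Defs

set_option autoImplicit false

namespace Fermat.Agent.S27P.BC.RRSpaceCore

open AlgebraicCurve

universe u v w x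

section Transport

variable {K : Type u} {F : Type v} [Field K] [Field F] [Algebra K F]

/-- A semilinear automorphism `g` maps `L(D)` into `L(g • D)`. -/
theorem smul_mem_riemannRochSpace (g : SemilinearAut K F) {D : Divisor K F} {f : F}
    (hf : f ∈ riemannRochSpace D) : g • f ∈ riemannRochSpace (g • D) := by
  rw [mem_riemannRochSpace_iff] at hf ⊢
  intro w
  rcases hf (g⁻¹ • w) with h0 | h1
  · left
    rw [h0]
    exact smul_zero g
  · right
    rw [SemilinearAut.divisor_smul_apply]
    have h2 := SemilinearAut.ord_smul g (g⁻¹ • w) f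
    rw [smul_inv_smul] at h2
    rw [h2]
    exact h1

/-- If `g` fixes `D`, it maps `L(D)` into itself. -/
theorem smul_mem_riemannRochSpace_of_fixed (g : SemilinearAut K F) {D : Divisor K F}
    (hD : g • D = D) {f : F} (hf : f ∈ riemannRochSpace D) : g • f ∈ riemannRochSpace D := by
  have h1 := smul_mem_riemannRochSpace g hf
  rwa [hD] at h1

end Transport

section Core

variable {K : Type u} {F : Type v} {Ω : Type w} {FΩ : Type x} [Field K] [Field F] [Field Ω]
  [Field FΩ] [Algebra K F] [Algebra K Ω] [Algebra F FΩ] [Algebra Ω FΩ]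

omit [Algebra K Ω] in
/-- The `F`-rational elements of `L(D_Ω)` are the elements of `L(D)`. -/
theorem rational_set_eq (D : Divisor K F) (DΩ : Divisor Ω FΩ)
    (hmem : ∀ f : F, algebraMap F FΩ f ∈ riemannRochSpace DΩ ↔ f ∈ riemannRochSpace D) :
    {z : FΩ | z ∈ riemannRochSpace DΩ ∧ z ∈ Set.range (algebraMap F FΩ)}
      = algebraMap F FΩ '' (riemannRochSpace D : Set F) := by
  ext z
  constructor
  · rintro ⟨hz, f, rfl⟩
    exact ⟨f, (hmem f).mp hz, rfl⟩
  · rintro ⟨f, hf, rfl⟩
    exact ⟨(hmem f).mpr hf, f, rfl⟩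

omit [Algebra K Ω] in
/-- **`L(D_Ω) = L(D)·Ω`**, from Galois descent (hypothesis `hdesc`, the shape of
`Descent.eq_span_inter_of_stable_of_finite`). -/
theorem riemannRochSpace_eq_span_of_descent (D : Divisor K F) (DΩ : Divisor Ω FΩ)
    (hmem : ∀ f : F, algebraMap F FΩ f ∈ riemannRochSpace DΩ ↔ f ∈ riemannRochSpace D)
    {G : Type*} (ρ : G → SemilinearAut Ω FΩ) (hρD : ∀ σ, ρ σ • DΩ = DΩ)
    (hdesc : ∀ W : Submodule Ω FΩ, Module.Finite Ω W → (∀ σ, ∀ z ∈ W, ρ σ • z ∈ W) →
      W = Submodule.span Ω {z | z ∈ W ∧ z ∈ Set.range (algebraMap F FΩ)})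
    (hfin : Module.Finite Ω (riemannRochSpace DΩ)) :
    riemannRochSpace DΩ
      = Submodule.span Ω (algebraMap F FΩ '' (riemannRochSpace D : Set F)) := by
  have h1 := hdesc (riemannRochSpace DΩ) hfin
    (fun σ z hz => smul_mem_riemannRochSpace_of_fixed (ρ σ) (hρD σ) hz)
  rw [rational_set_eq D DΩ hmem] at h1
  exact h1

/-- `algebraMap F FΩ` is semilinear over `algebraMap K Ω`. -/
theorem algebraMap_smul_eq (h : IsConstExt K F Ω FΩ) (a : K) (f : F) :
    algebraMap F FΩ (a • f) = algebraMap K Ω a • algebraMap F FΩ f := by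
  rw [Algebra.smul_def, map_mul, h.comm, Algebra.smul_def]

/-- The image of a `K`-subspace `W₀` of `F` lies in the `Ω`-span of the image of a `K`-spanning
family of `W₀`. -/
theorem span_image_eq_span_range (h : IsConstExt K F Ω FΩ) (W₀ : Submodule K F) {ι : Type*}
    (b : ι → W₀) (hb : Submodule.span K (Set.range b) = ⊤) :
    Submodule.span Ω (algebraMap F FΩ '' (W₀ : Set F))
      = Submodule.span Ω (Set.range fun i => algebraMap F FΩ (b i : F)) := by
  apply le_antisymm
  · rw [Submodule.span_le]
    rintro _ ⟨f, hf, rfl⟩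
    have hmem : (⟨f, hf⟩ : W₀) ∈ Submodule.span K (Set.range b) := by
      rw [hb]
      exact Submodule.mem_top
    have key : ∀ y : W₀, y ∈ Submodule.span K (Set.range b) →
        algebraMap F FΩ (y : F) ∈
          Submodule.span Ω (Set.range fun i => algebraMap F FΩ (b i : F)) := by
      intro y hy
      induction hy using Submodule.span_induction with
      | mem y hy =>
        obtain ⟨i, rfl⟩ := hy
        exact Submodule.subset_span ⟨i, rfl⟩
      | zero =>
        rw [Submodule.coe_zero, map_zero]
        exact Submodule.zero_mem _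
      | add y z _ _ hy hz =>
        rw [Submodule.coe_add, map_add]
        exact Submodule.add_mem _ hy hz
      | smul a y _ hy =>
        rw [Submodule.coe_smul, algebraMap_smul_eq h]
        exact Submodule.smul_mem _ _ hy
    exact key ⟨f, hf⟩ hmem
  · rw [Submodule.span_le]
    rintro _ ⟨i, rfl⟩
    exact Submodule.subset_span ⟨(b i : F), (b i).2, rfl⟩

/-- **Dimensions**: if `W = W₀·Ω` then `dim_Ω W = dim_K W₀` (linear disjointness). -/
theorem finrank_eq_of_span_eq (h : IsConstExt K F Ω FΩ) (W₀ : Submodule K F)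
    [Module.Finite K W₀] (W : Submodule Ω FΩ)
    (hW : W = Submodule.span Ω (algebraMap F FΩ '' (W₀ : Set F))) :
    Module.finrank Ω W = Module.finrank K W₀ := by
  classical
  set b := Module.finBasis K W₀ with hb
  have hli : LinearIndependent K (fun i => (b i : F)) := by
    have h1 := b.linearIndependent
    have h2 := h1.map' W₀.subtype (Submodule.ker_subtype W₀)
    exact h2
  have hliΩ : LinearIndependent Ω (fun i => algebraMap F FΩ (b i : F)) := h.linearIndependent hli
  have hspan := span_image_eq_span_range h W₀ (fun i => b i) b.span_eq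
  rw [hW, hspan, finrank_span_eq_card hliΩ, Fintype.card_fin]

/-- If `W = W₀·Ω` is finite-dimensional over `Ω`, then `W₀` is finite-dimensional over `K`. -/
theorem finite_of_span_eq (h : IsConstExt K F Ω FΩ) (W₀ : Submodule K F)
    (W : Submodule Ω FΩ) [Module.Finite Ω W]
    (hW : algebraMap F FΩ '' (W₀ : Set F) ⊆ W) : Module.Finite K W₀ := by
  classical
  have hrank : Module.rank K W₀ ≤ (Module.finrank Ω W : Cardinal) := by
    apply rank_le
    intro s hs
    -- the family `s → W₀ → F → FΩ`, with values in `W`, is `Ω`-independent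
    have h1 : LinearIndependent K (fun i : s => ((i : W₀) : F)) :=
      hs.map' W₀.subtype (Submodule.ker_subtype W₀)
    have h2 : LinearIndependent Ω (fun i : s => algebraMap F FΩ ((i : W₀) : F)) :=
      h.linearIndependent h1
    have h3 : LinearIndependent Ω
        (fun i : s => (⟨algebraMap F FΩ ((i : W₀) : F),
          hW ⟨((i : W₀) : F), (i : W₀).2, rfl⟩⟩ : W)) := by
      apply LinearIndependent.of_comp W.subtype
      exact h2
    have h4 := h3.fintype_card_le_finrank
    rwa [Fintype.card_coe] at h4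
  have hlt : Module.rank K W₀ < Cardinal.aleph0 :=
    lt_of_le_of_lt hrank Cardinal.natCast_lt_aleph0
  exact Module.rank_lt_aleph0_iff.mp hlt

/-- **`dim_Ω L(D_Ω) = dim_K L(D)`**, from Galois descent. -/
theorem finrank_riemannRochSpace_of_descent (h : IsConstExt K F Ω FΩ) (D : Divisor K F)
    (DΩ : Divisor Ω FΩ)
    (hmem : ∀ f : F, algebraMap F FΩ f ∈ riemannRochSpace DΩ ↔ f ∈ riemannRochSpace D)
    {G : Type*} (ρ : G → SemilinearAut Ω FΩ) (hρD : ∀ σ, ρ σ • DΩ = DΩ)
    (hdesc : ∀ W : Submodule Ω FΩ, Module.Finite Ω W → (∀ σ, ∀ z ∈ W, ρ σ • z ∈ W) →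
      W = Submodule.span Ω {z | z ∈ W ∧ z ∈ Set.range (algebraMap F FΩ)})
    (hfin : Module.Finite Ω (riemannRochSpace DΩ)) :
    Module.finrank Ω (riemannRochSpace DΩ) = Module.finrank K (riemannRochSpace D) := by
  have hspan := riemannRochSpace_eq_span_of_descent D DΩ hmem ρ hρD hdesc hfin
  have hsub : algebraMap F FΩ '' (riemannRochSpace D : Set F) ⊆ riemannRochSpace DΩ := by
    rintro _ ⟨f, hf, rfl⟩
    exact (hmem f).mpr hf
  have := hfin
  have : Module.Finite K (riemannRochSpace D) :=
    finite_of_span_eq h (riemannRochSpace D) (riemannRochSpace DΩ) hsub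
  exact finrank_eq_of_span_eq h (riemannRochSpace D) (riemannRochSpace DΩ) hspan

end Core

end Fermat.Agent.S27P.BC.RRSpaceCore
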