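/-
S27 / (BC), row (BC-9): `L(D_Ω) = L(D)·Ω` and `dim_Ω L(D_Ω) = dim_K L(D)`, in the vocabulary of
record of the layer.

`h : IsConstExt K F Ω FΩ`, `K ⊆ Ω` algebraically closed (any characteristic),
`bc : Place K F → Place Ω FΩ` a base-change map of places (`IsBcPlace bc`, row (BC-8)) fixed by
the action `h.semilinearAut` of `Aut(Ω/K)` (hypothesis `hinv`; or from the uniqueness `huniq` of
the extension of a place, row (BC-7)).  For a divisor `D` of `F/K` with `L(D_Ω)`
finite-dimensional (automatic under `IsFF1 Ω FΩ x'`):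

* `riemannRochSpace_bcDiv_eq_span` : `L(D_Ω) = span_Ω (L(D))`;
* `finrank_riemannRochSpace_bcDiv` : `dim_Ω L(D_Ω) = dim_K L(D)`;
* `exists_ne_zero_mem_riemannRochSpace_iff` : `L(D_Ω) ≠ 0 ↔ L(D) ≠ 0`.

Inputs: Galois descent `Descent.eq_span_inter_of_stable_of_finite` (row (BC-5)), the fixed field
`FixedField.mem_range_of_fixed` (row (BC-4)), the action `IsConstExt.semilinearAut` (row (BC-2)),
`BcDiv.mem_riemannRochSpace_bcDiv_iff`, `BcDiv.smul_bcDiv` (row (BC-8)).
-/
import Mathlib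
import Fermat.Agent.S27P.BC.RRSpaceCore
import Fermat.Agent.S27P.BC.Basic
import Fermat.Agent.S27P.BC.FixedField
import Fermat.Agent.S27P.BC.Descent
import Fermat.Agent.S27P.BC.BcDiv

set_option autoImplicit false

namespace Fermat.Agent.S27P.BC.RRSpace

open AlgebraicCurve Fermat.Agent.S27P.BC.BcDiv

universe u v w x

variable {K : Type u} {F : Type v} {Ω : Type w} {FΩ : Type x} [Field K] [Field F] [Field Ω]
  [Field FΩ] [Algebra K F] [Algebra K Ω] [Algebra F FΩ] [Algebra Ω FΩ]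

/-- **Galois descent** in the vocabulary of record: a finite-dimensional `Ω`-subspace of `FΩ`
stable under `Aut(Ω/K)` is spanned by its `F`-rational elements. -/
theorem eq_span_inter_of_stable [IsAlgClosed K] [IsAlgClosed Ω] (h : IsConstExt K F Ω FΩ)
    (W : Submodule Ω FΩ) (hWfin : Module.Finite Ω W)
    (hW : ∀ σ : Ω ≃ₐ[K] Ω, ∀ z ∈ W, h.semilinearAut σ • z ∈ W) :
    W = Submodule.span Ω {z | z ∈ W ∧ z ∈ Set.range (algebraMap F FΩ)} := by
  letI := h.mulSemiringAction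
  have hfrac : ∀ z : FΩ, ∃ a b : FΩ, a ∈ Descent.spanF F Ω FΩ ∧ b ∈ Descent.spanF F Ω FΩ ∧
      b ≠ 0 ∧ z * b = a := by
    intro z
    obtain ⟨a, ha, b, hb, hb0, hab⟩ := h.exists_div z
    exact ⟨a, b, ha, hb, hb0, hab⟩
  exact Descent.eq_span_inter_of_stable_of_finite (K := K) (F := F) (Ω := Ω) (FΩ := FΩ)
    (G := Ω ≃ₐ[K] Ω) (fun c => (h.comm c).symm)
    (fun a ha => FixedField.mem_range_of_fixed ha)
    (fun σ c => h.mulSemiringAction_smul_algebraMap_base σ c)
    (fun σ f => h.mulSemiringAction_smul_algebraMap σ f) hfrac W hW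

/-- The action of `Aut(Ω/K)` fixes the places `bc v`, given the uniqueness of the extension of a
place (row (BC-7)). -/
theorem semilinearAut_smul_bc (h : IsConstExt K F Ω FΩ) {bc : Place K F → Place Ω FΩ}
    (hb : IsBcPlace bc)
    (huniq : ∀ (w : Place Ω FΩ) (v : Place K F),
      (∀ f : F, w.ord (algebraMap F FΩ f) = v.ord f) → w = bc v)
    (σ : Ω ≃ₐ[K] Ω) (v : Place K F) : h.semilinearAut σ • bc v = bc v :=
  smul_bc_of_fixes huniq hb (h.semilinearAut σ)
    (fun f => h.semilinearAut_smul_algebraMap σ f) v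

/-- **`L(D_Ω) = L(D)·Ω`.** -/
theorem riemannRochSpace_bcDiv_eq_span [IsAlgClosed K] [IsAlgClosed Ω]
    (h : IsConstExt K F Ω FΩ) {bc : Place K F → Place Ω FΩ} (hb : IsBcPlace bc)
    (hinv : ∀ (σ : Ω ≃ₐ[K] Ω) (v : Place K F), h.semilinearAut σ • bc v = bc v)
    (D : Divisor K F) (hfin : Module.Finite Ω (riemannRochSpace (bcDiv bc D))) :
    riemannRochSpace (bcDiv bc D)
      = Submodule.span Ω (algebraMap F FΩ '' (riemannRochSpace D : Set F)) :=
  RRSpaceCore.riemannRochSpace_eq_span_of_descent D (bcDiv bc D)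
    (mem_riemannRochSpace_bcDiv_iff hb D) (fun σ : Ω ≃ₐ[K] Ω => h.semilinearAut σ)
    (fun σ => smul_bcDiv (h.semilinearAut σ) (hinv σ) D)
    (fun W hWfin hW => eq_span_inter_of_stable h W hWfin hW) hfin

/-- **`dim_Ω L(D_Ω) = dim_K L(D)`.** -/
theorem finrank_riemannRochSpace_bcDiv [IsAlgClosed K] [IsAlgClosed Ω]
    (h : IsConstExt K F Ω FΩ) {bc : Place K F → Place Ω FΩ} (hb : IsBcPlace bc)
    (hinv : ∀ (σ : Ω ≃ₐ[K] Ω) (v : Place K F), h.semilinearAut σ • bc v = bc v)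
    (D : Divisor K F) (hfin : Module.Finite Ω (riemannRochSpace (bcDiv bc D))) :
    Module.finrank Ω (riemannRochSpace (bcDiv bc D))
      = Module.finrank K (riemannRochSpace D) :=
  RRSpaceCore.finrank_riemannRochSpace_of_descent h D (bcDiv bc D)
    (mem_riemannRochSpace_bcDiv_iff hb D) (fun σ : Ω ≃ₐ[K] Ω => h.semilinearAut σ)
    (fun σ => smul_bcDiv (h.semilinearAut σ) (hinv σ) D)
    (fun W hWfin hW => eq_span_inter_of_stable h W hWfin hW) hfin

/-- `L(D)` is finite-dimensional over `K` as soon as `L(D_Ω)` is over `Ω`. -/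
theorem finite_riemannRochSpace (h : IsConstExt K F Ω FΩ) {bc : Place K F → Place Ω FΩ}
    (hb : IsBcPlace bc) (D : Divisor K F)
    (hfin : Module.Finite Ω (riemannRochSpace (bcDiv bc D))) :
    Module.Finite K (riemannRochSpace D) := by
  have := hfin
  refine RRSpaceCore.finite_of_span_eq h (riemannRochSpace D) (riemannRochSpace (bcDiv bc D)) ?_
  rintro _ ⟨f, hf, rfl⟩
  exact algebraMap_mem_riemannRochSpace_bcDiv hb hf

/-- **`L(D_Ω) ≠ 0 ↔ L(D) ≠ 0`.** -/
theorem exists_ne_zero_mem_riemannRochSpace_iff [IsAlgClosed K] [IsAlgClosed Ω]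
    (h : IsConstExt K F Ω FΩ) {bc : Place K F → Place Ω FΩ} (hb : IsBcPlace bc)
    (hinv : ∀ (σ : Ω ≃ₐ[K] Ω) (v : Place K F), h.semilinearAut σ • bc v = bc v)
    (D : Divisor K F) (hfin : Module.Finite Ω (riemannRochSpace (bcDiv bc D))) :
    (∃ z : FΩ, z ≠ 0 ∧ z ∈ riemannRochSpace (bcDiv bc D)) ↔
      ∃ f : F, f ≠ 0 ∧ f ∈ riemannRochSpace D := by
  constructor
  · rintro ⟨z, hz0, hz⟩
    by_contra hcon
    push Not at hcon
    have hbot : riemannRochSpace (bcDiv bc D) = ⊥ := by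
      rw [riemannRochSpace_bcDiv_eq_span h hb hinv D hfin, Submodule.span_eq_bot]
      rintro _ ⟨f, hf, rfl⟩
      by_cases hf0 : f = 0
      · rw [hf0, map_zero]
      · exact absurd hf (hcon f hf0)
    rw [hbot, Submodule.mem_bot] at hz
    exact hz0 hz
  · rintro ⟨f, hf0, hf⟩
    exact ⟨algebraMap F FΩ f, by rwa [Ne, map_eq_zero],
      algebraMap_mem_riemannRochSpace_bcDiv hb hf⟩

end Fermat.Agent.S27P.BC.RRSpace
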