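/-
S27 / (BC), consumer package at the map of record (helper15; seam test of rows (BC-3), (BC-6),
(BC-8), (BC-9) and the core of (BC-10), all on main): for algebraically closed `K ⊆ Ω` (any
characteristic), `h : IsConstExt K F Ω FΩ` and `hF : IsFF1 K F x`:

* `isFF1` : `IsFF1 Ω FΩ (algebraMap F FΩ x)`  (= `Field.isFF1_map`);
* `finrank_riemannRochSpace_bcDivisor` : `dim_Ω L(D_Ω) = dim_K L(D)`;
* `genusFF_eq` : `genusFF Ω FΩ = genusFF K F`;
* `bcPic_injective` : `BcGauss.bcPic h hF.resK : Pic0 K F →+ Pic0 Ω FΩ` is injective;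
* `bcPic_mem_torsion`, `bcPicTorsion`, `card_torsion_le`, `finite_torsion` : the `m`-torsion of
  `Pic0 K F` embeds into the `m`-torsion of `Pic0 Ω FΩ`.
-/
import Mathlib
import Fermat.Agent.S27P.BC.BcGauss
import Fermat.Agent.S27P.BC.RRSpace
import Fermat.Agent.S27P.BC.MainCore
import Fermat.Agent.S27P.BC.Field

set_option autoImplicit false

noncomputable section

namespace Fermat.Agent.S27P.BC.BcMain

open AlgebraicCurve
open Fermat.Agent.S27P.BC Fermat.Agent.S27P.BC.BcDiv Fermat.Agent.S27P.BC.BcGauss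
  Fermat.Agent.Lib.FF

universe u v w x

variable {K : Type u} {F : Type v} {Ω : Type w} {FΩ : Type x} [Field K] [Field F]
  [Field Ω] [Field FΩ] [Algebra K F] [Algebra K Ω] [Algebra F FΩ] [Algebra Ω FΩ]

/-- The constant field extension is again a function field of one variable. -/
theorem isFF1 [IsAlgClosed Ω] (h : IsConstExt K F Ω FΩ) {x : F} (hF : IsFF1 K F x) :
    IsFF1 Ω FΩ (algebraMap F FΩ x) :=
  Field.isFF1_map h hF

/-- **`dim_Ω L(D_Ω) = dim_K L(D)`.** -/
theorem finrank_riemannRochSpace_bcDivisor [IsAlgClosed K] [IsAlgClosed Ω]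
    (h : IsConstExt K F Ω FΩ) {x : F} (hF : IsFF1 K F x) (D : Divisor K F) :
    Module.finrank Ω (riemannRochSpace (bcDivisor h hF.resK D))
      = Module.finrank K (riemannRochSpace D) :=
  RRSpace.finrank_riemannRochSpace_bcDiv h (isBcPlace h hF.resK)
    (semilinearAut_smul_bcPlace h hF.resK) D ((isFF1 h hF).finite_L _)

/-- **`L(D_Ω) = L(D)·Ω`.** -/
theorem riemannRochSpace_bcDivisor_eq_span [IsAlgClosed K] [IsAlgClosed Ω]
    (h : IsConstExt K F Ω FΩ) {x : F} (hF : IsFF1 K F x) (D : Divisor K F) :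
    riemannRochSpace (bcDivisor h hF.resK D)
      = Submodule.span Ω (algebraMap F FΩ '' (riemannRochSpace D : Set F)) :=
  RRSpace.riemannRochSpace_bcDiv_eq_span h (isBcPlace h hF.resK)
    (semilinearAut_smul_bcPlace h hF.resK) D ((isFF1 h hF).finite_L _)

/-- **The genus is invariant under constant field extension.** -/
theorem genusFF_eq [IsAlgClosed K] [IsAlgClosed Ω]
    (h : IsConstExt K F Ω FΩ) {x : F} (hF : IsFF1 K F x) : genusFF Ω FΩ = genusFF K F :=
  MainCore.genusFF_eq_of_finrank hF (isFF1 h hF) (bcDivisor h hF.resK)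
    (degree_bcDivisor h hF.resK) (finrank_riemannRochSpace_bcDivisor h hF)

/-- A divisor of degree zero of `F` which becomes principal in `FΩ` is principal. -/
theorem mem_principal_of_bcDivisor_mem_principal [IsAlgClosed K] [IsAlgClosed Ω]
    (h : IsConstExt K F Ω FΩ) {x : F} (hF : IsFF1 K F x) (D : Divisor K F)
    (hD : Divisor.degree D = 0)
    (hp : bcDivisor h hF.resK D ∈ Divisor.principal (K := Ω) (F := FΩ)) :
    D ∈ Divisor.principal (K := K) (F := F) :=
  MainCore.mem_principal_of_bc_mem_principal hF (isFF1 h hF) (bcDivisor h hF.resK)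
    (finrank_riemannRochSpace_bcDivisor h hF) D hD hp

/-- **Base change is injective on divisor classes of degree zero.** -/
theorem bcPic_injective [IsAlgClosed K] [IsAlgClosed Ω]
    (h : IsConstExt K F Ω FΩ) {x : F} (hF : IsFF1 K F x) :
    Function.Injective (bcPic h hF.resK) := by
  rw [injective_iff_map_eq_zero]
  intro c hc
  obtain ⟨D, rfl⟩ := Pic0.mk_surjective c
  rw [bcPic_mk_eq_zero_iff] at hc
  have hD : (D : Divisor K F) ∈ Divisor.principal (K := K) (F := F) :=
    mem_principal_of_bcDivisor_mem_principal h hF D D.2 hc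
  show (QuotientAddGroup.mk D : Pic0 K F) = 0
  rw [QuotientAddGroup.eq_zero_iff, AddSubgroup.mem_addSubgroupOf]
  exact hD

/-! ### Torsion -/

omit [Algebra K Ω] [Algebra F FΩ] in
/-- An additive map of class groups preserves torsion. -/
theorem map_mem_torsion (φ : Pic0 K F →+ Pic0 Ω FΩ) (m : ℕ) {c : Pic0 K F}
    (hc : c ∈ Pic0.torsion K F m) : φ c ∈ Pic0.torsion Ω FΩ m := by
  rw [Pic0.mem_torsion] at hc ⊢
  rw [← map_zsmul, hc, map_zero]

theorem bcPic_mem_torsion (h : IsConstExt K F Ω FΩ) (hres : ∀ v : Place K F, RR.ResK v)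
    (m : ℕ) {c : Pic0 K F} (hc : c ∈ Pic0.torsion K F m) :
    bcPic h hres c ∈ Pic0.torsion Ω FΩ m :=
  map_mem_torsion _ m hc

/-- Base change on `m`-torsion. -/
def bcPicTorsion (h : IsConstExt K F Ω FΩ) (hres : ∀ v : Place K F, RR.ResK v) (m : ℕ) :
    Pic0.torsion K F m →+ Pic0.torsion Ω FΩ m :=
  ((bcPic h hres).comp (Pic0.torsion K F m).subtype).codRestrict _
    (fun c => bcPic_mem_torsion h hres m c.2)

@[simp]
theorem coe_bcPicTorsion (h : IsConstExt K F Ω FΩ) (hres : ∀ v : Place K F, RR.ResK v) (m : ℕ)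
    (c : Pic0.torsion K F m) :
    (bcPicTorsion h hres m c : Pic0 Ω FΩ) = bcPic h hres (c : Pic0 K F) := rfl

theorem bcPicTorsion_injective [IsAlgClosed K] [IsAlgClosed Ω]
    (h : IsConstExt K F Ω FΩ) {x : F} (hF : IsFF1 K F x) (m : ℕ) :
    Function.Injective (bcPicTorsion h hF.resK m) := by
  intro c c' hcc
  apply Subtype.ext
  apply bcPic_injective h hF
  exact congrArg Subtype.val hcc

/-- The `m`-torsion of `Pic0 K F` is finite as soon as that of `Pic0 Ω FΩ` is. -/
theorem finite_torsion [IsAlgClosed K] [IsAlgClosed Ω]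
    (h : IsConstExt K F Ω FΩ) {x : F} (hF : IsFF1 K F x) (m : ℕ)
    [Finite (Pic0.torsion Ω FΩ m)] : Finite (Pic0.torsion K F m) :=
  Finite.of_injective _ (bcPicTorsion_injective h hF m)

/-- `#Pic0(F)[m] ≤ #Pic0(FΩ)[m]`. -/
theorem card_torsion_le [IsAlgClosed K] [IsAlgClosed Ω]
    (h : IsConstExt K F Ω FΩ) {x : F} (hF : IsFF1 K F x) (m : ℕ)
    [Finite (Pic0.torsion Ω FΩ m)] :
    Nat.card (Pic0.torsion K F m) ≤ Nat.card (Pic0.torsion Ω FΩ m) :=
  Nat.card_le_card_of_injective _ (bcPicTorsion_injective h hF m)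

end Fermat.Agent.S27P.BC.BcMain
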