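/-
S27 / (BC0) (helper81): the algebra behind constant field extensions.

Over an algebraically closed field `K` the tensor product of two `K`-algebras which are domains is
a domain (characteristic-free; by the Nullstellensatz).  In particular `F ⊗[K] Ω` is a domain for
field extensions `F`, `Ω` of `K`, so that the constant field extension `F_Ω` can be defined as its
field of fractions.

* `exists_algHom_ne_zero` : a non-zero element of a reduced finitely generated `K`-algebra is
  non-zero at some `K`-point.
* `isDomain_tensorProduct` : `A ⊗[K] B` is a domain.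
* `linearIndependent_one_tmul`, `linearIndependent_tmul_one` : a `K`-linearly independent family
  stays linearly independent after extension of scalars.
* `includeLeft_injective`, `includeRight_injective`.
-/
import Mathlib

set_option autoImplicit false
set_option linter.style.haveILetI false

noncomputable section

namespace Fermat.Agent.S27P.BC.TensorDomain

open TensorProduct

universe u v w

/-- **Nullstellensatz, point form**: a non-zero element of a reduced finitely generated algebra
over an algebraically closed field does not vanish at some `K`-point. -/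
theorem exists_algHom_ne_zero {K : Type u} {A : Type v} [Field K] [IsAlgClosed K] [CommRing A]
    [Algebra K A] [Algebra.FiniteType K A] [IsReduced A] {a : A} (ha : a ≠ 0) :
    ∃ χ : A →ₐ[K] K, χ a ≠ 0 := by
  haveI : IsJacobsonRing A := isJacobsonRing_of_finiteType (A := K) (B := A)
  have hJ : (⊥ : Ideal A).jacobson = ⊥ := IsJacobsonRing.out' _ Ideal.isRadical_bot
  have ha' : a ∉ (⊥ : Ideal A).jacobson := by
    rw [hJ]
    simpa using ha
  have hex : ∃ m : Ideal A, m.IsMaximal ∧ a ∉ m := by
    by_contra hcon
    apply ha'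
    rw [Ideal.jacobson, Ideal.mem_sInf]
    rintro m ⟨-, hm⟩
    by_contra ham
    exact hcon ⟨m, hm, ham⟩
  obtain ⟨m, hm, ham⟩ := hex
  haveI := hm
  letI : Field (A ⧸ m) := Ideal.Quotient.field m
  haveI : Algebra.FiniteType K (A ⧸ m) :=
    Algebra.FiniteType.of_surjective (Ideal.Quotient.mkₐ K m) (Ideal.Quotient.mkₐ_surjective K m)
  haveI : Module.Finite K (A ⧸ m) := finite_of_finite_type_of_isJacobsonRing K (A ⧸ m)
  haveI : Algebra.IsIntegral K (A ⧸ m) := Algebra.IsIntegral.of_finite K (A ⧸ m)
  have hbij : Function.Bijective (algebraMap K (A ⧸ m)) :=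
    IsAlgClosed.algebraMap_bijective_of_isIntegral
  let e : K ≃ₐ[K] (A ⧸ m) := AlgEquiv.ofBijective (Algebra.ofId K (A ⧸ m)) hbij
  refine ⟨(e.symm : (A ⧸ m) →ₐ[K] K).comp (Ideal.Quotient.mkₐ K m), ?_⟩
  intro h0
  apply ham
  have h1 : e.symm (Ideal.Quotient.mk m a) = 0 := h0
  have h2 : Ideal.Quotient.mk m a = 0 := by
    have := congrArg e h1
    simpa using this
  exact Ideal.Quotient.eq_zero_iff_mem.1 h2

section Domain

variable {K : Type u} {A : Type v} {B : Type w} [Field K] [CommRing A] [CommRing B]
  [Algebra K A] [Algebra K B]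

/-- Evaluation of the first factor of a tensor product at a `K`-point. -/
def evalLeft (χ : A →ₐ[K] K) : A ⊗[K] B →ₐ[K] B :=
  Algebra.TensorProduct.lift ((Algebra.ofId K B).comp χ) (AlgHom.id K B)
    (fun _ _ => Commute.all _ _)

theorem evalLeft_tmul (χ : A →ₐ[K] K) (a : A) (b : B) :
    evalLeft (B := B) χ (a ⊗ₜ[K] b) = χ a • b := by
  simp [evalLeft, Algebra.smul_def, Algebra.ofId_apply]

/-- Extension of scalars along a subalgebra is injective. -/
theorem map_val_injective (A₀ : Subalgebra K A) :
    Function.Injective (Algebra.TensorProduct.map A₀.val (AlgHom.id K B)) := by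
  have h := Module.Flat.rTensor_preserves_injective_linearMap (M := B) A₀.val.toLinearMap
    Subtype.val_injective
  intro s t hst
  apply h
  have e : ∀ z : ↥A₀ ⊗[K] B, LinearMap.rTensor B A₀.val.toLinearMap z =
      Algebra.TensorProduct.map A₀.val (AlgHom.id K B) z := by
    intro z
    induction z using TensorProduct.induction_on with
    | zero => simp
    | tmul a b => simp
    | add x y hx hy => rw [map_add, map_add, hx, hy]
  rw [e, e, hst]

/-- **Over an algebraically closed field the tensor product of two domains is a domain.** -/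
theorem isDomain_tensorProduct [IsAlgClosed K] [IsDomain A] [IsDomain B] :
    IsDomain (A ⊗[K] B) := by
  classical
  let b := Module.Basis.ofVectorSpace K B
  let 𝔟 := Algebra.TensorProduct.basis A b
  haveI : Nontrivial (A ⊗[K] B) := by
    obtain ⟨i⟩ := b.index_nonempty
    exact ⟨⟨𝔟 i, 0, 𝔟.ne_zero i⟩⟩
  haveI : NoZeroDivisors (A ⊗[K] B) := by
    refine ⟨fun {u v} huv => ?_⟩
    by_contra hcon
    have hu : u ≠ 0 := fun h => hcon (Or.inl h)
    have hv : v ≠ 0 := fun h => hcon (Or.inr h)
    set cu := 𝔟.repr u with hcu_def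
    set cv := 𝔟.repr v with hcv_def
    have hcu0 : cu ≠ 0 := (LinearEquiv.map_ne_zero_iff _).2 hu
    have hcv0 : cv ≠ 0 := (LinearEquiv.map_ne_zero_iff _).2 hv
    obtain ⟨i₀, hi₀⟩ : ∃ i, cu i ≠ 0 := by
      by_contra h
      exact hcu0 (Finsupp.ext fun i => by simpa using not_not.1 (not_exists.1 h i))
    obtain ⟨j₀, hj₀⟩ : ∃ j, cv j ≠ 0 := by
      by_contra h
      exact hcv0 (Finsupp.ext fun i => by simpa using not_not.1 (not_exists.1 h i))
    let S : Finset A := cu.support.image cu ∪ cv.support.image cv
    let A₀ : Subalgebra K A := Algebra.adjoin K (S : Set A)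
    haveI : Algebra.FiniteType K A₀ :=
      (Subalgebra.fg_iff_finiteType _).1 (Subalgebra.fg_adjoin_finset S)
    have hcu : ∀ i, cu i ∈ A₀ := by
      intro i
      by_cases hi : cu i = 0
      · rw [hi]; exact A₀.zero_mem
      · refine Algebra.subset_adjoin ?_
        rw [Finset.mem_coe]
        exact Finset.mem_union_left _ (Finset.mem_image_of_mem _ (Finsupp.mem_support_iff.2 hi))
    have hcv : ∀ i, cv i ∈ A₀ := by
      intro i
      by_cases hi : cv i = 0
      · rw [hi]; exact A₀.zero_mem
      · refine Algebra.subset_adjoin ?_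
        rw [Finset.mem_coe]
        exact Finset.mem_union_right _ (Finset.mem_image_of_mem _ (Finsupp.mem_support_iff.2 hi))
    let u₀ : ↥A₀ ⊗[K] B := ∑ i ∈ cu.support, (⟨cu i, hcu i⟩ : A₀) ⊗ₜ[K] b i
    let v₀ : ↥A₀ ⊗[K] B := ∑ i ∈ cv.support, (⟨cv i, hcv i⟩ : A₀) ⊗ₜ[K] b i
    let ψ := Algebra.TensorProduct.map A₀.val (AlgHom.id K B)
    have hψu : ψ u₀ = u := by
      have h1 : u = ∑ i ∈ cu.support, cu i • 𝔟 i := by
        have := 𝔟.linearCombination_repr u
        rw [Finsupp.linearCombination_apply, Finsupp.sum] at this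
        exact this.symm
      rw [h1, map_sum]
      refine Finset.sum_congr rfl fun i _ => ?_
      rw [Algebra.TensorProduct.basis_repr_symm_apply']
      simp [ψ]
    have hψv : ψ v₀ = v := by
      have h1 : v = ∑ i ∈ cv.support, cv i • 𝔟 i := by
        have := 𝔟.linearCombination_repr v
        rw [Finsupp.linearCombination_apply, Finsupp.sum] at this
        exact this.symm
      rw [h1, map_sum]
      refine Finset.sum_congr rfl fun i _ => ?_
      rw [Algebra.TensorProduct.basis_repr_symm_apply']
      simp [ψ]
    have h00 : u₀ * v₀ = 0 := by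
      apply map_val_injective (B := B) A₀
      show ψ (u₀ * v₀) = ψ 0
      rw [map_mul, hψu, hψv, huv, map_zero]
    have ha₀ : (⟨cu i₀, hcu i₀⟩ : A₀) * ⟨cv j₀, hcv j₀⟩ ≠ 0 :=
      mul_ne_zero (fun h => hi₀ (congrArg Subtype.val h)) (fun h => hj₀ (congrArg Subtype.val h))
    obtain ⟨χ, hχ⟩ := exists_algHom_ne_zero (K := K) (A := A₀) ha₀
    rw [map_mul] at hχ
    have hθ : evalLeft (B := B) χ u₀ * evalLeft (B := B) χ v₀ = 0 := by
      rw [← map_mul, h00, map_zero]
    have hθu : evalLeft (B := B) χ u₀ = ∑ i ∈ cu.support, χ ⟨cu i, hcu i⟩ • b i := by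
      simp only [u₀, map_sum, evalLeft_tmul]
    have hθv : evalLeft (B := B) χ v₀ = ∑ i ∈ cv.support, χ ⟨cv i, hcv i⟩ • b i := by
      simp only [v₀, map_sum, evalLeft_tmul]
    have hli := linearIndependent_iff'.1 b.linearIndependent
    rcases mul_eq_zero.1 hθ with h | h
    · rw [hθu] at h
      have := hli cu.support (fun i => χ ⟨cu i, hcu i⟩) h i₀ (Finsupp.mem_support_iff.2 hi₀)
      exact hχ (by rw [this, zero_mul])
    · rw [hθv] at h
      have := hli cv.support (fun i => χ ⟨cv i, hcv i⟩) h j₀ (Finsupp.mem_support_iff.2 hj₀)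
      exact hχ (by rw [this, mul_zero])
  exact NoZeroDivisors.to_isDomain _

/-- A `K`-linearly independent family of `B` stays `A`-linearly independent in `A ⊗[K] B`
(`A` any `K`-algebra). -/
theorem linearIndependent_one_tmul {ι : Type*} {b : ι → B} (hb : LinearIndependent K b) :
    LinearIndependent A (fun i => (1 : A) ⊗ₜ[K] b i) := by
  classical
  have hs : LinearIndepOn K id (Set.range b) := hb.linearIndepOn_id
  let bb := Module.Basis.extend hs
  let 𝔟 := Algebra.TensorProduct.basis A bb
  let f : ι → hs.extend (Set.subset_univ _) := fun i =>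
    ⟨b i, Module.Basis.subset_extend hs ⟨i, rfl⟩⟩
  have hf : Function.Injective f := fun i j hij => hb.injective (congrArg Subtype.val hij)
  have h1 : LinearIndependent A (𝔟 ∘ f) := 𝔟.linearIndependent.comp f hf
  have h2 : (𝔟 ∘ f) = fun i => (1 : A) ⊗ₜ[K] b i := by
    funext i
    show 𝔟 (f i) = _
    rw [Algebra.TensorProduct.basis_apply, Module.Basis.extend_apply_self]
  rw [← h2]
  exact h1

/-- The tensor product of two field extensions of an algebraically closed field is a domain. -/
theorem isDomain_tensorProduct_field {F : Type v} {Ω : Type w} [Field F] [Field Ω] [Algebra K F]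
    [Algebra K Ω] [IsAlgClosed K] : IsDomain (Ω ⊗[K] F) :=
  isDomain_tensorProduct

end Domain

end Fermat.Agent.S27P.BC.TensorDomain
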