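/-
S27 / (BC) (helper46): the constant field extension `F_Ω` EXISTS.

For an algebraically closed field `K`, a field `F ⊇ K` and a field `Ω ⊇ K`, the ring `Ω ⊗[K] F`
is a domain (`TensorDomain.isDomain_tensorProduct_field`, helper81) and

  `Model K F Ω := Frac (Ω ⊗[K] F)`

is a field containing `F` and `Ω` (compatibly over `K`).  It is a `def` with its own instances, so
nothing about `FractionRing` / `TensorProduct` leaks to the consumers.  Proved here
(characteristic-free, universe-polymorphic):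

* `linearIndependent_algebraMap` : a `K`-linearly independent family of `F` is `Ω`-linearly
  independent in `Model K F Ω`;
* `linearIndependent_algebraMap_right` : a `K`-linearly independent family of `Ω` is `F`-linearly
  independent in `Model K F Ω`;
* `exists_div_span`, `exists_sum_quot` : every element of `Model K F Ω` is a quotient of two
  `Ω`-linear combinations of elements of `F`;
* `autAct : (Ω ≃ₐ[K] Ω) →* (Model K F Ω ≃ₐ[F] Model K F Ω)` : the semilinear action of
  `Aut(Ω/K)`, with `autAct_algebraMap : autAct σ (algebraMap Ω _ ω) = algebraMap Ω _ (σ ω)`.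
-/
import Mathlib
import Fermat.Agent.S27P.BC.TensorDomain
import Fermat.Agent.S27P.BC.Defs

set_option autoImplicit false

noncomputable section

namespace Fermat.Agent.S27P.BC.ConstExt

open TensorProduct

universe u v w

variable (K : Type u) (F : Type v) (Ω : Type w) [Field K] [IsAlgClosed K] [Field F] [Field Ω]
  [Algebra K F] [Algebra K Ω]

/-- The constant field extension `F_Ω`: the field of fractions of the domain `Ω ⊗[K] F`. -/
def Model : Type (max w v) :=
  haveI : IsDomain (Ω ⊗[K] F) := TensorDomain.isDomain_tensorProduct_field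
  FractionRing (Ω ⊗[K] F)

/-- `Ω ⊗[K] F` is a domain (local name for helper81's theorem). -/
theorem isDomain_tensor : IsDomain (Ω ⊗[K] F) := TensorDomain.isDomain_tensorProduct_field

instance instField : Field (Model K F Ω) :=
  haveI : IsDomain (Ω ⊗[K] F) := isDomain_tensor K F Ω
  inferInstanceAs (Field (FractionRing (Ω ⊗[K] F)))

/-- The structure map `Ω ⊗[K] F → F_Ω`. -/
instance instAlgebraTensor : Algebra (Ω ⊗[K] F) (Model K F Ω) :=
  inferInstanceAs (Algebra (Ω ⊗[K] F) (FractionRing (Ω ⊗[K] F)))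

instance instIsFractionRing : IsFractionRing (Ω ⊗[K] F) (Model K F Ω) :=
  inferInstanceAs (IsFractionRing (Ω ⊗[K] F) (FractionRing (Ω ⊗[K] F)))

/-- The embedding `Ω → F_Ω`. -/
instance instAlgebraOmega : Algebra Ω (Model K F Ω) :=
  ((algebraMap (Ω ⊗[K] F) (Model K F Ω)).comp
    (Algebra.TensorProduct.includeLeftRingHom : Ω →+* Ω ⊗[K] F)).toAlgebra

/-- The embedding `F → F_Ω`. -/
instance instAlgebraF : Algebra F (Model K F Ω) :=
  ((algebraMap (Ω ⊗[K] F) (Model K F Ω)).comp
    (Algebra.TensorProduct.includeRight : F →ₐ[K] Ω ⊗[K] F).toRingHom).toAlgebra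

/-- The embedding `K → F_Ω`. -/
instance instAlgebraK : Algebra K (Model K F Ω) :=
  ((algebraMap (Ω ⊗[K] F) (Model K F Ω)).comp (algebraMap K (Ω ⊗[K] F))).toAlgebra

theorem algebraMap_omega_apply (ω : Ω) :
    algebraMap Ω (Model K F Ω) ω = algebraMap (Ω ⊗[K] F) (Model K F Ω) (ω ⊗ₜ[K] (1 : F)) := rfl

theorem algebraMap_F_apply (f : F) :
    algebraMap F (Model K F Ω) f = algebraMap (Ω ⊗[K] F) (Model K F Ω) ((1 : Ω) ⊗ₜ[K] f) := rfl

theorem algebraMap_K_apply (k : K) :
    algebraMap K (Model K F Ω) k =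
      algebraMap (Ω ⊗[K] F) (Model K F Ω) (algebraMap K (Ω ⊗[K] F) k) := rfl

instance instTowerKOmega : IsScalarTower K Ω (Model K F Ω) :=
  IsScalarTower.of_algebraMap_eq fun k => by
    rw [algebraMap_K_apply, algebraMap_omega_apply, Algebra.TensorProduct.algebraMap_apply]

omit [IsAlgClosed K] in
theorem algebraMap_tmul_one_eq (k : K) :
    (algebraMap K Ω k) ⊗ₜ[K] (1 : F) = (1 : Ω) ⊗ₜ[K] (algebraMap K F k) := by
  rw [Algebra.algebraMap_eq_smul_one, Algebra.algebraMap_eq_smul_one, TensorProduct.smul_tmul]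

instance instTowerKF : IsScalarTower K F (Model K F Ω) :=
  IsScalarTower.of_algebraMap_eq fun k => by
    rw [algebraMap_K_apply, algebraMap_F_apply, Algebra.TensorProduct.algebraMap_apply,
      algebraMap_tmul_one_eq]

instance instTowerOmegaTensor : IsScalarTower Ω (Ω ⊗[K] F) (Model K F Ω) :=
  IsScalarTower.of_algebraMap_eq fun ω => by
    rw [algebraMap_omega_apply, Algebra.TensorProduct.algebraMap_apply]
    rfl

theorem algebraMap_tensor_injective :
    Function.Injective (algebraMap (Ω ⊗[K] F) (Model K F Ω)) :=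
  IsFractionRing.injective _ _

/-- The image of a pure tensor. -/
theorem algebraMap_tmul (ω : Ω) (f : F) :
    algebraMap (Ω ⊗[K] F) (Model K F Ω) (ω ⊗ₜ[K] f) = ω • algebraMap F (Model K F Ω) f := by
  rw [Algebra.smul_def, algebraMap_omega_apply, algebraMap_F_apply, ← map_mul,
    Algebra.TensorProduct.tmul_mul_tmul, mul_one, one_mul]

/-! ### (i) linear disjointness -/

/-- **(i)** A `K`-linearly independent family of `F` is `Ω`-linearly independent in `F_Ω`. -/
theorem linearIndependent_algebraMap {ι : Type*} {b : ι → F} (hb : LinearIndependent K b) :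
    LinearIndependent Ω (fun i => algebraMap F (Model K F Ω) (b i)) := by
  have h1 : LinearIndependent Ω (fun i => (1 : Ω) ⊗ₜ[K] b i) :=
    TensorDomain.linearIndependent_one_tmul hb
  exact h1.map' (IsScalarTower.toAlgHom Ω (Ω ⊗[K] F) (Model K F Ω)).toLinearMap
    (LinearMap.ker_eq_bot.2 (algebraMap_tensor_injective K F Ω))

/-! ### (ii) every element is a quotient of `Ω`-combinations of elements of `F` -/

/-- The image of `Ω ⊗[K] F` lies in the `Ω`-span of `F`. -/
theorem algebraMap_tensor_mem_span (t : Ω ⊗[K] F) :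
    algebraMap (Ω ⊗[K] F) (Model K F Ω) t ∈
      Submodule.span Ω (Set.range (algebraMap F (Model K F Ω))) := by
  induction t using TensorProduct.induction_on with
  | zero => rw [map_zero]; exact Submodule.zero_mem _
  | tmul ω f =>
    rw [algebraMap_tmul]
    exact Submodule.smul_mem _ _ (Submodule.subset_span ⟨f, rfl⟩)
  | add x y hx hy => rw [map_add]; exact Submodule.add_mem _ hx hy

/-- The `Ω`-span of `F` in `F_Ω` is exactly the image of `Ω ⊗[K] F`. -/
theorem mem_span_iff (z : Model K F Ω) :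
    z ∈ Submodule.span Ω (Set.range (algebraMap F (Model K F Ω))) ↔
      ∃ t : Ω ⊗[K] F, algebraMap (Ω ⊗[K] F) (Model K F Ω) t = z := by
  constructor
  · intro hz
    induction hz using Submodule.span_induction with
    | mem x hx =>
      obtain ⟨f, rfl⟩ := hx
      exact ⟨(1 : Ω) ⊗ₜ[K] f, rfl⟩
    | zero => exact ⟨0, map_zero _⟩
    | add x y _ _ hx hy =>
      obtain ⟨s, rfl⟩ := hx
      obtain ⟨t, rfl⟩ := hy
      exact ⟨s + t, map_add _ _ _⟩
    | smul ω x _ hx =>
      obtain ⟨s, rfl⟩ := hx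
      refine ⟨ω • s, ?_⟩
      rw [Algebra.smul_def, map_mul, ← IsScalarTower.algebraMap_apply, ← Algebra.smul_def]
  · rintro ⟨t, rfl⟩
    exact algebraMap_tensor_mem_span K F Ω t

/-- **(ii)** Every element of `F_Ω` is a quotient of two `Ω`-linear combinations of elements
of `F`. -/
theorem exists_div_span (z : Model K F Ω) :
    ∃ a b : Model K F Ω,
      a ∈ Submodule.span Ω (Set.range (algebraMap F (Model K F Ω))) ∧
      b ∈ Submodule.span Ω (Set.range (algebraMap F (Model K F Ω))) ∧ b ≠ 0 ∧ z = a / b := by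
  obtain ⟨x, y, hy, rfl⟩ := IsFractionRing.div_surjective (A := Ω ⊗[K] F) z
  exact ⟨_, _, algebraMap_tensor_mem_span K F Ω x, algebraMap_tensor_mem_span K F Ω y,
    (map_ne_zero_iff _ (algebraMap_tensor_injective K F Ω)).2 (nonZeroDivisors.ne_zero hy), rfl⟩

/-! ### (iii) the semilinear action of `Aut(Ω/K)` -/

omit [IsAlgClosed K] in
/-- The automorphism of `Ω ⊗[K] F` induced by `σ ∈ Aut(Ω/K)`. -/
def tensorAut (σ : Ω ≃ₐ[K] Ω) : (Ω ⊗[K] F) ≃ₐ[K] (Ω ⊗[K] F) :=
  Algebra.TensorProduct.congr σ AlgEquiv.refl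

omit [IsAlgClosed K] in
@[simp] theorem tensorAut_tmul (σ : Ω ≃ₐ[K] Ω) (ω : Ω) (f : F) :
    tensorAut K F Ω σ (ω ⊗ₜ[K] f) = (σ ω) ⊗ₜ[K] f := by
  simp [tensorAut]

omit [IsAlgClosed K] in
theorem tensorAut_one (t : Ω ⊗[K] F) : tensorAut K F Ω 1 t = t := by
  induction t using TensorProduct.induction_on with
  | zero => rw [map_zero]
  | tmul ω f => rw [tensorAut_tmul]; rfl
  | add x y hx hy => rw [map_add, hx, hy]

omit [IsAlgClosed K] in
theorem tensorAut_mul (σ τ : Ω ≃ₐ[K] Ω) (t : Ω ⊗[K] F) :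
    tensorAut K F Ω (σ * τ) t = tensorAut K F Ω σ (tensorAut K F Ω τ t) := by
  induction t using TensorProduct.induction_on with
  | zero => simp only [map_zero]
  | tmul ω f => rw [tensorAut_tmul, tensorAut_tmul, tensorAut_tmul]; rfl
  | add x y hx hy => simp only [map_add, hx, hy]

/-- The ring automorphism of `F_Ω` induced by `σ ∈ Aut(Ω/K)`. -/
def autRing (σ : Ω ≃ₐ[K] Ω) : Model K F Ω ≃+* Model K F Ω :=
  IsFractionRing.ringEquivOfRingEquiv (A := Ω ⊗[K] F) (B := Ω ⊗[K] F)
    (tensorAut K F Ω σ).toRingEquiv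

theorem autRing_algebraMap_tensor (σ : Ω ≃ₐ[K] Ω) (t : Ω ⊗[K] F) :
    autRing K F Ω σ (algebraMap (Ω ⊗[K] F) (Model K F Ω) t) =
      algebraMap (Ω ⊗[K] F) (Model K F Ω) (tensorAut K F Ω σ t) :=
  IsFractionRing.ringEquivOfRingEquiv_algebraMap _ _

/-- **(iii)** The action of `Aut(Ω/K)` on `F_Ω` by `F`-algebra automorphisms. -/
def autAct : (Ω ≃ₐ[K] Ω) →* (Model K F Ω ≃ₐ[F] Model K F Ω) where
  toFun σ := AlgEquiv.ofRingEquiv (f := autRing K F Ω σ) (fun f => by
    rw [algebraMap_F_apply, autRing_algebraMap_tensor, tensorAut_tmul, map_one])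
  map_one' := by
    ext z
    obtain ⟨x, y, hy, rfl⟩ := IsFractionRing.div_surjective (A := Ω ⊗[K] F) z
    show autRing K F Ω 1 _ = _
    rw [map_div₀, autRing_algebraMap_tensor, autRing_algebraMap_tensor, tensorAut_one,
      tensorAut_one]
    rfl
  map_mul' σ τ := by
    ext z
    obtain ⟨x, y, hy, rfl⟩ := IsFractionRing.div_surjective (A := Ω ⊗[K] F) z
    show autRing K F Ω (σ * τ) _ = autRing K F Ω σ (autRing K F Ω τ _)
    rw [map_div₀, map_div₀, map_div₀, autRing_algebraMap_tensor, autRing_algebraMap_tensor,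
      autRing_algebraMap_tensor, autRing_algebraMap_tensor, autRing_algebraMap_tensor,
      autRing_algebraMap_tensor, tensorAut_mul, tensorAut_mul]

theorem autAct_algebraMap_tensor (σ : Ω ≃ₐ[K] Ω) (t : Ω ⊗[K] F) :
    autAct K F Ω σ (algebraMap (Ω ⊗[K] F) (Model K F Ω) t) =
      algebraMap (Ω ⊗[K] F) (Model K F Ω) (tensorAut K F Ω σ t) :=
  autRing_algebraMap_tensor K F Ω σ t

/-- The action is `σ`-semilinear on the constants `Ω`. -/
theorem autAct_algebraMap (σ : Ω ≃ₐ[K] Ω) (ω : Ω) :
    autAct K F Ω σ (algebraMap Ω (Model K F Ω) ω) = algebraMap Ω (Model K F Ω) (σ ω) := by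
  rw [algebraMap_omega_apply, autAct_algebraMap_tensor, tensorAut_tmul, algebraMap_omega_apply]

theorem autAct_smul (σ : Ω ≃ₐ[K] Ω) (ω : Ω) (z : Model K F Ω) :
    autAct K F Ω σ (ω • z) = σ ω • autAct K F Ω σ z := by
  rw [Algebra.smul_def, map_mul, autAct_algebraMap, ← Algebra.smul_def]

/-- The action fixes `F` pointwise. -/
theorem autAct_algebraMap_F (σ : Ω ≃ₐ[K] Ω) (f : F) :
    autAct K F Ω σ (algebraMap F (Model K F Ω) f) = algebraMap F (Model K F Ω) f :=
  (autAct K F Ω σ).commutes f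

/-- `Aut(Ω/K)` acts on `F_Ω` by ring automorphisms (`σ • z = autAct K F Ω σ z`). -/
instance instMulSemiringAction : MulSemiringAction (Ω ≃ₐ[K] Ω) (Model K F Ω) where
  smul σ z := autAct K F Ω σ z
  one_smul z := by
    show autAct K F Ω 1 z = z
    rw [map_one]
    rfl
  mul_smul σ τ z := by
    show autAct K F Ω (σ * τ) z = autAct K F Ω σ (autAct K F Ω τ z)
    rw [map_mul]
    rfl
  smul_zero σ := map_zero (autAct K F Ω σ)
  smul_add σ := map_add (autAct K F Ω σ)
  smul_one σ := map_one (autAct K F Ω σ)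
  smul_mul σ := map_mul (autAct K F Ω σ)

theorem smul_def (σ : Ω ≃ₐ[K] Ω) (z : Model K F Ω) : σ • z = autAct K F Ω σ z := rfl

/-! ### Variants in the shapes the consumers quote -/

/-- The two embeddings of `K` agree. -/
theorem algebraMap_comm (c : K) :
    algebraMap Ω (Model K F Ω) (algebraMap K Ω c) =
      algebraMap F (Model K F Ω) (algebraMap K F c) := by
  rw [← IsScalarTower.algebraMap_apply, ← IsScalarTower.algebraMap_apply]

/-- **(ii)**, product form: `z * b = a` with `a`, `b ≠ 0` in the `Ω`-span of `F`. -/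
theorem exists_mul_span (z : Model K F Ω) :
    ∃ a b : Model K F Ω,
      a ∈ Submodule.span Ω (Set.range (algebraMap F (Model K F Ω))) ∧
      b ∈ Submodule.span Ω (Set.range (algebraMap F (Model K F Ω))) ∧ b ≠ 0 ∧ z * b = a := by
  obtain ⟨a, b, ha, hb, hb0, rfl⟩ := exists_div_span K F Ω z
  exact ⟨a, b, ha, hb, hb0, div_mul_cancel₀ a hb0⟩

/-- The `Ω`-span of `F` is closed under multiplication (it is the image of `Ω ⊗[K] F`). -/
theorem mul_mem_span {a b : Model K F Ω}
    (ha : a ∈ Submodule.span Ω (Set.range (algebraMap F (Model K F Ω))))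
    (hb : b ∈ Submodule.span Ω (Set.range (algebraMap F (Model K F Ω)))) :
    a * b ∈ Submodule.span Ω (Set.range (algebraMap F (Model K F Ω))) := by
  obtain ⟨s, rfl⟩ := (mem_span_iff K F Ω a).1 ha
  obtain ⟨t, rfl⟩ := (mem_span_iff K F Ω b).1 hb
  rw [← map_mul]
  exact algebraMap_tensor_mem_span K F Ω _

/-- The action preserves the `Ω`-span of `F`. -/
theorem autAct_mem_span (σ : Ω ≃ₐ[K] Ω) {a : Model K F Ω}
    (ha : a ∈ Submodule.span Ω (Set.range (algebraMap F (Model K F Ω)))) :
    autAct K F Ω σ a ∈ Submodule.span Ω (Set.range (algebraMap F (Model K F Ω))) := by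
  obtain ⟨s, rfl⟩ := (mem_span_iff K F Ω a).1 ha
  rw [autAct_algebraMap_tensor]
  exact algebraMap_tensor_mem_span K F Ω _

/-- A `K`-basis of `F` is an `Ω`-basis of the `Ω`-span of `F` : spanning half. -/
theorem span_basis_eq {ι : Type*} (b : Module.Basis ι K F) :
    Submodule.span Ω (Set.range fun i => algebraMap F (Model K F Ω) (b i)) =
      Submodule.span Ω (Set.range (algebraMap F (Model K F Ω))) := by
  apply le_antisymm
  · apply Submodule.span_mono
    rintro _ ⟨i, rfl⟩
    exact ⟨b i, rfl⟩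
  · rw [Submodule.span_le]
    rintro _ ⟨f, rfl⟩
    have hf : f ∈ Submodule.span K (Set.range b) := by rw [b.span_eq]; trivial
    induction hf using Submodule.span_induction with
    | mem x hx =>
      obtain ⟨i, rfl⟩ := hx
      exact Submodule.subset_span ⟨i, rfl⟩
    | zero => rw [map_zero]; exact Submodule.zero_mem _
    | add x y _ _ hx hy => rw [map_add]; exact Submodule.add_mem _ hx hy
    | smul c x _ hx =>
      rw [Algebra.smul_def, map_mul, ← algebraMap_comm, ← Algebra.smul_def]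
      exact Submodule.smul_mem _ _ hx

/-- A `K`-linearly independent family of `Ω` is `F`-linearly independent in `F_Ω`. -/
theorem linearIndependent_algebraMap_right {ι : Type*} {c : ι → Ω}
    (hc : LinearIndependent K c) :
    LinearIndependent F (fun i => algebraMap Ω (Model K F Ω) (c i)) := by
  have h1 : LinearIndependent F (fun i => (1 : F) ⊗ₜ[K] c i) :=
    TensorDomain.linearIndependent_one_tmul hc
  -- the `F`-linear injection `F ⊗[K] Ω → F_Ω`
  let g : F ⊗[K] Ω →+* Model K F Ω :=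
    (algebraMap (Ω ⊗[K] F) (Model K F Ω)).comp
      (Algebra.TensorProduct.comm K F Ω).toAlgHom.toRingHom
  have hg : ∀ (f : F) (ω : Ω), g (f ⊗ₜ[K] ω) =
      algebraMap (Ω ⊗[K] F) (Model K F Ω) (ω ⊗ₜ[K] f) := fun f ω => rfl
  have hginj : Function.Injective g :=
    (algebraMap_tensor_injective K F Ω).comp (Algebra.TensorProduct.comm K F Ω).injective
  let gl : F ⊗[K] Ω →ₗ[F] Model K F Ω :=
    { toFun := g
      map_add' := map_add g
      map_smul' := fun f t => by
        show g (f • t) = f • g t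
        rw [Algebra.smul_def, Algebra.smul_def, map_mul, Algebra.TensorProduct.algebraMap_apply,
          Algebra.algebraMap_self_apply, hg, algebraMap_F_apply] }
  have h2 := h1.map' gl (LinearMap.ker_eq_bot.2 hginj)
  have h3 : (gl ∘ fun i => (1 : F) ⊗ₜ[K] c i) =
      fun i => algebraMap Ω (Model K F Ω) (c i) := by
    funext i
    show g ((1 : F) ⊗ₜ[K] c i) = _
    rw [hg, algebraMap_omega_apply]
  rw [← h3]
  exact h2

/-! ### The predicate `IsConstExt` (helper88's interface) holds for the model -/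

omit [IsAlgClosed K] in
/-- Every tensor is a finite sum of pure tensors, `Fin n`-indexed. -/
theorem exists_fin_sum (t : Ω ⊗[K] F) :
    ∃ (n : ℕ) (f : Fin n → F) (c : Fin n → Ω), t = ∑ i, c i ⊗ₜ[K] f i := by
  induction t using TensorProduct.induction_on with
  | zero => exact ⟨0, Fin.elim0, Fin.elim0, by simp⟩
  | tmul ω f => exact ⟨1, fun _ => f, fun _ => ω, by simp⟩
  | add x y hx hy =>
    obtain ⟨n₁, f₁, c₁, rfl⟩ := hx
    obtain ⟨n₂, f₂, c₂, rfl⟩ := hy
    refine ⟨n₁ + n₂, Fin.append f₁ f₂, Fin.append c₁ c₂, ?_⟩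
    rw [Fin.sum_univ_add]
    simp only [Fin.append_left, Fin.append_right]

omit [IsAlgClosed K] in
/-- Two tensors are sums of pure tensors over a common family of elements of `F`. -/
theorem exists_fin_sum_pair (s t : Ω ⊗[K] F) :
    ∃ (n : ℕ) (f : Fin n → F) (c d : Fin n → Ω),
      s = ∑ i, c i ⊗ₜ[K] f i ∧ t = ∑ i, d i ⊗ₜ[K] f i := by
  obtain ⟨n₁, f₁, c₁, rfl⟩ := exists_fin_sum K F Ω s
  obtain ⟨n₂, f₂, c₂, rfl⟩ := exists_fin_sum K F Ω t
  refine ⟨n₁ + n₂, Fin.append f₁ f₂, Fin.append c₁ (fun _ => 0), Fin.append (fun _ => 0) c₂,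
    ?_, ?_⟩
  · rw [Fin.sum_univ_add]
    simp only [Fin.append_left, Fin.append_right, zero_tmul, Finset.sum_const_zero, add_zero]
  · rw [Fin.sum_univ_add]
    simp only [Fin.append_left, Fin.append_right, zero_tmul, Finset.sum_const_zero, zero_add]

/-- The image of a `Fin n`-sum of pure tensors. -/
theorem algebraMap_fin_sum {n : ℕ} (f : Fin n → F) (c : Fin n → Ω) :
    algebraMap (Ω ⊗[K] F) (Model K F Ω) (∑ i, c i ⊗ₜ[K] f i) =
      ∑ i, c i • algebraMap F (Model K F Ω) (f i) := by
  rw [map_sum]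
  exact Finset.sum_congr rfl fun i _ => algebraMap_tmul K F Ω (c i) (f i)

/-- **(ii)**, literal `IsConstExt.frac` form. -/
theorem exists_sum_quot (z : Model K F Ω) :
    ∃ (n : ℕ) (f : Fin n → F) (c d : Fin n → Ω),
      (∑ i, d i • algebraMap F (Model K F Ω) (f i)) ≠ 0 ∧
        z * (∑ i, d i • algebraMap F (Model K F Ω) (f i)) =
          ∑ i, c i • algebraMap F (Model K F Ω) (f i) := by
  obtain ⟨x, y, hy, rfl⟩ := IsFractionRing.div_surjective (A := Ω ⊗[K] F) z
  obtain ⟨n, f, c, d, rfl, rfl⟩ := exists_fin_sum_pair K F Ω x y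
  have hy0 : algebraMap (Ω ⊗[K] F) (Model K F Ω) (∑ i, d i ⊗ₜ[K] f i) ≠ 0 :=
    (map_ne_zero_iff _ (algebraMap_tensor_injective K F Ω)).2 (nonZeroDivisors.ne_zero hy)
  refine ⟨n, f, c, d, ?_, ?_⟩
  · rw [← algebraMap_fin_sum]
    exact hy0
  · rw [← algebraMap_fin_sum, ← algebraMap_fin_sum]
    exact div_mul_cancel₀ _ hy0

/-- **The constant field extension exists**: `Model K F Ω` satisfies `IsConstExt`. -/
theorem isConstExt : IsConstExt K F Ω (Model K F Ω) where
  comm a := (algebraMap_comm K F Ω a).symm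
  indep _ _ hb := linearIndependent_algebraMap K F Ω hb
  frac := exists_sum_quot K F Ω

/-- Existence, unbundled: some field `FΩ ⊇ F, Ω` (compatible over `K`) is a constant field
extension, and `Aut(Ω/K)` acts on it semilinearly, fixing `F`. -/
theorem exists_isConstExt :
    ∃ (FΩ : Type (max w v)) (_ : Field FΩ) (_ : Algebra F FΩ) (_ : Algebra Ω FΩ)
      (ρ : (Ω ≃ₐ[K] Ω) →* (FΩ ≃+* FΩ)),
      IsConstExt K F Ω FΩ ∧
      (∀ σ c, ρ σ (algebraMap Ω FΩ c) = algebraMap Ω FΩ (σ c)) ∧
      (∀ σ f, ρ σ (algebraMap F FΩ f) = algebraMap F FΩ f) :=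
  ⟨Model K F Ω, inferInstance, inferInstance, inferInstance,
    { toFun := fun σ => (autAct K F Ω σ).toRingEquiv
      map_one' := by rw [map_one]; rfl
      map_mul' := fun σ τ => by rw [map_mul]; rfl },
    isConstExt K F Ω, fun σ c => autAct_algebraMap K F Ω σ c,
    fun σ f => autAct_algebraMap_F K F Ω σ f⟩

end Fermat.Agent.S27P.BC.ConstExt
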