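import Mathlib
import Fermat.Agent.S27P.BC.Defs
import Fermat.Agent.S27P.BC.Basic
import Fermat.Agent.S27P.BC.Field
import Fermat.Agent.S27P.BC.FixedField
import Fermat.Agent.S27P.BC.Descent
import Fermat.Agent.S27P.BC.Restrict
import Fermat.Agent.S27P.BC.RRSpaceCore
import Fermat.Agent.S27P.BC.BcDiv
import Fermat.Agent.S27P.Gen.Defs
import Fermat.Agent.Lib.FF.RRFF1
import Fermat.Agent.Lib.FF.BasePoint

/-!
# (BC) → (GEN) seam: a constant field extension is a `Gen.Frame`

For `h : IsConstExt K F Ω FΩ` (`Ω` algebraically closed, any characteristic), `F/K` a function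
field of one variable with coordinate `x`, the extension `FΩ/Ω` with the action
`h.semilinearAut : (Ω ≃ₐ[K] Ω) →* SemilinearAut Ω FΩ` is a frame of the generic-tuple argument.

* `fixedSubfield h M` : the subfield of `FΩ` fixed by `Γ_M = M.fixingSubgroup`;
* `span_isRat` : for an algebraically closed intermediate field `M`, the Riemann–Roch space of a
  `Γ_M`-fixed divisor is spanned by its `M`-rational functions (Galois descent at the quadruple
  `(M, fixedSubfield h M, Ω, FΩ)`; no tower of constant field extensions is needed);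
* `frame_of_isConstExt` : the frame, given ONE unramified extension of ONE place;
* `frame_of_isBcPlace` : the same from a base-change map of places.
-/

set_option autoImplicit false

noncomputable section

namespace Fermat.Agent.S27P.BC.FrameOf

open AlgebraicCurve Fermat.Agent.S27P.BC Fermat.Agent.S27P

universe u v w x

variable {K : Type u} {F : Type v} {Ω : Type w} {FΩ : Type x} [Field K] [Field F]
  [Field Ω] [Field FΩ] [Algebra K F] [Algebra K Ω] [Algebra F FΩ] [Algebra Ω FΩ]

/-- The subfield of `FΩ` fixed by the automorphisms of `Ω` over the intermediate field `M`. -/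
def fixedSubfield (h : IsConstExt K F Ω FΩ) (M : IntermediateField K Ω) : Subfield FΩ where
  carrier := {f | ∀ σ ∈ M.fixingSubgroup, h.semilinearAut σ • f = f}
  mul_mem' := fun ha hb σ hσ => by rw [smul_mul', ha σ hσ, hb σ hσ]
  one_mem' := fun σ _ => smul_one _
  add_mem' := fun ha hb σ hσ => by rw [smul_add, ha σ hσ, hb σ hσ]
  zero_mem' := fun σ _ => smul_zero _
  neg_mem' := fun ha σ hσ => by rw [smul_neg, ha σ hσ]
  inv_mem' := fun a ha σ hσ => by rw [smul_inv'', ha σ hσ]

theorem mem_fixedSubfield (h : IsConstExt K F Ω FΩ) (M : IntermediateField K Ω) (f : FΩ) :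
    f ∈ fixedSubfield h M ↔ ∀ σ ∈ M.fixingSubgroup, h.semilinearAut σ • f = f := Iff.rfl

theorem algebraMap_mem_fixedSubfield (h : IsConstExt K F Ω FΩ) (M : IntermediateField K Ω)
    (f : F) : algebraMap F FΩ f ∈ fixedSubfield h M :=
  fun σ _ => h.semilinearAut_smul_algebraMap σ f

theorem algebraMap_base_mem_fixedSubfield (h : IsConstExt K F Ω FΩ) (M : IntermediateField K Ω)
    (c : M) : algebraMap Ω FΩ (c : Ω) ∈ fixedSubfield h M := by
  intro σ hσ
  rw [h.semilinearAut_smul_algebraMap_base]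
  congr 1
  exact (IntermediateField.mem_fixingSubgroup_iff M σ).1 hσ c c.2

/-- The structure map `M → fixedSubfield h M`. -/
def baseHom (h : IsConstExt K F Ω FΩ) (M : IntermediateField K Ω) :
    ↥M →+* ↥(fixedSubfield h M) :=
  ((algebraMap Ω FΩ).comp (algebraMap ↥M Ω)).codRestrict (fixedSubfield h M)
    (fun c => algebraMap_base_mem_fixedSubfield h M c)

/-- **Rational spanning.**  For an algebraically closed intermediate field `M`, the
Riemann–Roch space of a `Γ_M`-fixed divisor is spanned by its `M`-rational functions. -/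
theorem span_isRat [IsAlgClosed Ω] (h : IsConstExt K F Ω FΩ) (M : IntermediateField K Ω)
    [IsAlgClosed M] (D : Divisor Ω FΩ) [Module.Finite Ω (riemannRochSpace D)]
    (hD : ∀ σ ∈ M.fixingSubgroup, h.semilinearAut σ • D = D) :
    riemannRochSpace D ≤
      Submodule.span Ω {f | f ∈ riemannRochSpace D ∧ Gen.IsRat h.semilinearAut M f} := by
  let _ : Algebra ↥M ↥(fixedSubfield h M) := (baseHom h M).toAlgebra
  let _ : MulSemiringAction ↥M.fixingSubgroup Ω :=
    MulSemiringAction.compHom Ω M.fixingSubgroup.subtype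
  let _ : MulSemiringAction ↥M.fixingSubgroup FΩ :=
    MulSemiringAction.compHom FΩ (h.semilinearAut.comp M.fixingSubgroup.subtype)
  have hcomm : ∀ c : ↥M, algebraMap Ω FΩ (algebraMap ↥M Ω c) =
      algebraMap ↥(fixedSubfield h M) FΩ (algebraMap ↥M ↥(fixedSubfield h M) c) := fun c => rfl
  have hfix : ∀ a : Ω, (∀ σ : ↥M.fixingSubgroup, σ • a = a) → a ∈ (algebraMap ↥M Ω).range := by
    intro a ha
    have haM : a ∈ M := FixedField.mem_of_fixed_fixing M (fun σ hσ => ha ⟨σ, hσ⟩)
    exact ⟨⟨a, haM⟩, rfl⟩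
  have hΩ : ∀ (σ : ↥M.fixingSubgroup) (c : Ω),
      σ • algebraMap Ω FΩ c = algebraMap Ω FΩ (σ • c) :=
    fun σ c => h.semilinearAut_smul_algebraMap_base σ.1 c
  have hF' : ∀ (σ : ↥M.fixingSubgroup) (f : ↥(fixedSubfield h M)),
      σ • algebraMap ↥(fixedSubfield h M) FΩ f = algebraMap ↥(fixedSubfield h M) FΩ f :=
    fun σ f => f.2 σ.1 σ.2
  have hfrac : ∀ z : FΩ, ∃ a b : FΩ, a ∈ Descent.spanF ↥(fixedSubfield h M) Ω FΩ ∧
      b ∈ Descent.spanF ↥(fixedSubfield h M) Ω FΩ ∧ b ≠ 0 ∧ z * b = a := by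
    have hle : IsConstExt.span K F Ω FΩ ≤ Descent.spanF ↥(fixedSubfield h M) Ω FΩ := by
      apply Submodule.span_mono
      rintro _ ⟨f, rfl⟩
      exact ⟨⟨algebraMap F FΩ f, algebraMap_mem_fixedSubfield h M f⟩, rfl⟩
    intro z
    obtain ⟨a, ha, b, hb, hb0, hab⟩ := h.exists_div z
    exact ⟨a, b, hle ha, hle hb, hb0, hab⟩
  have hW : ∀ (σ : ↥M.fixingSubgroup), ∀ w ∈ riemannRochSpace D, σ • w ∈ riemannRochSpace D :=
    fun σ w hw => RRSpaceCore.smul_mem_riemannRochSpace_of_fixed _ (hD σ.1 σ.2) hw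
  have key := Descent.eq_span_inter_of_stable_of_finite hcomm hfix hΩ hF' hfrac
    (riemannRochSpace D) hW
  intro f hf
  refine Submodule.span_mono ?_ (key.le hf)
  rintro _ ⟨hzW, ⟨f, rfl⟩⟩
  exact ⟨hzW, f.2⟩

/-- **The constant field extension is a frame** (given one unramified extension of one place;
`frame_of_isBcPlace` discharges it from a base-change map of places). -/
theorem frame_of_isConstExt [IsAlgClosed Ω] (h : IsConstExt K F Ω FΩ) {x : F}
    (hF : Lib.FF.IsFF1 K F x) (htr : Algebra.trdeg K Ω < Cardinal.aleph0)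
    (hext : ∃ (v : Place K F) (w : Place Ω FΩ), ∀ f : F, w.ord (algebraMap F FΩ f) = v.ord f) :
    Gen.Frame (K := K) (algebraMap F FΩ x) h.semilinearAut where
  ff := Field.isFF1_map h hF
  smul_algebraMap := fun σ c => h.semilinearAut_smul_algebraMap_base σ c
  smul_x := fun σ => h.semilinearAut_smul_algebraMap σ x
  span_isRat := fun M _ D hD => by
    have := (Field.isFF1_map h hF).finite_L D
    exact span_isRat h M D hD
  exists_fixed_place := by
    obtain ⟨v, w, hw⟩ := hext
    refine ⟨w, fun σ => ?_⟩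
    refine Restrict.eq_of_restrict h v (hF.resK v) hw 1 Nat.one_pos (fun g => ?_)
    have h1 := SemilinearAut.ord_smul (h.semilinearAut σ) w (algebraMap F FΩ g)
    rw [h.semilinearAut_smul_algebraMap] at h1
    rw [h1, hw, Nat.cast_one, one_mul]
  trdeg_lt := htr

/-- The frame from a base-change map of places. -/
theorem frame_of_isBcPlace [IsAlgClosed Ω] (h : IsConstExt K F Ω FΩ) {x : F}
    (hF : Lib.FF.IsFF1 K F x) (htr : Algebra.trdeg K Ω < Cardinal.aleph0)
    {bc : Place K F → Place Ω FΩ} (hb : BcDiv.IsBcPlace bc) :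
    Gen.Frame (K := K) (algebraMap F FΩ x) h.semilinearAut := by
  obtain ⟨v⟩ := hF.exists_place
  exact frame_of_isConstExt h hF htr ⟨v, bc v, hb.ord v⟩

end Fermat.Agent.S27P.BC.FrameOf
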