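/-
S27 / (BC)→(GR) seam (helper46): a realisation of a model base-changes along a constant field
extension.

For `h : IsConstExt K F Ω FΩ` and a realisation `Real M K F φ ψ` of a two-chart model, the pair
`((algebraMap K Ω).comp φ, (algebraMap F FΩ).comp ψ)` is a realisation in `FΩ/Ω`:

* the image of `x` stays transcendental over `Ω`;
* the images of the `b i` stay linearly independent over `Ω[x]`;
* every element of `FΩ` is a quotient of an `Ω[x]`-combination of the `b i` by a non-zero
  polynomial in `x`.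

Characteristic-free; no algebraic closedness; universe-polymorphic.  The abstract core
(`indep_map`, `transcendental_map`, `span_map`) does not mention models.
-/
import Mathlib
import Fermat.Agent.S27P.BC.Defs
import Fermat.Agent.S27P.GR.Defs

set_option autoImplicit false

noncomputable section

namespace Fermat.Agent.S27P.BC.RealBC

open Polynomial

variable {K : Type*} {F : Type*} {Ω : Type*} {FΩ : Type*} [Field K] [Field F] [Field Ω]
  [Field FΩ] [Algebra K F] [Algebra K Ω] [Algebra F FΩ] [Algebra Ω FΩ]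

/-! ### Polynomials under the two structure maps -/

/-- `ι (q(x)) = (q^κ)(ι x)`: evaluation commutes with the embedding `F → FΩ`. -/
theorem algebraMap_aeval (h : IsConstExt K F Ω FΩ) (x : F) (q : K[X]) :
    algebraMap F FΩ (aeval x q) = aeval (algebraMap F FΩ x) (q.map (algebraMap K Ω)) := by
  rw [aeval_def, aeval_def, hom_eval₂, eval₂_map]
  congr 1
  ext a
  exact h.comm a

/-! ### Transfer of injectivity along bases -/

/-- If a `K`-linear injection `T : V → F` and an `Ω`-linear map `TΩ : VΩ → FΩ` correspond on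
bases (`TΩ (bΩ j) = ι (T (bK j))`), then `TΩ` is injective. -/
theorem injective_of_basis (h : IsConstExt K F Ω FΩ) {J : Type*} {V : Type*} {VΩ : Type*}
    [AddCommGroup V] [Module K V] [AddCommGroup VΩ] [Module Ω VΩ] (bK : Module.Basis J K V)
    (bΩ : Module.Basis J Ω VΩ) (T : V →ₗ[K] F) (hT : Function.Injective T) (TΩ : VΩ →ₗ[Ω] FΩ)
    (hb : ∀ j, TΩ (bΩ j) = algebraMap F FΩ (T (bK j))) : Function.Injective TΩ := by
  have h1 : LinearIndependent K (fun j => T (bK j)) :=
    bK.linearIndependent.map' T (LinearMap.ker_eq_bot.2 hT)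
  have h2 : LinearIndependent Ω (fun j => algebraMap F FΩ (T (bK j))) := h.linearIndependent h1
  have h3 : (TΩ ∘ bΩ) = fun j => algebraMap F FΩ (T (bK j)) := funext hb
  rw [← h3] at h2
  rw [← LinearMap.ker_eq_bot, LinearMap.ker_eq_bot']
  intro v hv
  have h4 : Finsupp.linearCombination Ω (TΩ ∘ bΩ) (bΩ.repr v) = 0 := by
    rw [← Finsupp.apply_linearCombination, bΩ.linearCombination_repr, hv]
  have h5 := (linearIndependent_iff.1 h2) _ h4
  exact (LinearEquiv.map_eq_zero_iff _).1 h5

/-! ### Transcendence -/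

/-- A transcendental element of `F/K` stays transcendental over `Ω`. -/
theorem transcendental_map (h : IsConstExt K F Ω FΩ) {x : F} (hx : Transcendental K x) :
    Transcendental Ω (algebraMap F FΩ x) := by
  rw [transcendental_iff_injective] at hx ⊢
  refine injective_of_basis h (Polynomial.basisMonomials K) (Polynomial.basisMonomials Ω)
    (aeval x).toLinearMap hx (aeval (algebraMap F FΩ x)).toLinearMap ?_
  intro m
  simp only [Polynomial.coe_basisMonomials, AlgHom.toLinearMap_apply, aeval_monomial, map_one,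
    one_mul, map_pow]

/-! ### Independence over the polynomial ring -/

section Indep

variable {R : Type*} {E : Type*} [Field R] [Field E] [Algebra R E] {n : ℕ}

/-- The linear map `p ↦ ∑ i, p i (x) * b i`. -/
def comb (x : E) (b : Fin n → E) : (Fin n → R[X]) →ₗ[R] E where
  toFun p := ∑ i, aeval x (p i) * b i
  map_add' p q := by
    simp only [Pi.add_apply, map_add, add_mul, Finset.sum_add_distrib]
  map_smul' c p := by
    simp only [Pi.smul_apply, map_smul, smul_mul_assoc, Finset.smul_sum, RingHom.id_apply]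

theorem comb_apply (x : E) (b : Fin n → E) (p : Fin n → R[X]) :
    comb x b p = ∑ i, aeval x (p i) * b i := rfl

theorem comb_single (x : E) (b : Fin n → E) (i : Fin n) (q : R[X]) :
    comb x b (Pi.single i q) = aeval x q * b i := by
  rw [comb_apply, Finset.sum_eq_single i]
  · rw [Pi.single_eq_same]
  · intro j _ hj
    rw [Pi.single_eq_of_ne hj, map_zero, zero_mul]
  · intro hi
    exact absurd (Finset.mem_univ i) hi

variable (R) in
/-- The monomial basis of `Fin n → R[X]`. -/
def monoBasis (n : ℕ) : Module.Basis (Σ _ : Fin n, ℕ) R (Fin n → R[X]) :=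
  Pi.basis fun _ : Fin n => Polynomial.basisMonomials R

theorem comb_monoBasis (x : E) (b : Fin n → E) (j : Σ _ : Fin n, ℕ) :
    comb x b (monoBasis R n j) = x ^ j.2 * b j.1 := by
  obtain ⟨i, m⟩ := j
  have : monoBasis R n ⟨i, m⟩ = Pi.single i (monomial m (1 : R)) := by
    unfold monoBasis
    rw [Pi.basis_apply]
    simp only [Polynomial.coe_basisMonomials]
  rw [this, comb_single, aeval_monomial, map_one, one_mul]

end Indep

/-- **Independence base-changes**: if the `b i` are independent over `K[x]` in `F`, their images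
are independent over `Ω[x]` in `FΩ`. -/
theorem indep_map (h : IsConstExt K F Ω FΩ) {n : ℕ} (x : F) (b : Fin n → F)
    (hb : ∀ p : Fin n → K[X], ∑ i, aeval x (p i) * b i = 0 → p = 0)
    (p : Fin n → (Polynomial Ω))
    (hp : ∑ i, aeval (algebraMap F FΩ x) (p i) * algebraMap F FΩ (b i) = 0) : p = 0 := by
  have hT : Function.Injective (comb (R := K) x b) := by
    rw [← LinearMap.ker_eq_bot, LinearMap.ker_eq_bot']
    exact hb
  have hinj := injective_of_basis h (monoBasis K n) (monoBasis Ω n) (comb x b) hT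
    (comb (algebraMap F FΩ x) (fun i => algebraMap F FΩ (b i))) (by
      intro j
      rw [comb_monoBasis, comb_monoBasis, map_mul, map_pow])
  exact hinj (by rw [map_zero]; exact hp)

/-! ### Spanning -/

section Rep

variable {n : ℕ}

/-- `y` has a representation `s(X) * y = ∑ i, p i (X) * B i` with `s ≠ 0`. -/
def Rep (X : FΩ) (B : Fin n → FΩ) (y : FΩ) : Prop :=
  ∃ (p : Fin n → Polynomial Ω) (s : Polynomial Ω), s ≠ 0 ∧
    aeval X s * y = ∑ i, aeval X (p i) * B i

theorem rep_zero (X : FΩ) (B : Fin n → FΩ) : Rep (Ω := Ω) X B 0 :=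
  ⟨0, 1, one_ne_zero, by simp⟩

theorem rep_basis (X : FΩ) (B : Fin n → FΩ) (i : Fin n) : Rep (Ω := Ω) X B (B i) :=
  ⟨Pi.single i 1, 1, one_ne_zero, (comb_single (R := Ω) X B i 1).symm⟩

theorem rep_add {X : FΩ} {B : Fin n → FΩ} {y z : FΩ} (hy : Rep (Ω := Ω) X B y)
    (hz : Rep (Ω := Ω) X B z) : Rep (Ω := Ω) X B (y + z) := by
  obtain ⟨p, s, hs, e⟩ := hy
  obtain ⟨q, t, ht, e'⟩ := hz
  refine ⟨fun i => t * p i + s * q i, s * t, mul_ne_zero hs ht, ?_⟩
  have h1 : aeval X (s * t) * (y + z) =
      aeval X t * (aeval X s * y) + aeval X s * (aeval X t * z) := by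
    rw [map_mul]; ring
  rw [h1, e, e', Finset.mul_sum, Finset.mul_sum, ← Finset.sum_add_distrib]
  refine Finset.sum_congr rfl fun i _ => ?_
  rw [map_add, map_mul, map_mul]; ring

theorem rep_quot_mul {X : FΩ} {B : Fin n → FΩ} {y : FΩ} (P S : Polynomial Ω)
    (hS : aeval X S ≠ 0) (hy : Rep (Ω := Ω) X B y) :
    Rep (Ω := Ω) X B (aeval X P / aeval X S * y) := by
  obtain ⟨p, s, hs, e⟩ := hy
  have hS0 : S ≠ 0 := by
    rintro rfl
    exact hS (map_zero _)
  refine ⟨fun i => P * p i, s * S, mul_ne_zero hs hS0, ?_⟩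
  have h1 : aeval X (s * S) * (aeval X P / aeval X S * y) = aeval X P * (aeval X s * y) := by
    rw [map_mul]; field_simp
  rw [h1, e, Finset.mul_sum]
  refine Finset.sum_congr rfl fun i _ => ?_
  rw [map_mul]; ring

end Rep

/-- **Spanning base-changes**, `Rep` form. -/
theorem span_map_rep (h : IsConstExt K F Ω FΩ) {n : ℕ} (x : F) (b : Fin n → F)
    (hx : Transcendental K x)
    (hs : ∀ y : F, ∃ (p : Fin n → K[X]) (s : K[X]), s ≠ 0 ∧
      aeval x s * y = ∑ i, aeval x (p i) * b i)
    (y : FΩ) : Rep (Ω := Ω) (algebraMap F FΩ x) (fun i => algebraMap F FΩ (b i)) y := by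
  generalize hX : algebraMap F FΩ x = X
  generalize hB : (fun i => algebraMap F FΩ (b i)) = B
  have hBi : ∀ i, B i = algebraMap F FΩ (b i) := fun i => by rw [← hB]
  let L : IntermediateField Ω FΩ := IntermediateField.adjoin Ω {X}
  let W : Submodule L FΩ := Submodule.span L (Set.range B)
  -- polynomials in `X` lie in `L`
  have hL : ∀ q : Polynomial Ω, aeval X q ∈ L := fun q =>
    (IntermediateField.mem_adjoin_simple_iff Ω _).2 ⟨q, 1, by rw [map_one, div_one]⟩
  -- multiplication by elements of `L` preserves `W`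
  have hLW : ∀ a ∈ L, ∀ w ∈ W, a * w ∈ W := by
    intro a ha w hw
    have e : a * w = (⟨a, ha⟩ : L) • w := by
      rw [Algebra.smul_def]; rfl
    rw [e]
    exact W.smul_mem _ hw
  -- (a) the image of `F` lies in `W`
  have hF : ∀ f : F, algebraMap F FΩ f ∈ W := by
    intro f
    obtain ⟨p, s, hs0, e⟩ := hs f
    have e' := congrArg (algebraMap F FΩ) e
    rw [map_mul, map_sum] at e'
    have hσ : algebraMap F FΩ (aeval x s) ≠ 0 := by
      rw [Ne, map_eq_zero]
      exact fun h0 => hs0 ((transcendental_iff.1 hx) s h0)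
    have e2 : algebraMap F FΩ f =
        (algebraMap F FΩ (aeval x s))⁻¹ * ∑ i, algebraMap F FΩ (aeval x (p i) * b i) := by
      rw [← e', inv_mul_cancel_left₀ hσ]
    rw [e2]
    refine hLW _ (L.inv_mem ?_) _ (Submodule.sum_mem _ fun i _ => ?_)
    · rw [algebraMap_aeval h, hX]
      exact hL _
    · rw [map_mul, algebraMap_aeval h, hX, ← hBi]
      exact hLW _ (hL _) _ (Submodule.subset_span ⟨i, rfl⟩)
  -- `W` is closed under multiplication
  have hmul : ∀ w₁ ∈ W, ∀ w₂ ∈ W, w₁ * w₂ ∈ W := by
    intro w₁ h₁ w₂ h₂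
    have hle : W * W ≤ W := by
      show Submodule.span L (Set.range B) * Submodule.span L (Set.range B) ≤ W
      rw [Submodule.span_mul_span, Submodule.span_le]
      rintro _ ⟨_, ⟨i, rfl⟩, _, ⟨j, rfl⟩, rfl⟩
      show B i * B j ∈ W
      rw [hBi, hBi, ← map_mul]
      exact hF _
    exact hle (Submodule.mul_mem_mul h₁ h₂)
  have hone : (1 : FΩ) ∈ W := by
    rw [← map_one (algebraMap F FΩ)]
    exact hF 1
  let A : Subalgebra L FΩ := W.toSubalgebra hone (fun a b ha hb => hmul a ha b hb)
  have hfg : (Subalgebra.toSubmodule A).FG := by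
    have e : Subalgebra.toSubmodule A = W := by
      ext z
      rfl
    rw [e]
    exact Submodule.fg_span (Set.finite_range B)
  -- inverses
  have hinv : ∀ d ∈ W, d⁻¹ ∈ W := by
    intro d hd
    have hint : IsIntegral L d := IsIntegral.of_mem_of_fg A hfg d hd
    exact Subalgebra.inv_mem_of_algebraic (A := A) (x := ⟨d, hd⟩) hint.isAlgebraic
  -- `Ω`-multiples
  have hΩ : ∀ (c : Ω) (w : FΩ), w ∈ W → c • w ∈ W := by
    intro c w hw
    rw [Algebra.smul_def]
    exact hLW _ (L.algebraMap_mem c) _ hw
  -- every element lies in `W`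
  have hyW : y ∈ W := by
    obtain ⟨m, f, c, d, hd, e⟩ := h.frac y
    have hnum : (∑ i, c i • algebraMap F FΩ (f i)) ∈ W :=
      Submodule.sum_mem _ fun i _ => hΩ _ _ (hF _)
    have hden : (∑ i, d i • algebraMap F FΩ (f i)) ∈ W :=
      Submodule.sum_mem _ fun i _ => hΩ _ _ (hF _)
    have e3 : y = (∑ i, c i • algebraMap F FΩ (f i)) *
        (∑ i, d i • algebraMap F FΩ (f i))⁻¹ := by
      rw [← e, mul_inv_cancel_right₀ hd]
    rw [e3]
    exact hmul _ hnum _ (hinv _ hden)
  -- extract the representation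
  obtain ⟨r, hr⟩ := (Submodule.mem_span_range_iff_exists_fun L).1 hyW
  rw [← hr]
  have hterm : ∀ i, Rep (Ω := Ω) X B (r i • B i) := by
    intro i
    obtain ⟨P, S, hPS⟩ := (IntermediateField.mem_adjoin_simple_iff Ω _).1 (r i).2
    have e4 : r i • B i = (aeval X P / aeval X S) * B i := by
      rw [Algebra.smul_def, ← hPS]
      rfl
    rw [e4]
    by_cases hS : aeval X S = 0
    · rw [hS, div_zero, zero_mul]
      exact rep_zero X B
    · exact rep_quot_mul P S hS (rep_basis X B i)
  exact Finset.sum_induction _ (Rep (Ω := Ω) X B) (fun _ _ => rep_add) (rep_zero X B)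
    (fun i _ => hterm i)

/-- **Spanning base-changes**: if every element of `F` is a quotient of a `K[x]`-combination of
the `b i` by a non-zero polynomial in `x`, the same holds in `FΩ` over `Ω[x]`. -/
theorem span_map (h : IsConstExt K F Ω FΩ) {n : ℕ} (x : F) (b : Fin n → F)
    (hx : Transcendental K x)
    (hs : ∀ y : F, ∃ (p : Fin n → K[X]) (s : K[X]), s ≠ 0 ∧
      aeval x s * y = ∑ i, aeval x (p i) * b i)
    (y : FΩ) :
    ∃ (p : Fin n → Polynomial Ω) (s : Polynomial Ω), s ≠ 0 ∧
      aeval (algebraMap F FΩ x) s * y =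
        ∑ i, aeval (algebraMap F FΩ x) (p i) * algebraMap F FΩ (b i) :=
  span_map_rep h x b hx hs y

/-! ### The seam: realisations base-change -/

/-- **A realisation base-changes along a constant field extension** (the (BC)→(GR) seam). -/
theorem real_baseChange {Λ U : Type*} [CommRing Λ] [CommRing U] [Algebra Λ U] {n : ℕ}
    (M : GR.Model Λ U n) (h : IsConstExt K F Ω FΩ) {φ : Λ →+* K} {ψ : U →+* F}
    (hR : GR.Real M K F φ ψ) :
    GR.Real M Ω FΩ ((algebraMap K Ω).comp φ) ((algebraMap F FΩ).comp ψ) where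
  compat a := by
    show algebraMap F FΩ (ψ (algebraMap Λ U a)) = algebraMap Ω FΩ (algebraMap K Ω (φ a))
    rw [hR.compat, h.comm]
  trans := transcendental_map h hR.trans
  span y := span_map h (ψ M.x) (fun i => ψ (M.b i : U)) hR.trans hR.span y
  indep p hp := indep_map h (ψ M.x) (fun i => ψ (M.b i : U)) hR.indep p hp

end Fermat.Agent.S27P.BC.RealBC
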