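/-
S27 / (BC), seam file for (INST-B) squares: values of functions at base-changed places.

For a base-change map of places `bc` (`BcDiv.IsBcPlace bc`, e.g. `BcGauss.bcPlace h hres`):
* `adicValuation_bc`          : `(bc v).adicValuation (algebraMap F FΩ g) = v.adicValuation g`;
* `valAt_bc_iff`, `valAt_bc`  : `ValAt v f c ↔ ValAt (bc v) (algebraMap F FΩ f) (algebraMap K Ω c)`
  (the hypotheses `he`, `het` of `Inj.Centre.IsChart.comm`);
* `valAt_bcPlace`             : the same for `BcGauss.bcPlace`.
-/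
import Mathlib
import Fermat.Agent.S27P.BC.BcGauss
import Fermat.Agent.S27P.Inj.Centre

set_option autoImplicit false

namespace Fermat.Agent.S27P.BC.BcVal

open AlgebraicCurve WithZero Fermat.Agent.S27P.BC.BcDiv Fermat.Agent.S27P.Inj.Centre
  Fermat.Agent.Lib.FF

universe u v w x

variable {K : Type u} {F : Type v} {Ω : Type w} {FΩ : Type x} [Field K] [Field F]
  [Field Ω] [Field FΩ] [Algebra K F] [Algebra K Ω] [Algebra F FΩ] [Algebra Ω FΩ]

omit [Algebra K Ω] in
/-- The valuation of a function of `F` at a base-changed place. -/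
theorem adicValuation_bc {bc : Place K F → Place Ω FΩ} (hb : IsBcPlace bc) (v : Place K F)
    (g : F) : (bc v).adicValuation (algebraMap F FΩ g) = v.adicValuation g := by
  rcases eq_or_ne g 0 with rfl | hg
  · simp
  · rw [(bc v).adicValuation_eq_exp_neg_ord ((map_ne_zero _).2 hg),
      v.adicValuation_eq_exp_neg_ord hg, hb.ord]

/-- `f` takes the value `c ∈ K` at `v` iff it takes the value `c` at the base-changed place. -/
theorem valAt_bc_iff (h : IsConstExt K F Ω FΩ) {bc : Place K F → Place Ω FΩ}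
    (hb : IsBcPlace bc) (v : Place K F) (f : F) (c : K) :
    ValAt (bc v) (algebraMap F FΩ f) (algebraMap K Ω c) ↔ ValAt v f c := by
  unfold ValAt
  rw [← h.comm, ← map_sub, adicValuation_bc hb]

/-- The hypothesis `he` of `Inj.Centre.IsChart.comm` for `e := bc`, `ι := algebraMap F FΩ`,
`j := algebraMap K Ω`. -/
theorem valAt_bc (h : IsConstExt K F Ω FΩ) {bc : Place K F → Place Ω FΩ} (hb : IsBcPlace bc)
    (v : Place K F) (f : F) (c : K) (hv : ValAt v f c) :
    ValAt (bc v) (algebraMap F FΩ f) (algebraMap K Ω c) :=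
  (valAt_bc_iff h hb v f c).2 hv

/-- The same for the base-change map of record. -/
theorem valAt_bcPlace (h : IsConstExt K F Ω FΩ) (hres : ∀ v : Place K F, RR.ResK v)
    (v : Place K F) (f : F) (c : K) (hv : ValAt v f c) :
    ValAt (BcGauss.bcPlace h hres v) (algebraMap F FΩ f) (algebraMap K Ω c) :=
  valAt_bc h (BcGauss.isBcPlace h hres) v f c hv

theorem valAt_bcPlace_iff (h : IsConstExt K F Ω FΩ) (hres : ∀ v : Place K F, RR.ResK v)
    (v : Place K F) (f : F) (c : K) :
    ValAt (BcGauss.bcPlace h hres v) (algebraMap F FΩ f) (algebraMap K Ω c) ↔ ValAt v f c :=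
  valAt_bc_iff h (BcGauss.isBcPlace h hres) v f c

omit [Algebra K Ω] in
/-- Regularity is preserved and reflected: `0 ≤ ord` at `bc v` iff at `v`. -/
theorem ord_bc_nonneg_iff {bc : Place K F → Place Ω FΩ} (hb : IsBcPlace bc) (v : Place K F)
    (g : F) : 0 ≤ (bc v).ord (algebraMap F FΩ g) ↔ 0 ≤ v.ord g := by
  rw [hb.ord]

end Fermat.Agent.S27P.BC.BcVal
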