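import Mathlib
import Fermat.Prelude.Def_AlgebraicCurve_BaseChangeGalois
import Fermat.Agent.S27P.BC.Defs
import Fermat.Agent.S27P.BC.Descent

/-!
# (BC-5) Galois descent of subspaces, in the vocabulary of record

The theorems of `S27P/BC/Descent.lean` for `h : IsConstExt K F Ω FΩ` and a group `G` acting on
`FΩ` through a homomorphism `act : G →* SemilinearAut Ω FΩ` (Prelude) which fixes the image of
`F` and whose base automorphisms have fixed field `K`.  (For `G = Ω ≃ₐ[K] Ω`, `act = autAct h`.)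

* `eq_span_of_stable_of_le` : a `G`-stable `Ω`-subspace of the span of `F` is spanned by its
  elements in `F`;
* `mem_range_of_fixed` : `FΩ^G = F`;
* `eq_span_of_stable` : a finite-dimensional `G`-stable `Ω`-subspace of `FΩ` is spanned by its
  elements in `F`;
* `finrank_eq_of_stable` : and its dimension is the `K`-dimension of its trace on `F`.
-/

set_option autoImplicit false

namespace Fermat.Agent.S27P.BC.DescentOf

open AlgebraicCurve

variable {K F Ω FΩ G : Type*} [Field K] [Field F] [Field Ω] [Field FΩ] [Algebra K F]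
  [Algebra K Ω] [Algebra F FΩ] [Algebra Ω FΩ] [Group G]

/-- The base automorphism of a semilinear automorphism, as a homomorphism. -/
def baseAutHom (Ω FΩ : Type*) [Field Ω] [Field FΩ] [Algebra Ω FΩ] :
    SemilinearAut Ω FΩ →* RingAut Ω :=
  (MonoidHom.snd (RingAut FΩ) (RingAut Ω)).comp (Subgroup.subtype _)

theorem baseAutHom_apply (g : SemilinearAut Ω FΩ) (c : Ω) :
    baseAutHom Ω FΩ g c = SemilinearAut.baseAut g c := rfl

theorem setOf_eq_image (W : Submodule Ω FΩ) :
    {z | z ∈ W ∧ z ∈ Set.range (algebraMap F FΩ)} =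
      algebraMap F FΩ '' {f | algebraMap F FΩ f ∈ W} := by
  ext z
  constructor
  · rintro ⟨hz, f, rfl⟩
    exact ⟨f, hz, rfl⟩
  · rintro ⟨f, hf, rfl⟩
    exact ⟨hf, f, rfl⟩

theorem hfrac_of (h : IsConstExt K F Ω FΩ) :
    ∀ z : FΩ, ∃ a b : FΩ, a ∈ Descent.spanF F Ω FΩ ∧ b ∈ Descent.spanF F Ω FΩ ∧ b ≠ 0 ∧
      z * b = a := by
  intro z
  obtain ⟨a, ha, b, hb, hb0, hab⟩ := h.exists_div z
  exact ⟨a, b, ha, hb, hb0, hab⟩

/-- A `G`-stable `Ω`-subspace of the `Ω`-span of `F` is spanned by its elements in `F`. -/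
theorem eq_span_of_stable_of_le (h : IsConstExt K F Ω FΩ) (act : G →* SemilinearAut Ω FΩ)
    (hactF : ∀ (σ : G) (f : F), act σ • algebraMap F FΩ f = algebraMap F FΩ f)
    (hfix : ∀ a : Ω, (∀ σ : G, SemilinearAut.baseAut (act σ) a = a) →
      a ∈ (algebraMap K Ω).range)
    (W : Submodule Ω FΩ) (hWle : W ≤ IsConstExt.span K F Ω FΩ)
    (hW : ∀ (σ : G), ∀ w ∈ W, act σ • w ∈ W) :
    W = Submodule.span Ω (algebraMap F FΩ '' {f | algebraMap F FΩ f ∈ W}) := by
  let _ : MulSemiringAction G FΩ := MulSemiringAction.compHom FΩ act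
  let _ : MulSemiringAction G Ω := MulSemiringAction.compHom Ω ((baseAutHom Ω FΩ).comp act)
  have hΩ : ∀ (σ : G) (c : Ω), σ • algebraMap Ω FΩ c = algebraMap Ω FΩ (σ • c) :=
    fun σ c => SemilinearAut.smul_algebraMap (act σ) c
  rw [← setOf_eq_image]
  exact Descent.eq_span_inter_of_stable (fun c => (h.comm c).symm) hfix hΩ hactF W hWle hW

/-- The fixed field: an element of `FΩ` fixed by `G` lies in `F`. -/
theorem mem_range_of_fixed (h : IsConstExt K F Ω FΩ) (act : G →* SemilinearAut Ω FΩ)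
    (hactF : ∀ (σ : G) (f : F), act σ • algebraMap F FΩ f = algebraMap F FΩ f)
    (hfix : ∀ a : Ω, (∀ σ : G, SemilinearAut.baseAut (act σ) a = a) →
      a ∈ (algebraMap K Ω).range)
    (z : FΩ) (hz : ∀ σ : G, act σ • z = z) : z ∈ Set.range (algebraMap F FΩ) := by
  let _ : MulSemiringAction G FΩ := MulSemiringAction.compHom FΩ act
  let _ : MulSemiringAction G Ω := MulSemiringAction.compHom Ω ((baseAutHom Ω FΩ).comp act)
  have hΩ : ∀ (σ : G) (c : Ω), σ • algebraMap Ω FΩ c = algebraMap Ω FΩ (σ • c) :=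
    fun σ c => SemilinearAut.smul_algebraMap (act σ) c
  exact Descent.mem_range_of_fixed (fun c => (h.comm c).symm) h.indep hfix hΩ hactF (hfrac_of h)
    z hz

/-- A finite-dimensional `G`-stable `Ω`-subspace of `FΩ` is spanned by its elements in `F`. -/
theorem eq_span_of_stable (h : IsConstExt K F Ω FΩ) (act : G →* SemilinearAut Ω FΩ)
    (hactF : ∀ (σ : G) (f : F), act σ • algebraMap F FΩ f = algebraMap F FΩ f)
    (hfix : ∀ a : Ω, (∀ σ : G, SemilinearAut.baseAut (act σ) a = a) →
      a ∈ (algebraMap K Ω).range)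
    (W : Submodule Ω FΩ) [Module.Finite Ω W] (hW : ∀ (σ : G), ∀ w ∈ W, act σ • w ∈ W) :
    W = Submodule.span Ω (algebraMap F FΩ '' {f | algebraMap F FΩ f ∈ W}) := by
  let _ : MulSemiringAction G FΩ := MulSemiringAction.compHom FΩ act
  let _ : MulSemiringAction G Ω := MulSemiringAction.compHom Ω ((baseAutHom Ω FΩ).comp act)
  have hΩ : ∀ (σ : G) (c : Ω), σ • algebraMap Ω FΩ c = algebraMap Ω FΩ (σ • c) :=
    fun σ c => SemilinearAut.smul_algebraMap (act σ) c
  rw [← setOf_eq_image]
  exact Descent.eq_span_inter_of_stable_of_finite (fun c => (h.comm c).symm) hfix hΩ hactF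
    (hfrac_of h) W hW

/-- Dimensions: for a finite-dimensional `G`-stable `Ω`-subspace `W` of `FΩ`, the `K`-dimension
of its trace `W₀` on `F` is the `Ω`-dimension of `W`. -/
theorem finrank_eq_of_stable (h : IsConstExt K F Ω FΩ) (act : G →* SemilinearAut Ω FΩ)
    (hactF : ∀ (σ : G) (f : F), act σ • algebraMap F FΩ f = algebraMap F FΩ f)
    (hfix : ∀ a : Ω, (∀ σ : G, SemilinearAut.baseAut (act σ) a = a) →
      a ∈ (algebraMap K Ω).range)
    (W : Submodule Ω FΩ) [Module.Finite Ω W] (hW : ∀ (σ : G), ∀ w ∈ W, act σ • w ∈ W)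
    (W₀ : Submodule K F) (hW₀ : ∀ f : F, f ∈ W₀ ↔ algebraMap F FΩ f ∈ W) :
    Module.finrank K W₀ = Module.finrank Ω W := by
  let _ : MulSemiringAction G FΩ := MulSemiringAction.compHom FΩ act
  let _ : MulSemiringAction G Ω := MulSemiringAction.compHom Ω ((baseAutHom Ω FΩ).comp act)
  have hΩ : ∀ (σ : G) (c : Ω), σ • algebraMap Ω FΩ c = algebraMap Ω FΩ (σ • c) :=
    fun σ c => SemilinearAut.smul_algebraMap (act σ) c
  exact Descent.finrank_eq_of_stable (fun c => (h.comm c).symm) h.indep hfix hΩ hactF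
    (hfrac_of h) W hW W₀ hW₀

/-- The trace on `F` of a finite-dimensional `Ω`-subspace of `FΩ` is finite-dimensional over
`K` (no group needed). -/
theorem finite_trace (h : IsConstExt K F Ω FΩ) (W : Submodule Ω FΩ) [Module.Finite Ω W]
    (W₀ : Submodule K F) (hW₀ : ∀ f : F, f ∈ W₀ → algebraMap F FΩ f ∈ W) :
    Module.Finite K W₀ := by
  classical
  have hle : ∀ (m : ℕ) (v : Fin m → F), LinearIndependent K v → (∀ i, v i ∈ W₀) →
      m ≤ Module.finrank Ω W := by
    intro m v hv hmem
    have h1 := h.indep m v hv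
    have h2 : Submodule.span Ω (Set.range fun i => algebraMap F FΩ (v i)) ≤ W := by
      rw [Submodule.span_le]
      rintro _ ⟨i, rfl⟩
      exact hW₀ _ (hmem i)
    have h3 := Submodule.finrank_mono h2
    rw [finrank_span_eq_card h1, Fintype.card_fin] at h3
    exact h3
  have hrank : Module.rank K W₀ ≤ (Module.finrank Ω W : ℕ) := by
    apply rank_le
    intro s hs
    have h1 : LinearIndependent K (fun i : s => ((i : W₀) : F)) :=
      hs.map' W₀.subtype (Submodule.ker_subtype _)
    have h2 : LinearIndependent K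
        (fun j : Fin s.card => (((s.equivFin.symm j : s) : W₀) : F)) :=
      h1.comp _ s.equivFin.symm.injective
    exact hle _ _ h2 (fun j => Subtype.property _)
  exact Module.rank_lt_aleph0_iff.1 (hrank.trans_lt Cardinal.natCast_lt_aleph0)

end Fermat.Agent.S27P.BC.DescentOf
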