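/-
S27 / (BC-6'), existence twin of the Gauss extension: every place of `F/K` (with residue field
`K`) extends to a place of the constant field extension `FΩ/Ω` with index one.

* `mem_of_algebraMap_mem_span` : `(Ω·W) ∩ F = W` for a `K`-subspace `W` of `F` (linear
  disjointness);
* `exists_valuationSubring_over` : a valuation ring `O ⊇ K` of `F` is the trace on `F` of a
  valuation ring `B ⊇ Ω` of `FΩ` (Chevalley: `Ω·O` is a subring of `FΩ` in which `Ω·𝔪_O` is a
  proper ideal);
* `exists_place_over` : for a function field `FΩ/Ω` of one variable, `B` is a place;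
* `exists_place_ord_eq` : its order function restricts to `ord_v` (the index is `1`).

Characteristic-free; `K`, `F`, `Ω`, `FΩ` in four independent universes.
-/
import Mathlib
import Fermat.Agent.S27P.BC.Basic
import Fermat.Agent.S27P.BC.Restrict
import Fermat.Agent.Lib.FF.Holo

set_option autoImplicit false

open scoped TensorProduct

namespace Fermat.Agent.S27P.BC.ExtPlace

open AlgebraicCurve IntermediateField Fermat.Agent.Lib.FF

universe u v w x

variable {K : Type u} {F : Type v} {Ω : Type w} {FΩ : Type x} [Field K] [Field F]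
  [Field Ω] [Field FΩ] [Algebra K F] [Algebra K Ω] [Algebra F FΩ] [Algebra Ω FΩ]

/-- **Linear disjointness, subspace form**: `(Ω·W) ∩ F = W`. -/
theorem mem_of_algebraMap_mem_span (h : IsConstExt K F Ω FΩ) (W : Submodule K F) {g : F}
    (hg : algebraMap F FΩ g ∈ Submodule.span Ω (algebraMap F FΩ '' (W : Set F))) : g ∈ W := by
  by_contra hgW
  obtain ⟨lam, hlam, hW⟩ := Submodule.exists_dual_map_eq_bot_of_notMem hgW inferInstance
  let Λ : Ω ⊗[K] F →ₗ[Ω] Ω :=
    (Algebra.TensorProduct.rid K Ω Ω).toLinearMap ∘ₗ (LinearMap.baseChange Ω lam)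
  have hΛ : ∀ (c : Ω) (f : F), Λ (c ⊗ₜ[K] f) = lam f • c := by
    intro c f
    simp [Λ]
  have key : ∀ z ∈ Submodule.span Ω (algebraMap F FΩ '' (W : Set F)),
      ∃ t : Ω ⊗[K] F, h.tensorAlgHom t = z ∧ Λ t = 0 := by
    intro z hz
    induction hz using Submodule.span_induction with
    | mem y hy =>
      obtain ⟨f, hf, rfl⟩ := hy
      refine ⟨1 ⊗ₜ f, h.tensorAlgHom_one_tmul f, ?_⟩
      have h0 : lam f = 0 := by
        have h1 : lam f ∈ W.map lam := ⟨f, hf, rfl⟩
        rw [hW] at h1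
        exact (Submodule.mem_bot K).1 h1
      rw [hΛ, h0, zero_smul]
    | zero => exact ⟨0, map_zero _, map_zero _⟩
    | add y z _ _ hy hz =>
      obtain ⟨t, ht, ht0⟩ := hy
      obtain ⟨s, hs, hs0⟩ := hz
      exact ⟨t + s, by rw [map_add, ht, hs], by rw [map_add, ht0, hs0, add_zero]⟩
    | smul c y _ hy =>
      obtain ⟨t, ht, ht0⟩ := hy
      exact ⟨c • t, by rw [map_smul, ht], by rw [map_smul, ht0, smul_zero]⟩
  obtain ⟨t, ht, ht0⟩ := key _ hg
  have ht' : t = 1 ⊗ₜ g := h.tensorAlgHom_injective (by rw [ht, h.tensorAlgHom_one_tmul])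
  rw [ht', hΛ] at ht0
  apply hlam
  have h1 : algebraMap K Ω (lam g) = 0 := by
    rw [Algebra.algebraMap_eq_smul_one]
    exact ht0
  exact (map_eq_zero _).1 h1

/-- **Chevalley**: a valuation ring `O ⊇ K` of `F` is the trace on `F` of a valuation ring
`B ⊇ Ω` of the constant field extension `FΩ`. -/
theorem exists_valuationSubring_over (h : IsConstExt K F Ω FΩ) (O : ValuationSubring F)
    (hK : ∀ a : K, algebraMap K F a ∈ O) :
    ∃ B : ValuationSubring FΩ, (∀ c : Ω, algebraMap Ω FΩ c ∈ B) ∧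
      ∀ g : F, algebraMap F FΩ g ∈ B ↔ g ∈ O := by
  -- the two `K`-subspaces `O` and `𝔪_O` of `F`
  let W₀ : Submodule K F :=
    { carrier := {f | f ∈ O}
      add_mem' := fun {a b} ha hb => O.add_mem _ _ ha hb
      zero_mem' := O.zero_mem
      smul_mem' := fun a f hf => by
        show a • f ∈ O
        rw [Algebra.smul_def]
        exact O.mul_mem _ _ (hK a) hf }
  let W₁ : Submodule K F :=
    { carrier := {f | f ∈ O.nonunits}
      add_mem' := fun {a b} ha hb => O.nonunits.add_mem ha hb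
      zero_mem' := O.nonunits.zero_mem
      smul_mem' := fun a f hf => by
        show a • f ∈ O.nonunits
        rw [Algebra.smul_def, ValuationSubring.mem_nonunits_iff, map_mul]
        have h1 : O.valuation (algebraMap K F a) ≤ 1 := (O.valuation_le_one_iff _).2 (hK a)
        have h2 : O.valuation f < 1 := hf
        calc O.valuation (algebraMap K F a) * O.valuation f ≤ 1 * O.valuation f :=
              mul_le_mul_left h1 _
          _ = O.valuation f := one_mul _
          _ < 1 := h2 }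
  have hW₀ : ∀ f : F, f ∈ W₀ ↔ f ∈ O := fun f => Iff.rfl
  have hW₁ : ∀ f : F, f ∈ W₁ ↔ f ∈ O.nonunits := fun f => Iff.rfl
  set S₀ : Submodule Ω FΩ := Submodule.span Ω (algebraMap F FΩ '' (W₀ : Set F)) with hS₀
  set S₁ : Submodule Ω FΩ := Submodule.span Ω (algebraMap F FΩ '' (W₁ : Set F)) with hS₁
  have hmul₀ : S₀ * S₀ ≤ S₀ := by
    rw [hS₀, Submodule.span_mul_span]
    apply Submodule.span_mono
    rintro _ ⟨_, ⟨a, ha, rfl⟩, _, ⟨b, hb, rfl⟩, rfl⟩
    exact ⟨a * b, O.mul_mem _ _ ha hb, map_mul _ _ _⟩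
  have hmul₁ : S₀ * S₁ ≤ S₁ := by
    rw [hS₀, hS₁, Submodule.span_mul_span]
    apply Submodule.span_mono
    rintro _ ⟨_, ⟨a, ha, rfl⟩, _, ⟨b, hb, rfl⟩, rfl⟩
    refine ⟨a * b, ?_, map_mul _ _ _⟩
    show a * b ∈ O.nonunits
    rw [ValuationSubring.mem_nonunits_iff, map_mul]
    have h1 : O.valuation a ≤ 1 := (O.valuation_le_one_iff _).2 ha
    have h2 : O.valuation b < 1 := hb
    calc O.valuation a * O.valuation b ≤ 1 * O.valuation b := mul_le_mul_left h1 _
      _ = O.valuation b := one_mul _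
      _ < 1 := h2
  have hone : (1 : FΩ) ∈ S₀ := by
    rw [hS₀]
    exact Submodule.subset_span ⟨1, O.one_mem, map_one _⟩
  -- the subring `Ω·O` of `FΩ` and its ideal `Ω·𝔪_O`
  let A : Subring FΩ :=
    { carrier := S₀
      mul_mem' := fun {a b} ha hb => hmul₀ (Submodule.mul_mem_mul ha hb)
      one_mem' := hone
      add_mem' := fun {a b} ha hb => S₀.add_mem ha hb
      zero_mem' := S₀.zero_mem
      neg_mem' := fun {a} ha => S₀.neg_mem ha }
  have hA : ∀ z : FΩ, z ∈ A ↔ z ∈ S₀ := fun z => Iff.rfl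
  let J : Ideal A :=
    { carrier := {r | (r : FΩ) ∈ S₁}
      add_mem' := fun {a b} ha hb => S₁.add_mem ha hb
      zero_mem' := S₁.zero_mem
      smul_mem' := fun c r hr => by
        show ((c * r : A) : FΩ) ∈ S₁
        exact hmul₁ (Submodule.mul_mem_mul c.2 hr) }
  have hJ : J ≠ ⊤ := by
    intro hJtop
    have h1 : (1 : A) ∈ J := by rw [hJtop]; exact Submodule.mem_top
    have h2 : (1 : FΩ) ∈ S₁ := h1
    rw [← map_one (algebraMap F FΩ)] at h2
    have h3 : (1 : F) ∈ W₁ := mem_of_algebraMap_mem_span h W₁ h2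
    have h4 : O.valuation (1 : F) < 1 := h3
    rw [map_one] at h4
    exact lt_irrefl _ h4
  obtain ⟨B, hAB, hJB⟩ := Ideal.image_subset_nonunits_valuationSubring J hJ
  have hmemB : ∀ g : F, g ∈ O → algebraMap F FΩ g ∈ B := fun g hg =>
    hAB (show algebraMap F FΩ g ∈ A from Submodule.subset_span ⟨g, hg, rfl⟩)
  refine ⟨B, fun c => ?_, fun g => ⟨fun hgB => ?_, hmemB g⟩⟩
  · apply hAB
    show algebraMap Ω FΩ c ∈ S₀
    rw [Algebra.algebraMap_eq_smul_one]
    exact S₀.smul_mem c hone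
  · by_contra hgO
    have hg0 : g ≠ 0 := fun h0 => hgO (h0 ▸ O.zero_mem)
    have hinv : g⁻¹ ∈ O.nonunits := by
      rw [ValuationSubring.mem_nonunits_iff_or, inv_inv]
      exact Or.inr hgO
    have hinvS : algebraMap F FΩ g⁻¹ ∈ S₁ := Submodule.subset_span ⟨g⁻¹, hinv, rfl⟩
    have hinvS₀ : algebraMap F FΩ g⁻¹ ∈ S₀ :=
      Submodule.subset_span ⟨g⁻¹, O.nonunits_subset hinv, rfl⟩
    have hmemJ : (⟨algebraMap F FΩ g⁻¹, hinvS₀⟩ : A) ∈ J := hinvS
    have hnu : algebraMap F FΩ g⁻¹ ∈ B.nonunits := hJB ⟨_, hmemJ, rfl⟩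
    rw [ValuationSubring.mem_nonunits_iff_or, map_inv₀, inv_inv] at hnu
    rcases hnu with h0 | h0
    · rw [inv_eq_zero, map_eq_zero] at h0
      exact hg0 h0
    · exact h0 hgB

/-- In a function field of one variable `FΩ/Ω`, every place of `F` is the trace of a place of
`FΩ`. -/
theorem exists_place_over (h : IsConstExt K F Ω FΩ) (X : FΩ) [FiniteDimensional Ω⟮X⟯ FΩ]
    (v : Place K F) :
    ∃ w : Place Ω FΩ, ∀ g : F,
      algebraMap F FΩ g ∈ w.toValuationSubring ↔ g ∈ v.toValuationSubring := by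
  obtain ⟨B, hΩ, hB⟩ := exists_valuationSubring_over h v.toValuationSubring v.algebraMap_mem'
  have hBtop : B ≠ ⊤ := by
    intro hBtop
    apply v.ne_top'
    refine SetLike.ext fun g => ⟨fun _ => ValuationSubring.mem_top g, fun _ => ?_⟩
    rw [← hB g, hBtop]
    exact ValuationSubring.mem_top _
  exact ⟨Holo.placeOfValuationSubring X B hΩ hBtop, hB⟩

/-- The index of an extension is one: if `w` restricts to `e · ord_v` then `e = 1`. -/
theorem index_eq_one (h : IsConstExt K F Ω FΩ) (v : Place K F) (hv : RR.ResK v)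
    (w : Place Ω FΩ) (e : ℕ) (he : 0 < e)
    (hw : ∀ g : F, w.ord (algebraMap F FΩ g) = e * v.ord g) : e = 1 := by
  classical
  set ℬ := Module.Basis.ofVectorSpace K Ω with hℬ
  have hind : LinearIndependent K (fun i => ℬ i) := ℬ.linearIndependent
  have key : ∀ r : FΩ, r ∈ IsConstExt.span K F Ω FΩ → r ≠ 0 → ∃ m : ℤ, w.ord r = e * m := by
    intro r hr hr0
    obtain ⟨b, rfl⟩ := Restrict.exists_rep h ℬ hr
    have hb : b ≠ 0 := by
      rintro rfl
      exact hr0 (by simp)
    obtain ⟨m, hm, hm'⟩ := Restrict.exists_min_ord v b hb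
    exact ⟨m, (Restrict.ord_sum_eq h hv w e he hw _ hind b m hm hm').2⟩
  obtain ⟨ϖ, hϖ0, hϖ1⟩ := Restrict.exists_ord_eq_one w
  obtain ⟨a, ha, b, hb, hb0, hab⟩ := h.exists_div ϖ
  have ha0 : a ≠ 0 := by
    rw [← hab]
    exact mul_ne_zero hϖ0 hb0
  obtain ⟨mA, hA⟩ := key a ha ha0
  obtain ⟨mB, hB⟩ := key b hb hb0
  have h1 : w.ord ϖ + w.ord b = w.ord a := by rw [← hab, w.ord_mul hϖ0 hb0]
  rw [hϖ1, hA, hB] at h1
  have h2 : (e : ℤ) * (mA - mB) = 1 := by rw [mul_sub]; omega
  have h3 : (e : ℤ) = 1 := Int.eq_one_of_mul_eq_one_right (Int.natCast_nonneg e) h2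
  exact_mod_cast h3

/-- **Existence of the extension of a place** to a constant field extension, with index one. -/
theorem exists_place_ord_eq (h : IsConstExt K F Ω FΩ) (X : FΩ) [FiniteDimensional Ω⟮X⟯ FΩ]
    (v : Place K F) (hv : RR.ResK v) :
    ∃ w : Place Ω FΩ, ∀ g : F, w.ord (algebraMap F FΩ g) = v.ord g := by
  obtain ⟨w, hw⟩ := exists_place_over h X v
  obtain ⟨π, hπ0, hπ1⟩ := Restrict.exists_ord_eq_one v
  have hπw : w.ord (algebraMap F FΩ π) ≠ 0 := by
    have h1 : π⁻¹ ∉ v.toValuationSubring := by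
      rw [Fermat.Agent.S24.notMem_iff_ord_neg, v.ord_inv, hπ1]
      norm_num
    have h2 : algebraMap F FΩ π⁻¹ ∉ w.toValuationSubring := fun hmem => h1 ((hw _).1 hmem)
    rw [Fermat.Agent.S24.notMem_iff_ord_neg, map_inv₀, w.ord_inv] at h2
    omega
  obtain ⟨v', e, he, hv'⟩ := Restrict.exists_place_restrict h w hπw
  have he' : (0 : ℤ) < (e : ℤ) := by exact_mod_cast he
  have hvv' : v = v' := by
    refine Fermat.Agent.S24.place_eq_of_ord fun f hf => ?_
    have h1 : algebraMap F FΩ f ∈ w.toValuationSubring :=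
      (hw f).2 (Fermat.Agent.S24.mem_of_ord_nonneg v hf)
    have h2 := Fermat.Agent.S24.ord_nonneg_of_mem w h1
    rw [hv' f] at h2
    by_contra hneg
    rw [not_le] at hneg
    have := mul_neg_of_pos_of_neg he' hneg
    omega
  subst hvv'
  have he1 : e = 1 := index_eq_one h v hv w e he hv'
  refine ⟨w, fun g => ?_⟩
  rw [hv' g, he1, Nat.cast_one, one_mul]

end Fermat.Agent.S27P.BC.ExtPlace
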