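import Mathlib
import Fermat.Agent.S27P.BC.FrameOf
import Fermat.Agent.S27P.BC.DescentOf

/-!
# (BC) → (GEN) seam, part 2: the `K`-rational functions of the frame are the functions of `F`

For `h : IsConstExt K F Ω FΩ` and the frame action `h.semilinearAut`:

* `isRat_algebraMap` : the functions of `F` are `M`-rational for every intermediate field `M`;
* `isRat_bot_iff` : (`K`, `Ω` algebraically closed) `f` is `K`-rational iff it lies in `F`;
* `sum_eq_algebraMap` : the `K`-combinations of the frame vocabulary are images of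
  `K`-combinations in `F`;
* `hbind_of`, `hbfrac_of` : the hypotheses `hbind` (joint independence, (G10)) and `hbfrac`
  (`lift_key`) for the family `b j = algebraMap F FΩ (b₀ j)`, from `K`-linear independence of
  `b₀`, resp. from "`F` is the field of fractions of the `K`-span of `b₀`".
-/

set_option autoImplicit false

namespace Fermat.Agent.S27P.BC.FrameRat

open AlgebraicCurve Fermat.Agent.S27P.BC Fermat.Agent.S27P

universe u v w x

variable {K : Type u} {F : Type v} {Ω : Type w} {FΩ : Type x} [Field K] [Field F]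
  [Field Ω] [Field FΩ] [Algebra K F] [Algebra K Ω] [Algebra F FΩ] [Algebra Ω FΩ]

/-- The functions of `F` are rational over every intermediate field. -/
theorem isRat_algebraMap (h : IsConstExt K F Ω FΩ) (M : IntermediateField K Ω) (f : F) :
    Gen.IsRat h.semilinearAut M (algebraMap F FΩ f) :=
  fun σ _ => h.semilinearAut_smul_algebraMap σ f

/-- A `K`-rational function of `FΩ` is a function of `F` (the fixed field of `Aut(Ω/K)`). -/
theorem exists_eq_algebraMap_of_isRat_bot [IsAlgClosed K] [IsAlgClosed Ω]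
    (h : IsConstExt K F Ω FΩ) {f : FΩ} (hf : Gen.IsRat h.semilinearAut ⊥ f) :
    ∃ f₀ : F, algebraMap F FΩ f₀ = f := by
  refine DescentOf.mem_range_of_fixed h h.semilinearAut
    (fun σ f => h.semilinearAut_smul_algebraMap σ f)
    (fun a ha => FixedField.mem_range_of_fixed fun σ => ?_) f (fun σ => hf σ ?_)
  · exact ha σ
  · rw [IntermediateField.fixingSubgroup_bot]
    exact Subgroup.mem_top σ

theorem isRat_bot_iff [IsAlgClosed K] [IsAlgClosed Ω] (h : IsConstExt K F Ω FΩ) (f : FΩ) :
    Gen.IsRat h.semilinearAut ⊥ f ↔ f ∈ Set.range (algebraMap F FΩ) :=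
  ⟨fun hf => exists_eq_algebraMap_of_isRat_bot h hf, fun ⟨f₀, hf₀⟩ => hf₀ ▸ isRat_algebraMap h ⊥ f₀⟩

/-- `K`-combinations in the frame vocabulary are images of `K`-combinations in `F`. -/
theorem sum_eq_algebraMap (h : IsConstExt K F Ω FΩ) {J : Type*} (b₀ : J → F) (lam : J →₀ K) :
    (lam.sum fun j a => algebraMap Ω FΩ (algebraMap K Ω a) * algebraMap F FΩ (b₀ j)) =
      algebraMap F FΩ (lam.sum fun j a => a • b₀ j) := by
  rw [Finsupp.sum, Finsupp.sum, map_sum]
  refine Finset.sum_congr rfl fun j _ => ?_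
  rw [Algebra.smul_def, map_mul, h.comm]

/-- `hbind` of (G10): a `K`-linearly independent family of `F` stays `K`-independent in the
frame vocabulary. -/
theorem hbind_of (h : IsConstExt K F Ω FΩ) {J : Type*} (b₀ : J → F)
    (hb₀ : LinearIndependent K b₀) :
    ∀ lam : J →₀ K,
      (lam.sum fun j a => algebraMap Ω FΩ (algebraMap K Ω a) * algebraMap F FΩ (b₀ j)) = 0 →
        lam = 0 := by
  intro lam hlam
  rw [sum_eq_algebraMap h, map_eq_zero] at hlam
  rw [linearIndependent_iff] at hb₀
  exact hb₀ lam (by rw [Finsupp.linearCombination_apply]; exact hlam)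

/-- `hbfrac` of `lift_key`: if every function of `F` is a quotient of `K`-combinations of the
family `b₀`, every `K`-rational function of `FΩ` is a quotient of `K`-combinations of its
image. -/
theorem hbfrac_of [IsAlgClosed K] [IsAlgClosed Ω] (h : IsConstExt K F Ω FΩ) {J : Type*}
    (b₀ : J → F)
    (hb₀ : ∀ f : F, ∃ lam mu : J →₀ K, (mu.sum fun j a => a • b₀ j) ≠ 0 ∧
      f * (mu.sum fun j a => a • b₀ j) = lam.sum fun j a => a • b₀ j) :
    ∀ f : FΩ, Gen.IsRat h.semilinearAut ⊥ f → ∃ lam mu : J →₀ K,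
      (mu.sum fun j a => algebraMap Ω FΩ (algebraMap K Ω a) * algebraMap F FΩ (b₀ j)) ≠ 0 ∧
      f * (mu.sum fun j a => algebraMap Ω FΩ (algebraMap K Ω a) * algebraMap F FΩ (b₀ j)) =
        lam.sum fun j a => algebraMap Ω FΩ (algebraMap K Ω a) * algebraMap F FΩ (b₀ j) := by
  intro f hf
  obtain ⟨f₀, rfl⟩ := exists_eq_algebraMap_of_isRat_bot h hf
  obtain ⟨lam, mu, hmu, hlam⟩ := hb₀ f₀
  refine ⟨lam, mu, ?_, ?_⟩
  · rw [sum_eq_algebraMap h, Ne, map_eq_zero]
    exact hmu
  · rw [sum_eq_algebraMap h, sum_eq_algebraMap h, ← map_mul, hlam]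

end Fermat.Agent.S27P.BC.FrameRat
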