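/-
S27 / (BC-6), twin (helper93): the Gauss extension of a place of `F/K` to the constant field
extension `FΩ/Ω`, by a RAW VALUATION.

`IsConstExt K F Ω FΩ`, `v` a place of `F/K` with residue field `K`.  In the `Ω`-span of `F`
consider the filtration `S m := span_Ω {f ∈ F | f = 0 ∨ m ≤ ord_v f}`.  In a `K`-basis of `Ω`
every element of the span has unique coordinates in `F`, and it lies in `S m` iff its coordinates
have order `≥ m`.  Since `S 0 = Ω + S 1` and `Ω ∩ S 1 = 0`, `S 1` is a prime ideal of the ring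
`S 0`, hence the level `max {m | r ∈ S m}` is additive on products (Gauss's lemma).  Its extension
to fractions is a `ℤ`-valued discrete valuation of `FΩ/Ω`, which `S24.PlaceOfVal` turns into a
place.

Main exports:
* `exists_extension` : `∃ w : Place Ω FΩ, ∀ g : F, w.ord (algebraMap F FΩ g) = v.ord g`;
* `gaussPlace`, `ord_gaussPlace`, `gaussPlace_injective`, `eq_gaussPlace` (uniqueness),
  `ord_gaussPlace_sum` (the Gauss formula), `ord_eq_zero_of_notMem_range`.
-/
import Mathlib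
import Fermat.Agent.S27P.BC.Defs
import Fermat.Agent.S27P.BC.Basic
import Fermat.Agent.S27P.BC.Restrict
import Fermat.Agent.S24.PlaceOfVal
import Fermat.Agent.S24.PlaceBasic
import Fermat.Agent.Lib.FF.RRLocal

set_option autoImplicit false
set_option linter.unusedSectionVars false

open scoped TensorProduct

namespace Fermat.Agent.S27P.BC.GaussPlace93

open AlgebraicCurve
open Fermat.Agent.S27P.BC Fermat.Agent.Lib.FF

universe u v w x

variable {K : Type u} {F : Type v} {Ω : Type w} {FΩ : Type x} [Field K] [Field F]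
  [Field Ω] [Field FΩ] [Algebra K F] [Algebra K Ω] [Algebra F FΩ] [Algebra Ω FΩ]

/-! ### The filtration of `F` by the order at `v` -/

/-- The `K`-subspace of `F` of the functions of order `≥ m` at `v`. -/
def lev (v : Place K F) (m : ℤ) : Submodule K F where
  carrier := {f | f = 0 ∨ m ≤ v.ord f}
  add_mem' := by
    intro a b ha hb
    by_cases ha0 : a = 0
    · simpa [ha0] using hb
    by_cases hb0 : b = 0
    · simpa [hb0] using ha
    by_cases hab : a + b = 0
    · exact Or.inl hab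
    right
    have h1 := Fermat.Agent.S24.ord_add_ge v ha0 hb0 hab
    exact le_trans (le_min (ha.resolve_left ha0) (hb.resolve_left hb0)) h1
  zero_mem' := Or.inl rfl
  smul_mem' := by
    intro c a ha
    by_cases hc : c = 0
    · left
      simp [hc]
    by_cases ha0 : a = 0
    · left
      simp [ha0]
    right
    show m ≤ v.ord (c • a)
    rw [Algebra.smul_def, v.ord_mul ((map_ne_zero _).2 hc) ha0,
      Fermat.Agent.S24.ord_algebraMap, zero_add]
    exact ha.resolve_left ha0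

theorem mem_lev {v : Place K F} {m : ℤ} {f : F} : f ∈ lev v m ↔ f = 0 ∨ m ≤ v.ord f := Iff.rfl

theorem mem_lev_of_ne {v : Place K F} {m : ℤ} {f : F} (hf : f ≠ 0) :
    f ∈ lev v m ↔ m ≤ v.ord f := by
  rw [mem_lev, or_iff_right hf]

theorem lev_anti (v : Place K F) {m n : ℤ} (hmn : m ≤ n) : lev v n ≤ lev v m := by
  intro f hf
  rcases hf with hf | hf
  · exact Or.inl hf
  · exact Or.inr (le_trans hmn hf)

theorem mul_mem_lev {v : Place K F} {m n : ℤ} {f g : F} (hf : f ∈ lev v m) (hg : g ∈ lev v n) :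
    f * g ∈ lev v (m + n) := by
  by_cases hf0 : f = 0
  · left
    rw [hf0, zero_mul]
  by_cases hg0 : g = 0
  · left
    rw [hg0, mul_zero]
  right
  rw [v.ord_mul hf0 hg0]
  exact add_le_add (hf.resolve_left hf0) (hg.resolve_left hg0)

/-! ### The filtration of the span -/

variable (Ω FΩ) in
/-- The `m`-th step of the Gauss filtration of the `Ω`-span of `F` in `FΩ`. -/
def S (v : Place K F) (m : ℤ) : Submodule Ω FΩ :=
  Submodule.span Ω ((fun f : F => algebraMap F FΩ f) '' (lev v m : Set F))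

theorem algebraMap_mem_S {v : Place K F} {m : ℤ} {f : F} (hf : f ∈ lev v m) :
    algebraMap F FΩ f ∈ S Ω FΩ v m :=
  Submodule.subset_span ⟨f, hf, rfl⟩

theorem S_anti (v : Place K F) {m n : ℤ} (hmn : m ≤ n) : S Ω FΩ v n ≤ S Ω FΩ v m :=
  Submodule.span_mono (Set.image_mono (lev_anti v hmn))

theorem S_le_span (v : Place K F) (m : ℤ) : S Ω FΩ v m ≤ IsConstExt.span K F Ω FΩ :=
  Submodule.span_mono (by
    rintro _ ⟨f, -, rfl⟩
    exact ⟨f, rfl⟩)

theorem mul_mem_S {v : Place K F} {m n : ℤ} {r s : FΩ} (hr : r ∈ S Ω FΩ v m)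
    (hs : s ∈ S Ω FΩ v n) : r * s ∈ S Ω FΩ v (m + n) := by
  have h1 : r * s ∈ S Ω FΩ v m * S Ω FΩ v n := Submodule.mul_mem_mul hr hs
  rw [S, S, Submodule.span_mul_span] at h1
  refine (Submodule.span_le.2 ?_) h1
  rintro _ ⟨_, ⟨f, hf, rfl⟩, _, ⟨g, hg, rfl⟩, rfl⟩
  show algebraMap F FΩ f * algebraMap F FΩ g ∈ S Ω FΩ v (m + n)
  rw [← map_mul]
  exact algebraMap_mem_S (mul_mem_lev hf hg)

/-! ### Coordinates in a `K`-basis of `Ω` -/

section Coords

variable {I : Type*} (ℬ : Module.Basis I K Ω)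

/-- Uniqueness of the coordinates: the basis `ℬ` of `Ω/K` is `F`-linearly independent in `FΩ`. -/
theorem eq_zero_of_sum_eq_zero (h : IsConstExt K F Ω FΩ) (b : I →₀ F)
    (hb : (b.sum fun i f => ℬ i • algebraMap F FΩ f) = 0) : b = 0 := by
  apply TensorProduct.sum_tmul_basis_left_eq_zero ℬ b
  apply IsConstExt.tensorAlgHom_injective h
  rw [map_zero, ← hb, Finsupp.sum, map_sum, Finsupp.sum]
  refine Finset.sum_congr rfl fun i _ => ?_
  rw [IsConstExt.tensorAlgHom_tmul, Algebra.smul_def]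

theorem eq_of_sum_eq (h : IsConstExt K F Ω FΩ) (b b' : I →₀ F)
    (hb : (b.sum fun i f => ℬ i • algebraMap F FΩ f) =
      b'.sum fun i f => ℬ i • algebraMap F FΩ f) : b = b' := by
  have h1 : ((b - b').sum fun i f => ℬ i • algebraMap F FΩ f) = 0 := by
    rw [Finsupp.sum_sub_index (fun i f₁ f₂ => by rw [map_sub, smul_sub]), hb, sub_self]
  exact sub_eq_zero.1 (eq_zero_of_sum_eq_zero ℬ h _ h1)

/-- Coordinates of the elements of `span_Ω (M)`, `M` a `K`-subspace of `F`, lie in `M`. -/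
theorem exists_coords (h : IsConstExt K F Ω FΩ) (M : Submodule K F) {r : FΩ}
    (hr : r ∈ Submodule.span Ω ((fun f : F => algebraMap F FΩ f) '' (M : Set F))) :
    ∃ b : I →₀ F, (∀ i, b i ∈ M) ∧ r = b.sum fun i f => ℬ i • algebraMap F FΩ f := by
  classical
  -- monomials
  have hmono : ∀ (d : Ω) (g : F), g ∈ M → ∃ b : I →₀ F, (∀ i, b i ∈ M) ∧
      d • algebraMap F FΩ g = b.sum fun i f => ℬ i • algebraMap F FΩ f := by
    intro d g hg
    refine ⟨(ℬ.repr d).mapRange (fun a : K => a • g) (zero_smul _ _), fun i => ?_, ?_⟩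
    · rw [Finsupp.mapRange_apply]
      exact M.smul_mem _ hg
    rw [Finsupp.sum_mapRange_index (fun i => by rw [map_zero, smul_zero])]
    have h1 : (ℬ.repr d).sum (fun i a => ℬ i • algebraMap F FΩ (a • g)) =
        (ℬ.repr d).sum (fun i a => (a • ℬ i) • algebraMap F FΩ g) := by
      refine Finsupp.sum_congr fun i _ => ?_
      rw [Restrict.smul_smul_algebraMap h]
    have h2 := ℬ.linearCombination_repr d
    rw [Finsupp.linearCombination_apply] at h2
    rw [h1]
    conv_lhs => rw [← h2]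
    rw [Finsupp.sum, Finsupp.sum, Finset.sum_smul]
  -- sums
  have hadd : ∀ r₁ r₂ : FΩ,
      (∃ b : I →₀ F, (∀ i, b i ∈ M) ∧ r₁ = b.sum fun i f => ℬ i • algebraMap F FΩ f) →
      (∃ b : I →₀ F, (∀ i, b i ∈ M) ∧ r₂ = b.sum fun i f => ℬ i • algebraMap F FΩ f) →
      ∃ b : I →₀ F, (∀ i, b i ∈ M) ∧ r₁ + r₂ = b.sum fun i f => ℬ i • algebraMap F FΩ f := by
    rintro r₁ r₂ ⟨b₁, hb₁, rfl⟩ ⟨b₂, hb₂, rfl⟩
    refine ⟨b₁ + b₂, fun i => ?_, ?_⟩
    · rw [Finsupp.add_apply]
      exact M.add_mem (hb₁ i) (hb₂ i)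
    rw [Finsupp.sum_add_index']
    · intro i
      rw [map_zero, smul_zero]
    · intro i f₁ f₂
      rw [map_add, smul_add]
  have hzero : ∃ b : I →₀ F, (∀ i, b i ∈ M) ∧
      (0 : FΩ) = b.sum fun i f => ℬ i • algebraMap F FΩ f :=
    ⟨0, fun i => M.zero_mem, by simp⟩
  refine Submodule.span_induction (p := fun r _ =>
    ∃ b : I →₀ F, (∀ i, b i ∈ M) ∧ r = b.sum fun i f => ℬ i • algebraMap F FΩ f) ?_ hzero ?_ ?_ hr
  · rintro _ ⟨g, hg, rfl⟩
    obtain ⟨b, hbM, hb⟩ := hmono 1 g hg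
    exact ⟨b, hbM, by rw [← hb, one_smul]⟩
  · intro r₁ r₂ _ _ h₁ h₂
    exact hadd r₁ r₂ h₁ h₂
  · rintro d r₁ _ ⟨b, hbM, rfl⟩
    rw [Finsupp.sum, Finset.smul_sum]
    refine Finset.sum_induction _ (fun r => ∃ b : I →₀ F, (∀ i, b i ∈ M) ∧
      r = b.sum fun i f => ℬ i • algebraMap F FΩ f) hadd hzero fun i _ => ?_
    rw [smul_smul]
    exact hmono _ _ (hbM i)

/-- Conversely. -/
theorem sum_mem_span (M : Submodule K F) (b : I →₀ F) (hb : ∀ i, b i ∈ M) :
    (b.sum fun i f => ℬ i • algebraMap F FΩ f) ∈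
      Submodule.span Ω ((fun f : F => algebraMap F FΩ f) '' (M : Set F)) :=
  Submodule.sum_mem _ fun i _ =>
    Submodule.smul_mem _ _ (Submodule.subset_span ⟨b i, hb i, rfl⟩)

/-- The coordinates of a constant are constants. -/
theorem const_eq_sum (h : IsConstExt K F Ω FΩ) (γ : Ω) :
    algebraMap Ω FΩ γ = ((ℬ.repr γ).mapRange (algebraMap K F) (map_zero _)).sum
      fun i f => ℬ i • algebraMap F FΩ f := by
  rw [Finsupp.sum_mapRange_index (fun i => by rw [map_zero, smul_zero])]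
  have h2 := ℬ.linearCombination_repr γ
  rw [Finsupp.linearCombination_apply] at h2
  conv_lhs => rw [← h2]
  rw [Finsupp.sum, map_sum, Finsupp.sum]
  refine Finset.sum_congr rfl fun i _ => ?_
  rw [h.comm, Algebra.smul_def, Algebra.smul_def, map_mul]
  ring

end Coords

/-! ### `S 1` is a prime ideal of the ring `S 0` -/

/-- `S 0 = Ω + S 1` (the residue field of `v` is `K`). -/
theorem exists_const_sub_mem (h : IsConstExt K F Ω FΩ) {v : Place K F} (hv : RR.ResK v)
    {r : FΩ} (hr : r ∈ S Ω FΩ v 0) : ∃ γ : Ω, r - algebraMap Ω FΩ γ ∈ S Ω FΩ v 1 := by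
  refine Submodule.span_induction (p := fun r _ => ∃ γ : Ω, r - algebraMap Ω FΩ γ ∈ S Ω FΩ v 1)
    ?_ ⟨0, by simp⟩ ?_ ?_ hr
  · rintro _ ⟨g, hg, rfl⟩
    have hmem : g ∈ v.toValuationSubring := by
      rcases hg with rfl | hg
      · exact v.toValuationSubring.zero_mem
      · exact Fermat.Agent.S24.mem_of_ord_nonneg v hg
    obtain ⟨κ, hκ⟩ := hv ⟨g, hmem⟩
    refine ⟨algebraMap K Ω κ, ?_⟩
    rw [← h.comm, ← map_sub]
    refine algebraMap_mem_S ?_
    have h2 := RR.val_le_exp_neg_one_of_mem_maximalIdeal v _ hκ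
    have h4 : ((⟨g, hmem⟩ - algebraMap K v.toValuationSubring κ :
        v.toValuationSubring) : F) = g - algebraMap K F κ := rfl
    rw [h4] at h2
    by_cases h0 : g - algebraMap K F κ = 0
    · exact Or.inl h0
    right
    rw [v.adicValuation_eq_exp_neg_ord h0, WithZero.exp_le_exp] at h2
    omega
  · rintro r₁ r₂ _ _ ⟨γ₁, h₁⟩ ⟨γ₂, h₂⟩
    refine ⟨γ₁ + γ₂, ?_⟩
    have e : r₁ + r₂ - algebraMap Ω FΩ (γ₁ + γ₂) =
        (r₁ - algebraMap Ω FΩ γ₁) + (r₂ - algebraMap Ω FΩ γ₂) := by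
      rw [map_add]
      ring
    rw [e]
    exact Submodule.add_mem _ h₁ h₂
  · rintro d r₁ _ ⟨γ, h₁⟩
    refine ⟨d * γ, ?_⟩
    have e : d • r₁ - algebraMap Ω FΩ (d * γ) = d • (r₁ - algebraMap Ω FΩ γ) := by
      rw [map_mul, smul_sub, Algebra.smul_def d (algebraMap Ω FΩ γ)]
    rw [e]
    exact Submodule.smul_mem _ _ h₁

/-- `Ω ∩ S 1 = 0`. -/
theorem eq_zero_of_const_mem (h : IsConstExt K F Ω FΩ) {v : Place K F} {γ : Ω}
    (hγ : algebraMap Ω FΩ γ ∈ S Ω FΩ v 1) : γ = 0 := by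
  classical
  set ℬ := Module.Basis.ofVectorSpace K Ω with hℬ
  obtain ⟨b, hb, e⟩ := exists_coords ℬ h (lev v 1) hγ
  rw [const_eq_sum ℬ h γ] at e
  have e' := eq_of_sum_eq ℬ h _ _ e
  have h0 : ℬ.repr γ = 0 := by
    ext i
    have h1 := hb i
    rw [← e', Finsupp.mapRange_apply] at h1
    rcases h1 with h1 | h1
    · rw [Finsupp.zero_apply]
      exact (map_eq_zero _).1 h1
    · rw [Fermat.Agent.S24.ord_algebraMap] at h1
      omega
  exact (LinearEquiv.map_eq_zero_iff _).1 h0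

/-- `S 1` is prime in `S 0`. -/
theorem mem_S_one_of_mul (h : IsConstExt K F Ω FΩ) {v : Place K F} (hv : RR.ResK v)
    {r s : FΩ} (hr : r ∈ S Ω FΩ v 0) (hs : s ∈ S Ω FΩ v 0) (hrs : r * s ∈ S Ω FΩ v 1) :
    r ∈ S Ω FΩ v 1 ∨ s ∈ S Ω FΩ v 1 := by
  obtain ⟨γ, hγ⟩ := exists_const_sub_mem h hv hr
  obtain ⟨δ, hδ⟩ := exists_const_sub_mem h hv hs
  have h1 : algebraMap Ω FΩ (γ * δ) ∈ S Ω FΩ v 1 := by
    have e : algebraMap Ω FΩ (γ * δ) = r * s - γ • (s - algebraMap Ω FΩ δ) -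
        δ • (r - algebraMap Ω FΩ γ) - (r - algebraMap Ω FΩ γ) * (s - algebraMap Ω FΩ δ) := by
      rw [map_mul, Algebra.smul_def, Algebra.smul_def]
      ring
    rw [e]
    refine Submodule.sub_mem _ (Submodule.sub_mem _ (Submodule.sub_mem _ hrs
      (Submodule.smul_mem _ _ hδ)) (Submodule.smul_mem _ _ hγ)) ?_
    exact S_anti v (by norm_num) (mul_mem_S hγ hδ)
  rcases mul_eq_zero.1 (eq_zero_of_const_mem h h1) with h0 | h0
  · left
    rw [h0, map_zero, sub_zero] at hγ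
    exact hγ
  · right
    rw [h0, map_zero, sub_zero] at hδ
    exact hδ

/-! ### The level -/

variable (Ω FΩ) in
/-- `r` has level `m`: it lies in `S m` and not in `S (m + 1)`. -/
def IsLevel (v : Place K F) (r : FΩ) (m : ℤ) : Prop :=
  r ∈ S Ω FΩ v m ∧ r ∉ S Ω FΩ v (m + 1)

theorem IsLevel.ne_zero {v : Place K F} {r : FΩ} {m : ℤ} (hr : IsLevel Ω FΩ v r m) : r ≠ 0 := by
  rintro rfl
  exact hr.2 (Submodule.zero_mem _)

theorem IsLevel.unique {v : Place K F} {r : FΩ} {m n : ℤ} (hm : IsLevel Ω FΩ v r m)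
    (hn : IsLevel Ω FΩ v r n) : m = n := by
  by_contra hne
  rcases lt_or_gt_of_ne hne with hlt | hlt
  · exact hm.2 (S_anti v (by omega) hn.1)
  · exact hn.2 (S_anti v (by omega) hm.1)

theorem IsLevel.le_of_mem {v : Place K F} {r : FΩ} {m k : ℤ} (hm : IsLevel Ω FΩ v r m)
    (hk : r ∈ S Ω FΩ v k) : k ≤ m := by
  by_contra hlt
  exact hm.2 (S_anti v (by omega) hk)

/-- Every nonzero element of the span has a level. -/
theorem exists_isLevel (h : IsConstExt K F Ω FΩ) (v : Place K F) {r : FΩ}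
    (hr : r ∈ IsConstExt.span K F Ω FΩ) (hr0 : r ≠ 0) : ∃ m : ℤ, IsLevel Ω FΩ v r m := by
  classical
  set ℬ := Module.Basis.ofVectorSpace K Ω with hℬ
  obtain ⟨b, rfl⟩ := Restrict.exists_rep h ℬ hr
  have hb : b ≠ 0 := by
    rintro rfl
    exact hr0 (by simp)
  obtain ⟨m, hm, i₀, hi₀, hi₀m⟩ := Restrict.exists_min_ord v b hb
  refine ⟨m, ?_, fun hmem => ?_⟩
  · refine sum_mem_span ℬ (lev v m) b fun i => ?_
    by_cases hi : i ∈ b.support
    · exact Or.inr (hm i hi)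
    · exact Or.inl (Finsupp.notMem_support_iff.1 hi)
  · obtain ⟨b', hb', e⟩ := exists_coords ℬ h (lev v (m + 1)) hmem
    have e' := eq_of_sum_eq ℬ h _ _ e
    have h1 := hb' i₀
    rw [← e'] at h1
    rcases h1 with h1 | h1
    · exact (Finsupp.mem_support_iff.1 hi₀) h1
    · omega

/-- **Gauss's lemma**: the level is additive on products. -/
theorem IsLevel.mul (h : IsConstExt K F Ω FΩ) {v : Place K F} (hv : RR.ResK v) {r s : FΩ}
    {m n : ℤ} (hr : IsLevel Ω FΩ v r m) (hs : IsLevel Ω FΩ v s n) :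
    IsLevel Ω FΩ v (r * s) (m + n) := by
  refine ⟨mul_mem_S hr.1 hs.1, fun hmem => ?_⟩
  obtain ⟨π, hπ0, hπ1⟩ := Restrict.exists_ord_eq_one v
  have hπk : ∀ k : ℤ, algebraMap F FΩ (π ^ k) ∈ S Ω FΩ v k := fun k =>
    algebraMap_mem_S (Or.inr (by rw [v.ord_zpow, hπ1, mul_one]))
  have hcancel : ∀ k : ℤ, algebraMap F FΩ (π ^ k) * algebraMap F FΩ (π ^ (-k)) = 1 := by
    intro k
    rw [← map_mul, ← zpow_add₀ hπ0, add_neg_cancel, zpow_zero, map_one]
  -- normalise
  have hr₀ : algebraMap F FΩ (π ^ (-m)) * r ∈ S Ω FΩ v 0 := by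
    have := mul_mem_S (hπk (-m)) hr.1
    rwa [neg_add_cancel] at this
  have hs₀ : algebraMap F FΩ (π ^ (-n)) * s ∈ S Ω FΩ v 0 := by
    have := mul_mem_S (hπk (-n)) hs.1
    rwa [neg_add_cancel] at this
  have hrs₀ : (algebraMap F FΩ (π ^ (-m)) * r) * (algebraMap F FΩ (π ^ (-n)) * s) ∈
      S Ω FΩ v 1 := by
    have h1 := mul_mem_S (mul_mem_S (hπk (-m)) (hπk (-n))) hmem
    have e1 : -m + -n + (m + n + 1) = 1 := by ring
    rw [e1] at h1
    have e2 : (algebraMap F FΩ (π ^ (-m)) * r) * (algebraMap F FΩ (π ^ (-n)) * s) =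
        algebraMap F FΩ (π ^ (-m)) * algebraMap F FΩ (π ^ (-n)) * (r * s) := by ring
    rw [e2]
    exact h1
  rcases mem_S_one_of_mul h hv hr₀ hs₀ hrs₀ with h1 | h1
  · apply hr.2
    have h2 := mul_mem_S (hπk m) h1
    rwa [← mul_assoc, hcancel, one_mul] at h2
  · apply hs.2
    have h2 := mul_mem_S (hπk n) h1
    rwa [← mul_assoc, hcancel, one_mul] at h2

/-- Nonzero constants have level `0`. -/
theorem isLevel_const (h : IsConstExt K F Ω FΩ) (v : Place K F) {γ : Ω} (hγ : γ ≠ 0) :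
    IsLevel Ω FΩ v (algebraMap Ω FΩ γ) 0 := by
  refine ⟨?_, fun hmem => hγ (eq_zero_of_const_mem h hmem)⟩
  have h1 : algebraMap F FΩ 1 ∈ S Ω FΩ v 0 :=
    algebraMap_mem_S (Or.inr (by rw [v.ord_one]))
  have h2 := Submodule.smul_mem _ γ h1
  rwa [Algebra.smul_def, map_one, mul_one] at h2

/-- The level of the image of `g : F` is `ord_v g`. -/
theorem isLevel_algebraMap (h : IsConstExt K F Ω FΩ) (v : Place K F) {g : F} (hg : g ≠ 0) :
    IsLevel Ω FΩ v (algebraMap F FΩ g) (v.ord g) := by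
  refine ⟨algebraMap_mem_S (Or.inr le_rfl), fun hmem => ?_⟩
  have h1 : algebraMap F FΩ g⁻¹ ∈ S Ω FΩ v (-v.ord g) :=
    algebraMap_mem_S (Or.inr (by rw [v.ord_inv]))
  have h2 := mul_mem_S hmem h1
  have e1 : v.ord g + 1 + -v.ord g = 1 := by ring
  rw [e1, ← map_mul, mul_inv_cancel₀ hg, map_one, ← map_one (algebraMap Ω FΩ)] at h2
  exact one_ne_zero (eq_zero_of_const_mem h h2)

/-! ### The raw valuation on `FΩ` -/

variable (Ω) in
/-- `z = a / b` with `a`, `b` in the span of levels `p`, `q`, and `m = p - q`. -/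
def IsVal (v : Place K F) (z : FΩ) (m : ℤ) : Prop :=
  ∃ (a b : FΩ) (p q : ℤ), IsLevel Ω FΩ v a p ∧ IsLevel Ω FΩ v b q ∧ z * b = a ∧ m = p - q

theorem IsVal.ne_zero {v : Place K F} {z : FΩ} {m : ℤ} (hz : IsVal Ω v z m) : z ≠ 0 := by
  rintro rfl
  obtain ⟨a, b, p, q, ha, -, e, -⟩ := hz
  rw [zero_mul] at e
  exact ha.ne_zero e.symm

theorem exists_isVal (h : IsConstExt K F Ω FΩ) (v : Place K F) {z : FΩ} (hz : z ≠ 0) :
    ∃ m : ℤ, IsVal Ω v z m := by
  obtain ⟨a, ha, b, hb, hb0, e⟩ := h.exists_div z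
  have ha0 : a ≠ 0 := by
    rw [← e]
    exact mul_ne_zero hz hb0
  obtain ⟨p, hp⟩ := exists_isLevel h v ha ha0
  obtain ⟨q, hq⟩ := exists_isLevel h v hb hb0
  exact ⟨p - q, a, b, p, q, hp, hq, e, rfl⟩

theorem IsVal.unique (h : IsConstExt K F Ω FΩ) {v : Place K F} (hv : RR.ResK v) {z : FΩ}
    {m m' : ℤ} (hm : IsVal Ω v z m) (hm' : IsVal Ω v z m') : m = m' := by
  obtain ⟨a, b, p, q, ha, hb, e, rfl⟩ := hm
  obtain ⟨a', b', p', q', ha', hb', e', rfl⟩ := hm'
  have h1 : IsLevel Ω FΩ v (a * b') (p + q') := ha.mul h hv hb'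
  have h2 : IsLevel Ω FΩ v (a' * b) (p' + q) := ha'.mul h hv hb
  have e3 : a * b' = a' * b := by
    rw [← e, ← e']
    ring
  rw [e3] at h1
  have := h1.unique h2
  omega

theorem IsVal.mul (h : IsConstExt K F Ω FΩ) {v : Place K F} (hv : RR.ResK v) {z z' : FΩ}
    {m m' : ℤ} (hm : IsVal Ω v z m) (hm' : IsVal Ω v z' m') : IsVal Ω v (z * z') (m + m') := by
  obtain ⟨a, b, p, q, ha, hb, e, rfl⟩ := hm
  obtain ⟨a', b', p', q', ha', hb', e', rfl⟩ := hm'
  refine ⟨a * a', b * b', p + p', q + q', ha.mul h hv ha', hb.mul h hv hb', ?_, by ring⟩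
  rw [← e, ← e']
  ring

theorem IsVal.add (h : IsConstExt K F Ω FΩ) {v : Place K F} (hv : RR.ResK v) {z z' : FΩ}
    {m m' : ℤ} (hm : IsVal Ω v z m) (hm' : IsVal Ω v z' m') (hne : z + z' ≠ 0) :
    ∃ n : ℤ, IsVal Ω v (z + z') n ∧ min m m' ≤ n := by
  obtain ⟨a, b, p, q, ha, hb, e, rfl⟩ := hm
  obtain ⟨a', b', p', q', ha', hb', e', rfl⟩ := hm'
  have hbb : IsLevel Ω FΩ v (b * b') (q + q') := hb.mul h hv hb'
  have hab : IsLevel Ω FΩ v (a * b') (p + q') := ha.mul h hv hb'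
  have hab' : IsLevel Ω FΩ v (a' * b) (p' + q) := ha'.mul h hv hb
  have ec : (z + z') * (b * b') = a * b' + a' * b := by
    rw [← e, ← e']
    ring
  have hc0 : a * b' + a' * b ≠ 0 := by
    rw [← ec]
    exact mul_ne_zero hne hbb.ne_zero
  have hcmem : a * b' + a' * b ∈ S Ω FΩ v (min (p + q') (p' + q)) :=
    Submodule.add_mem _ (S_anti v (min_le_left _ _) hab.1) (S_anti v (min_le_right _ _) hab'.1)
  obtain ⟨n, hn⟩ := exists_isLevel h v (S_le_span v _ hcmem) hc0
  have hle := hn.le_of_mem hcmem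
  refine ⟨n - (q + q'), ⟨_, _, n, q + q', hn, hbb, ec, rfl⟩, ?_⟩
  rcases min_cases (p + q') (p' + q) with ⟨h1, -⟩ | ⟨h1, -⟩ <;>
  rcases min_cases (p - q) (p' - q') with ⟨h2, -⟩ | ⟨h2, -⟩ <;> omega

theorem isVal_const (h : IsConstExt K F Ω FΩ) (v : Place K F) {γ : Ω} (hγ : γ ≠ 0) :
    IsVal Ω v (algebraMap Ω FΩ γ) 0 := by
  refine ⟨algebraMap Ω FΩ γ, algebraMap Ω FΩ 1, 0, 0, isLevel_const h v hγ,
    isLevel_const h v one_ne_zero, ?_, by ring⟩
  rw [map_one, mul_one]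

theorem isVal_algebraMap (h : IsConstExt K F Ω FΩ) (v : Place K F) {g : F} (hg : g ≠ 0) :
    IsVal Ω v (algebraMap F FΩ g) (v.ord g) := by
  refine ⟨algebraMap F FΩ g, algebraMap Ω FΩ 1, v.ord g, 0, isLevel_algebraMap h v hg,
    isLevel_const h v one_ne_zero, ?_, by ring⟩
  rw [map_one, mul_one]

open Classical in
variable (Ω) in
/-- The raw Gauss valuation of `FΩ` over `v`. -/
noncomputable def rawVal (v : Place K F) (z : FΩ) : ℤ :=
  if hz : ∃ m : ℤ, IsVal Ω v z m then Classical.choose hz else 0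

theorem rawVal_eq (h : IsConstExt K F Ω FΩ) {v : Place K F} (hv : RR.ResK v) {z : FΩ} {m : ℤ}
    (hm : IsVal Ω v z m) : rawVal Ω v z = m := by
  have hz : ∃ m : ℤ, IsVal Ω v z m := ⟨m, hm⟩
  rw [rawVal, dif_pos hz]
  exact (Classical.choose_spec hz).unique h hv hm

theorem isVal_rawVal (h : IsConstExt K F Ω FΩ) (v : Place K F) {z : FΩ} (hz : z ≠ 0) :
    IsVal Ω v z (rawVal Ω v z) := by
  have hz' : ∃ m : ℤ, IsVal Ω v z m := exists_isVal h v hz
  rw [rawVal, dif_pos hz']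
  exact Classical.choose_spec hz'

/-! ### The Gauss place -/

/-- **Existence of the extension of a place** of `F/K` with residue field `K` to the constant
field extension `FΩ/Ω`. -/
theorem exists_extension (h : IsConstExt K F Ω FΩ) (v : Place K F) (hv : RR.ResK v) :
    ∃ w : Place Ω FΩ, ∀ g : F, w.ord (algebraMap F FΩ g) = v.ord g := by
  obtain ⟨π, hπ0, hπ1⟩ := Restrict.exists_ord_eq_one v
  have hιπ : algebraMap F FΩ π ≠ 0 := (map_ne_zero _).2 hπ0
  have hvalπ : rawVal Ω v (algebraMap F FΩ π) = 1 := by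
    rw [rawVal_eq h hv (isVal_algebraMap h v hπ0), hπ1]
  obtain ⟨w, e, he, hw⟩ := Fermat.Agent.S24.PlaceOfVal.exists_place_of_val (K := Ω)
    (rawVal Ω v)
    (fun f g hf hg => rawVal_eq h hv ((isVal_rawVal h v hf).mul h hv (isVal_rawVal h v hg)))
    (fun f g hf hg hfg => by
      obtain ⟨n, hn, hle⟩ := (isVal_rawVal h v hf).add h hv (isVal_rawVal h v hg) hfg
      rw [rawVal_eq h hv hn]
      exact hle)
    (fun c hc => rawVal_eq h hv (isVal_const h v hc))
    ⟨algebraMap F FΩ π, hιπ, by rw [hvalπ]; exact one_ne_zero⟩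
  have he1 : (e : ℤ) = 1 := by
    have h1 := hw _ hιπ
    rw [hvalπ] at h1
    exact Int.eq_one_of_mul_eq_one_right (by positivity) h1.symm
  refine ⟨w, fun g => ?_⟩
  rcases eq_or_ne g 0 with rfl | hg
  · simp
  · have h1 := hw _ ((map_ne_zero (algebraMap F FΩ)).2 hg)
    rw [rawVal_eq h hv (isVal_algebraMap h v hg), he1, one_mul] at h1
    exact h1.symm

/-- The Gauss extension of `v` to `FΩ`. -/
noncomputable def gaussPlace (h : IsConstExt K F Ω FΩ) (v : Place K F) (hv : RR.ResK v) :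
    Place Ω FΩ :=
  Classical.choose (exists_extension h v hv)

theorem ord_gaussPlace (h : IsConstExt K F Ω FΩ) (v : Place K F) (hv : RR.ResK v) (g : F) :
    (gaussPlace h v hv).ord (algebraMap F FΩ g) = v.ord g :=
  Classical.choose_spec (exists_extension h v hv) g

/-- Uniqueness: a place of `FΩ` restricting to `e · ord_v`, `e > 0`, is the Gauss place. -/
theorem eq_gaussPlace (h : IsConstExt K F Ω FΩ) (v : Place K F) (hv : RR.ResK v)
    (w : Place Ω FΩ) (e : ℕ) (he : 0 < e)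
    (hw : ∀ g : F, w.ord (algebraMap F FΩ g) = e * v.ord g) : w = gaussPlace h v hv :=
  Restrict.eq_of_restrict h v hv (ord_gaussPlace h v hv) e he hw

theorem eq_gaussPlace_of_ord (h : IsConstExt K F Ω FΩ) (v : Place K F) (hv : RR.ResK v)
    (w : Place Ω FΩ) (hw : ∀ g : F, w.ord (algebraMap F FΩ g) = v.ord g) :
    w = gaussPlace h v hv :=
  eq_gaussPlace h v hv w 1 Nat.one_pos (fun g => by rw [hw, Nat.cast_one, one_mul])

/-- Distinct places have distinct Gauss extensions. -/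
theorem gaussPlace_injective (h : IsConstExt K F Ω FΩ) {v v' : Place K F} (hv : RR.ResK v)
    (hv' : RR.ResK v') (e : gaussPlace h v hv = gaussPlace h v' hv') : v = v' := by
  refine Fermat.Agent.S24.place_eq_of_ord fun f hf => ?_
  rw [← ord_gaussPlace h v' hv' f, ← e, ord_gaussPlace h v hv f]
  exact hf

/-- **The Gauss formula**: for `K`-linearly independent constants `c i`, the order of
`∑ c i • b i` at the Gauss place is the minimum of the orders of the `b i` at `v`. -/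
theorem ord_gaussPlace_sum (h : IsConstExt K F Ω FΩ) (v : Place K F) (hv : RR.ResK v)
    {I : Type*} (c : I → Ω) (hc : LinearIndependent K c) (b : I →₀ F) (m : ℤ)
    (hm : ∀ i ∈ b.support, m ≤ v.ord (b i)) (hm' : ∃ i ∈ b.support, v.ord (b i) = m) :
    (b.sum fun i f => c i • algebraMap F FΩ f) ≠ 0 ∧
      (gaussPlace h v hv).ord (b.sum fun i f => c i • algebraMap F FΩ f) = m := by
  have h1 := Restrict.ord_sum_eq h hv (gaussPlace h v hv) 1 Nat.one_pos
    (fun g => by rw [ord_gaussPlace, Nat.cast_one, one_mul]) c hc b m hm hm'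
  rw [Nat.cast_one, one_mul] at h1
  exact h1

/-- The extension map of places, for a function field all of whose places have residue
field `K`. -/
noncomputable def bcPlace (h : IsConstExt K F Ω FΩ) (hres : ∀ v : Place K F, RR.ResK v) :
    Place K F → Place Ω FΩ :=
  fun v => gaussPlace h v (hres v)

theorem ord_bcPlace (h : IsConstExt K F Ω FΩ) (hres : ∀ v : Place K F, RR.ResK v)
    (v : Place K F) (f : F) : (bcPlace h hres v).ord (algebraMap F FΩ f) = v.ord f :=
  ord_gaussPlace h v (hres v) f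

theorem bcPlace_injective (h : IsConstExt K F Ω FΩ) (hres : ∀ v : Place K F, RR.ResK v) :
    Function.Injective (bcPlace h hres) :=
  Restrict.bc_injective (bcPlace h hres) (ord_bcPlace h hres)

/-- A place of `FΩ` which is not a Gauss extension is trivial on `F`. -/
theorem ord_eq_zero_of_notMem_range (h : IsConstExt K F Ω FΩ)
    (hres : ∀ v : Place K F, RR.ResK v) {w : Place Ω FΩ}
    (hw : w ∉ Set.range (bcPlace h hres)) (f : F) : w.ord (algebraMap F FΩ f) = 0 :=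
  Restrict.ord_eq_zero_of_notMem_range h hres (bcPlace h hres) (ord_bcPlace h hres) hw f

end Fermat.Agent.S27P.BC.GaussPlace93
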