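/-
S27 / (BC) row 12 (helper81): GENERIC PLACES of the constant field extension.

Setting of `S27P/BC/Defs.lean`: `h : IsConstExt K F Ω FΩ`, `F/K` a function field of one variable
(`hF : IsFF1 K F x`), `Ω` algebraically closed.  Vocabulary of values: helper19's
`Gen.Val P f c` (`f ≡ c` modulo the maximal ideal of the place `P`).

A place `w` of `FΩ/Ω` is GENERIC (`IsGen F w`) when it is trivial on (the image of) `F`.

* `isGen_of_val`     : a place at which `x` takes a value `t ∉ K` is generic;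
* `valueMap`         : the value map `χ_w : F →ₐ[K] Ω` of a generic place (`val_valueMap`);
* `isGen_smul`, `valueMap_smul` : `Aut(Ω/K)`-equivariance, `χ_{σ w} = σ ∘ χ_w`;
* `exists_place_val` : **existence** — every `K`-embedding `χ : F →ₐ[K] Ω` is the value map of a
  place of `FΩ` (no separability hypothesis);
* `ord_sub_eq_one`   : for `F/K(x)` separable, generic places are **unramified** over `x`;
* `eq_of_forall_val` : for `F/K(x)` separable, the place with value map `χ` is **unique**;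
* `genPlace`, `val_genPlace`, `genPlace_injective`, `smul_genPlace`, `exists_eq_genPlace`.

No norm formula is used: existence comes from the conjugacy of embeddings under `Aut(Ω/K)`
(`Gen.AutExt.exists_algEquiv_comp_eq_of_trdeg_lt`), unramifiedness and uniqueness from counting
the `[F : K(x)]` embeddings over `x ↦ t` against the fundamental identity on `FΩ`.
-/
import Mathlib
import Fermat.Agent.S27P.BC.Defs
import Fermat.Agent.S27P.BC.Basic
import Fermat.Agent.S27P.BC.Restrict
import Fermat.Agent.S27P.BC.Field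
import Fermat.Agent.S27P.Gen.Values
import Fermat.Agent.S27P.Gen.AutExt

set_option autoImplicit false
set_option linter.style.haveILetI false

noncomputable section

namespace Fermat.Agent.S27P.BC.Generic

open AlgebraicCurve IntermediateField
open Fermat.Agent.S27P.BC Fermat.Agent.Lib.FF Fermat.Agent.S27P.Gen Fermat.Agent.S27P.Gen.Values

universe u v w x

variable {K : Type u} {F : Type v} {Ω : Type w} {FΩ : Type x} [Field K] [Field F]
  [Field Ω] [Field FΩ] [Algebra K F] [Algebra K Ω] [Algebra F FΩ] [Algebra Ω FΩ]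

/-! ### Generic places and their value maps -/

variable (F) in
/-- `w` is a **generic place** of `FΩ`: it is trivial on (the image of) `F`. -/
def IsGen (w : Place Ω FΩ) : Prop := ∀ f : F, w.ord (algebraMap F FΩ f) = 0

/-- Every function of `F` has a value at a generic place. -/
theorem exists_val_of_isGen {y : FΩ} (hΩ : IsFF1 Ω FΩ y) {w : Place Ω FΩ} (hw : IsGen F w)
    (f : F) : ∃ c : Ω, Val w (algebraMap F FΩ f) c :=
  exists_val_of_ord_nonneg hΩ w (le_of_eq (hw f).symm)

/-- The value of `f : F` at a generic place. -/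
def valueFun {y : FΩ} (hΩ : IsFF1 Ω FΩ y) {w : Place Ω FΩ} (hw : IsGen F w) (f : F) : Ω :=
  Classical.choose (exists_val_of_isGen hΩ hw f)

theorem val_valueFun {y : FΩ} (hΩ : IsFF1 Ω FΩ y) {w : Place Ω FΩ} (hw : IsGen F w) (f : F) :
    Val w (algebraMap F FΩ f) (valueFun hΩ hw f) :=
  Classical.choose_spec (exists_val_of_isGen hΩ hw f)

/-- **The value map** `χ_w : F →ₐ[K] Ω` of a generic place `w`. -/
def valueMap (h : IsConstExt K F Ω FΩ) {y : FΩ} (hΩ : IsFF1 Ω FΩ y) {w : Place Ω FΩ}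
    (hw : IsGen F w) : F →ₐ[K] Ω where
  toFun := valueFun hΩ hw
  map_one' := val_unique (val_valueFun hΩ hw 1) (by rw [map_one]; exact val_one w)
  map_mul' f g := val_unique (val_valueFun hΩ hw (f * g))
    (by rw [map_mul]; exact val_mul (val_valueFun hΩ hw f) (val_valueFun hΩ hw g))
  map_zero' := val_unique (val_valueFun hΩ hw 0) (by rw [map_zero]; exact val_zero w)
  map_add' f g := val_unique (val_valueFun hΩ hw (f + g))
    (by rw [map_add]; exact val_add (val_valueFun hΩ hw f) (val_valueFun hΩ hw g))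
  commutes' a := val_unique (val_valueFun hΩ hw (algebraMap K F a))
    (by rw [h.comm]; exact val_algebraMap w _)

/-- The defining property of the value map. -/
theorem val_valueMap (h : IsConstExt K F Ω FΩ) {y : FΩ} (hΩ : IsFF1 Ω FΩ y) {w : Place Ω FΩ}
    (hw : IsGen F w) (f : F) : Val w (algebraMap F FΩ f) (valueMap h hΩ hw f) :=
  val_valueFun hΩ hw f

theorem valueMap_eq_of_val (h : IsConstExt K F Ω FΩ) {y : FΩ} (hΩ : IsFF1 Ω FΩ y)
    {w : Place Ω FΩ} (hw : IsGen F w) {f : F} {c : Ω} (hc : Val w (algebraMap F FΩ f) c) :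
    valueMap h hΩ hw f = c :=
  val_unique (val_valueMap h hΩ hw f) hc

/-- A place at which all functions of `F` take the values prescribed by an embedding is
generic. -/
theorem isGen_of_forall_val {w : Place Ω FΩ} (χ : F →ₐ[K] Ω)
    (hw : ∀ f : F, Val w (algebraMap F FΩ f) (χ f)) : IsGen F w := by
  intro f
  rcases eq_or_ne f 0 with rfl | hf
  · rw [map_zero]; exact w.ord_zero
  · exact ord_eq_zero_of_val (hw f) ((map_ne_zero χ).2 hf)

/-- **A place at which `x` takes a value outside `K` is generic.** -/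
theorem isGen_of_val (h : IsConstExt K F Ω FΩ) {x : F} (hF : IsFF1 K F x) {w : Place Ω FΩ}
    {t : Ω} (ht : t ∉ (algebraMap K Ω).range) (hw : Val w (algebraMap F FΩ x) t) :
    IsGen F w := by
  intro f
  by_contra hf
  obtain ⟨v, e, he, hv⟩ := Restrict.exists_place_restrict h w hf
  have he' : (0 : ℤ) < (e : ℤ) := by exact_mod_cast he
  rcases exists_val_or_pole hF v x with ⟨c, hc⟩ | hpole
  · rw [val_iff] at hc
    rcases hc with h0 | hpos
    · exact x_sub_ne_zero hF c h0
    · have e1 : algebraMap F FΩ x - algebraMap Ω FΩ (algebraMap K Ω c) =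
          algebraMap F FΩ (x - algebraMap K F c) := by rw [map_sub, h.comm]
      have h1 : Val w (algebraMap F FΩ x) (algebraMap K Ω c) := by
        rw [val_iff, e1, hv]
        exact Or.inr (mul_pos he' hpos)
      exact ht ⟨c, val_unique h1 hw⟩
  · have h1 := ord_nonneg_of_val hw
    rw [hv] at h1
    nlinarith

/-- The value of `x` at a generic place is not in `K`. -/
theorem val_notMem_range (h : IsConstExt K F Ω FΩ) {x : F} (hx : Transcendental K x)
    {w : Place Ω FΩ} (hw : IsGen F w) {t : Ω} (ht : Val w (algebraMap F FΩ x) t) :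
    t ∉ (algebraMap K Ω).range := by
  rintro ⟨c, rfl⟩
  have hne : x - algebraMap K F c ≠ 0 := fun h0 =>
    hx (sub_eq_zero.mp h0 ▸ isAlgebraic_algebraMap c)
  have e1 : algebraMap F FΩ x - algebraMap Ω FΩ (algebraMap K Ω c) =
      algebraMap F FΩ (x - algebraMap K F c) := by rw [map_sub, h.comm]
  rw [val_iff, e1, hw, map_eq_zero] at ht
  rcases ht with h0 | h0
  · exact hne h0
  · exact lt_irrefl _ h0

/-! ### Equivariance under `Aut(Ω/K)` -/

/-- Values transform semilinearly. -/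
theorem val_smul_semilinear (g : SemilinearAut Ω FΩ) {P : Place Ω FΩ} {f : FΩ} {c : Ω}
    (hv : Val P f c) : Val (g • P) (g • f) (SemilinearAut.baseAut g c) := by
  rw [val_iff] at hv ⊢
  have e1 : g • f - algebraMap Ω FΩ (SemilinearAut.baseAut g c) = g • (f - algebraMap Ω FΩ c) := by
    rw [smul_sub, SemilinearAut.smul_algebraMap]
  rw [e1, SemilinearAut.ord_smul, smul_eq_zero_iff_eq]
  exact hv

theorem val_smul_algebraMap (h : IsConstExt K F Ω FΩ) (σ : Ω ≃ₐ[K] Ω) {w : Place Ω FΩ} {f : F}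
    {c : Ω} (hv : Val w (algebraMap F FΩ f) c) :
    Val (IsConstExt.semilinearAut h σ • w) (algebraMap F FΩ f) (σ c) := by
  have h1 := val_smul_semilinear (IsConstExt.semilinearAut h σ) hv
  rwa [IsConstExt.semilinearAut_smul_algebraMap] at h1

theorem isGen_smul (h : IsConstExt K F Ω FΩ) (σ : Ω ≃ₐ[K] Ω) {w : Place Ω FΩ}
    (hw : IsGen F w) : IsGen F (IsConstExt.semilinearAut h σ • w) := by
  intro f
  have h1 := SemilinearAut.ord_smul (IsConstExt.semilinearAut h σ) w (algebraMap F FΩ f)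
  rw [IsConstExt.semilinearAut_smul_algebraMap] at h1
  rw [h1, hw f]

/-- `χ_{σ w} = σ ∘ χ_w`. -/
theorem valueMap_smul (h : IsConstExt K F Ω FΩ) {y : FΩ} (hΩ : IsFF1 Ω FΩ y) (σ : Ω ≃ₐ[K] Ω)
    {w : Place Ω FΩ} (hw : IsGen F w) (f : F) :
    valueMap h hΩ (isGen_smul h σ hw) f = σ (valueMap h hΩ hw f) :=
  valueMap_eq_of_val h hΩ _ (val_smul_algebraMap h σ (val_valueMap h hΩ hw f))

/-! ### Existence -/

section Trdeg

open scoped IntermediateField.algebraAdjoinAdjoin

/-- A function field of one variable has finite transcendence degree. -/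
theorem trdeg_lt_aleph0 (x : F) [FiniteDimensional K⟮x⟯ F] :
    Algebra.trdeg K F < Cardinal.aleph0 := by
  haveI : Algebra.IsAlgebraic K⟮x⟯ F := Algebra.IsAlgebraic.of_finite _ _
  haveI : Algebra.IsAlgebraic (Algebra.adjoin K {x}) F :=
    Algebra.IsAlgebraic.trans (Algebra.adjoin K {x}) K⟮x⟯ F
  refine lt_of_le_of_lt (Algebra.IsAlgebraic.trdeg_le_cardinalMk K ({x} : Set F)) ?_
  simp

end Trdeg

/-- The value at `x` of an embedding is not in `K`. -/
theorem algHom_notMem_range {x : F} (hx : Transcendental K x) (χ : F →ₐ[K] Ω) :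
    χ x ∉ (algebraMap K Ω).range := by
  rintro ⟨c, hc⟩
  have h1 : χ x = χ (algebraMap K F c) := by rw [χ.commutes]; exact hc.symm
  exact hx (χ.injective h1 ▸ isAlgebraic_algebraMap c)

/-- **Existence of the generic place of an embedding**: every `K`-embedding `χ : F →ₐ[K] Ω` is
the value map of a place of `FΩ`. -/
theorem exists_place_val [IsAlgClosed Ω] (h : IsConstExt K F Ω FΩ) {x : F} (hF : IsFF1 K F x)
    (χ : F →ₐ[K] Ω) : ∃ w : Place Ω FΩ, ∀ f : F, Val w (algebraMap F FΩ f) (χ f) := by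
  have hΩ := Field.isFF1_map h hF
  have ht := algHom_notMem_range hF.transcendental χ
  obtain ⟨w₀, hw₀⟩ := hΩ.exists_zero_sub (χ x)
  have hv₀ : Val w₀ (algebraMap F FΩ x) (χ x) := val_iff.mpr (Or.inr hw₀)
  have hgen := isGen_of_val h hF ht hv₀
  haveI := hF.finiteDimensional
  obtain ⟨σ, hσ⟩ := AutExt.exists_algEquiv_comp_eq_of_trdeg_lt (trdeg_lt_aleph0 x)
    (valueMap h hΩ hgen) χ
  refine ⟨IsConstExt.semilinearAut h σ • w₀, fun f => ?_⟩
  rw [← hσ f]
  exact val_smul_algebraMap h σ (val_valueMap h hΩ hgen f)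

/-! ### Counting embeddings -/

/-- For `F/K(x)` finite separable and `Ω` algebraically closed, an embedding `χ₀ : F →ₐ[K] Ω`
has `[F : K(x)]` companions with the same value at `x`. -/
theorem exists_embeddings [IsAlgClosed Ω] {x : F} [FiniteDimensional K⟮x⟯ F]
    [Algebra.IsSeparable K⟮x⟯ F] (χ₀ : F →ₐ[K] Ω) :
    ∃ s : Finset (F →ₐ[K] Ω), s.card = Module.finrank K⟮x⟯ F ∧ ∀ χ ∈ s, χ x = χ₀ x := by
  classical
  letI : Algebra K⟮x⟯ Ω := (χ₀.toRingHom.comp (algebraMap K⟮x⟯ F)).toAlgebra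
  have hcard : Fintype.card (F →ₐ[K⟮x⟯] Ω) = Module.finrank K⟮x⟯ F := AlgHom.card K⟮x⟯ F Ω
  let Φ : (F →ₐ[K⟮x⟯] Ω) → (F →ₐ[K] Ω) := fun ψ =>
    { toRingHom := ψ.toRingHom
      commutes' := fun a => by
        have h1 : algebraMap K F a = algebraMap K⟮x⟯ F (algebraMap K K⟮x⟯ a) := rfl
        show ψ (algebraMap K F a) = algebraMap K Ω a
        rw [h1, ψ.commutes]
        show χ₀ (algebraMap K⟮x⟯ F (algebraMap K K⟮x⟯ a)) = _
        rw [← h1, χ₀.commutes] }
  have hΦ : Function.Injective Φ := fun ψ ψ' hψ => by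
    ext f
    exact DFunLike.congr_fun hψ f
  refine ⟨Finset.univ.image Φ, ?_, ?_⟩
  · rw [Finset.card_image_of_injective _ hΦ, Finset.card_univ, hcard]
  · intro χ hχ
    obtain ⟨ψ, -, rfl⟩ := Finset.mem_image.1 hχ
    show ψ x = χ₀ x
    have h2 : ψ (algebraMap K⟮x⟯ F (AdjoinSimple.gen K x)) =
        χ₀ (algebraMap K⟮x⟯ F (AdjoinSimple.gen K x)) := ψ.commutes _
    rwa [AdjoinSimple.algebraMap_gen] at h2

/-! ### Unramifiedness and uniqueness (separable case) -/

/-- **The fibre of `x` over a generic value** (`F/K(x)` separable): all its places are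
unramified, and they are separated by the values of the functions of `F`. -/
theorem fibre_count [IsAlgClosed Ω] (h : IsConstExt K F Ω FΩ) {x : F} (hF : IsFF1 K F x)
    [Algebra.IsSeparable K⟮x⟯ F] (t : Ω) (ht : t ∉ (algebraMap K Ω).range) :
    (∀ w : Place Ω FΩ, Val w (algebraMap F FΩ x) t →
        w.ord (algebraMap F FΩ x - algebraMap Ω FΩ t) = 1) ∧
      (∀ w w' : Place Ω FΩ, Val w (algebraMap F FΩ x) t → Val w' (algebraMap F FΩ x) t →
        (∀ (f : F) (c : Ω), Val w (algebraMap F FΩ f) c → Val w' (algebraMap F FΩ f) c) →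
        w = w') := by
  classical
  have hΩ := Field.isFF1_map h hF
  haveI := hF.finiteDimensional
  obtain ⟨hfd, hrank⟩ := Field.finrank_map h hF.transcendental (Ω := Ω) (FΩ := FΩ)
  haveI := hfd
  obtain ⟨hfin, hsum⟩ := Fermat.Agent.Lib.FF.CharP.placesOver_finite_sum (algebraMap F FΩ x)
    (Field.transcendental_map h hF.transcendental) t
  rw [hrank] at hsum
  have hmem : ∀ w, w ∈ hfin.toFinset ↔ Val w (algebraMap F FΩ x) t := by
    intro w
    rw [Set.Finite.mem_toFinset, Set.mem_ofPred_eq, val_iff]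
    constructor
    · exact Or.inr
    · rintro (h0 | h0)
      · exact absurd h0 (x_sub_ne_zero hΩ t)
      · exact h0
  have hgen : ∀ w, Val w (algebraMap F FΩ x) t → IsGen F w := fun w hw =>
    isGen_of_val h hF ht hw
  -- a base point and its value map
  obtain ⟨w₀, hw₀⟩ := hΩ.exists_zero_sub t
  have hv₀ : Val w₀ (algebraMap F FΩ x) t := val_iff.mpr (Or.inr hw₀)
  have hχ₀ : valueMap h hΩ (hgen w₀ hv₀) x = t := valueMap_eq_of_val h hΩ _ hv₀
  obtain ⟨s, hscard, hs⟩ := exists_embeddings (x := x) (valueMap h hΩ (hgen w₀ hv₀))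
  -- the places of the embeddings
  have hex : ∀ χ : F →ₐ[K] Ω, ∃ w : Place Ω FΩ, ∀ f : F, Val w (algebraMap F FΩ f) (χ f) :=
    exists_place_val h hF
  choose P hP using hex
  have hPinj : Function.Injective P := by
    intro χ χ' hχ
    ext f
    have h1 := hP χ f
    rw [hχ] at h1
    exact val_unique h1 (hP χ' f)
  have hPS : ∀ χ ∈ s, P χ ∈ hfin.toFinset := by
    intro χ hχ
    rw [hmem]
    have h1 := hP χ x
    rwa [hs χ hχ, hχ₀] at h1
  -- counting
  have hle : s.card ≤ hfin.toFinset.card :=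
    Finset.card_le_card_of_injOn P hPS hPinj.injOn
  have hone : ∀ w ∈ hfin.toFinset,
      0 ≤ w.ord (algebraMap F FΩ x - algebraMap Ω FΩ t) - 1 := by
    intro w hw
    have h1 : 0 < w.ord (algebraMap F FΩ x - algebraMap Ω FΩ t) := by
      rw [Set.Finite.mem_toFinset] at hw
      exact hw
    omega
  have hsum' : ∑ w ∈ hfin.toFinset, (w.ord (algebraMap F FΩ x - algebraMap Ω FΩ t) - 1) =
      (Module.finrank K⟮x⟯ F : ℤ) - hfin.toFinset.card := by
    rw [Finset.sum_sub_distrib, hsum]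
    simp
  have hnn := Finset.sum_nonneg hone
  rw [hsum'] at hnn
  have h3 : (s.card : ℤ) ≤ hfin.toFinset.card := by exact_mod_cast hle
  rw [hscard] at h3
  have h4 : (hfin.toFinset.card : ℤ) = Module.finrank K⟮x⟯ F := by omega
  have hz : ∑ w ∈ hfin.toFinset, (w.ord (algebraMap F FΩ x - algebraMap Ω FΩ t) - 1) = 0 := by
    rw [hsum', h4]
    ring
  have hord : ∀ w ∈ hfin.toFinset, w.ord (algebraMap F FΩ x - algebraMap Ω FΩ t) = 1 := by
    intro w hw
    have h5 := (Finset.sum_eq_zero_iff_of_nonneg hone).1 hz w hw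
    omega
  have himg : s.image P = hfin.toFinset := by
    refine Finset.eq_of_subset_of_card_le (Finset.image_subset_iff.2 hPS) ?_
    rw [Finset.card_image_of_injective _ hPinj, hscard]
    exact_mod_cast h4.le
  refine ⟨fun w hw => hord w ((hmem w).2 hw), fun w w' hw hw' hval => ?_⟩
  have hwS : w ∈ s.image P := by rw [himg]; exact (hmem w).2 hw
  have hwS' : w' ∈ s.image P := by rw [himg]; exact (hmem w').2 hw'
  obtain ⟨χ, -, rfl⟩ := Finset.mem_image.1 hwS
  obtain ⟨χ', -, rfl⟩ := Finset.mem_image.1 hwS'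
  have hχ : χ = χ' := by
    ext f
    exact val_unique (hval f (χ f) (hP χ f)) (hP χ' f)
  rw [hχ]

/-- **Generic places are unramified over `x`** (`F/K(x)` separable). -/
theorem ord_sub_eq_one [IsAlgClosed Ω] (h : IsConstExt K F Ω FΩ) {x : F} (hF : IsFF1 K F x)
    [Algebra.IsSeparable K⟮x⟯ F] {w : Place Ω FΩ} {t : Ω} (ht : t ∉ (algebraMap K Ω).range)
    (hw : Val w (algebraMap F FΩ x) t) :
    w.ord (algebraMap F FΩ x - algebraMap Ω FΩ t) = 1 :=
  (fibre_count h hF t ht).1 w hw

/-- **Uniqueness of the generic place of an embedding** (`F/K(x)` separable). -/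
theorem eq_of_forall_val [IsAlgClosed Ω] (h : IsConstExt K F Ω FΩ) {x : F} (hF : IsFF1 K F x)
    [Algebra.IsSeparable K⟮x⟯ F] (χ : F →ₐ[K] Ω) {w w' : Place Ω FΩ}
    (hw : ∀ f : F, Val w (algebraMap F FΩ f) (χ f))
    (hw' : ∀ f : F, Val w' (algebraMap F FΩ f) (χ f)) : w = w' :=
  (fibre_count h hF (χ x) (algHom_notMem_range hF.transcendental χ)).2 w w' (hw x) (hw' x)
    (fun f c hc => by rw [← val_unique (hw f) hc]; exact hw' f)

/-! ### The generic place of an embedding -/

/-- **The generic place `P_χ`** of a `K`-embedding `χ : F →ₐ[K] Ω`. -/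
def genPlace [IsAlgClosed Ω] (h : IsConstExt K F Ω FΩ) {x : F} (hF : IsFF1 K F x)
    (χ : F →ₐ[K] Ω) : Place Ω FΩ :=
  Classical.choose (exists_place_val h hF χ)

theorem val_genPlace [IsAlgClosed Ω] (h : IsConstExt K F Ω FΩ) {x : F} (hF : IsFF1 K F x)
    (χ : F →ₐ[K] Ω) (f : F) : Val (genPlace h hF χ) (algebraMap F FΩ f) (χ f) :=
  Classical.choose_spec (exists_place_val h hF χ) f

theorem isGen_genPlace [IsAlgClosed Ω] (h : IsConstExt K F Ω FΩ) {x : F} (hF : IsFF1 K F x)
    (χ : F →ₐ[K] Ω) : IsGen F (genPlace h hF χ) :=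
  isGen_of_forall_val χ (val_genPlace h hF χ)

theorem valueMap_genPlace [IsAlgClosed Ω] (h : IsConstExt K F Ω FΩ) {x : F} (hF : IsFF1 K F x)
    {y : FΩ} (hΩ : IsFF1 Ω FΩ y) (χ : F →ₐ[K] Ω) :
    valueMap h hΩ (isGen_genPlace h hF χ) = χ := by
  ext f
  exact valueMap_eq_of_val h hΩ _ (val_genPlace h hF χ f)

theorem genPlace_injective [IsAlgClosed Ω] (h : IsConstExt K F Ω FΩ) {x : F}
    (hF : IsFF1 K F x) : Function.Injective (genPlace (FΩ := FΩ) h hF) := by
  intro χ χ' hχ
  ext f
  have h1 := val_genPlace h hF χ f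
  rw [hχ] at h1
  exact val_unique h1 (val_genPlace h hF χ' f)

/-- A place with the values of `χ` is `P_χ` (`F/K(x)` separable). -/
theorem eq_genPlace [IsAlgClosed Ω] (h : IsConstExt K F Ω FΩ) {x : F} (hF : IsFF1 K F x)
    [Algebra.IsSeparable K⟮x⟯ F] (χ : F →ₐ[K] Ω) {w : Place Ω FΩ}
    (hw : ∀ f : F, Val w (algebraMap F FΩ f) (χ f)) : w = genPlace h hF χ :=
  eq_of_forall_val h hF χ hw (val_genPlace h hF χ)

/-- A generic place is the generic place of its value map (`F/K(x)` separable). -/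
theorem eq_genPlace_valueMap [IsAlgClosed Ω] (h : IsConstExt K F Ω FΩ) {x : F}
    (hF : IsFF1 K F x) [Algebra.IsSeparable K⟮x⟯ F] {y : FΩ} (hΩ : IsFF1 Ω FΩ y)
    {w : Place Ω FΩ} (hw : IsGen F w) : w = genPlace h hF (valueMap h hΩ hw) :=
  eq_genPlace h hF _ (val_valueMap h hΩ hw)

/-- Every place over a value `t ∉ K` of `x` is the generic place of an embedding with
`χ x = t` (`F/K(x)` separable). -/
theorem exists_eq_genPlace [IsAlgClosed Ω] (h : IsConstExt K F Ω FΩ) {x : F}
    (hF : IsFF1 K F x) [Algebra.IsSeparable K⟮x⟯ F] {w : Place Ω FΩ} {t : Ω}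
    (ht : t ∉ (algebraMap K Ω).range) (hw : Val w (algebraMap F FΩ x) t) :
    ∃ χ : F →ₐ[K] Ω, χ x = t ∧ w = genPlace h hF χ := by
  have hΩ := Field.isFF1_map h hF
  have hgen := isGen_of_val h hF ht hw
  exact ⟨valueMap h hΩ hgen, valueMap_eq_of_val h hΩ hgen hw, eq_genPlace_valueMap h hF hΩ hgen⟩

/-- `σ • P_χ = P_{σ ∘ χ}` (`F/K(x)` separable). -/
theorem smul_genPlace [IsAlgClosed Ω] (h : IsConstExt K F Ω FΩ) {x : F} (hF : IsFF1 K F x)
    [Algebra.IsSeparable K⟮x⟯ F] (σ : Ω ≃ₐ[K] Ω) (χ : F →ₐ[K] Ω) :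
    IsConstExt.semilinearAut h σ • genPlace h hF χ =
      genPlace h hF ((σ : Ω →ₐ[K] Ω).comp χ) :=
  eq_genPlace h hF _ (fun f => val_smul_algebraMap h σ (val_genPlace h hF χ f))

end Fermat.Agent.S27P.BC.Generic
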