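/-
S27 / (BC) row 12, consumer form (helper81): the GENERIC TUPLE of the constant field extension and
its VALUE TABLE, in the shape consumed by `Gen.lift_key` (`hc`, `hc1`, `hcmul`, `hct`).

Setting: `h : IsConstExt K F Ω FΩ`, `hF : IsFF1 K F x`, `Ω` algebraically closed.

* `exists_isGeneric` : for every algebraically independent `t : Fin g → Ω` there is a generic
  tuple `P` of places of `FΩ` with `Val (P i) (algebraMap F FΩ x) (t i)`;
* `exists_valueMaps` : the places of a generic tuple have value maps `ι i : F →ₐ[K] Ω`,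
  `ι i x = t i`;
* `exists_table`     : for a family `b₀ : J → F` whose `K`-span is a subalgebra containing `x`,
  the table `c i j := ι i (b₀ j)` satisfies `hc`, `hc1`, `hcmul`, `hct` of `lift_key`.
-/
import Mathlib
import Fermat.Agent.S27P.BC.Generic

set_option autoImplicit false

noncomputable section

namespace Fermat.Agent.S27P.BC.GenericTable

open AlgebraicCurve
open Fermat.Agent.S27P.BC Fermat.Agent.Lib.FF Fermat.Agent.S27P.Gen Fermat.Agent.S27P.Gen.Values
open Fermat.Agent.S27P.BC.Generic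

universe u v w x

variable {K : Type u} {F : Type v} {Ω : Type w} {FΩ : Type x} [Field K] [Field F]
  [Field Ω] [Field FΩ] [Algebra K F] [Algebra K Ω] [Algebra F FΩ] [Algebra Ω FΩ]

/-- A transcendental element is not a constant. -/
theorem notMem_range_of_transcendental {t : Ω} (ht : Transcendental K t) :
    t ∉ (algebraMap K Ω).range := by
  rintro ⟨c, rfl⟩
  exact ht (isAlgebraic_algebraMap c)

/-- **Existence of generic tuples**: places of `FΩ` at which `x` takes prescribed algebraically
independent values. -/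
theorem exists_isGeneric [IsAlgClosed Ω] (h : IsConstExt K F Ω FΩ) {x : F} (hF : IsFF1 K F x)
    {g : ℕ} {t : Fin g → Ω} (ht : AlgebraicIndependent K t) :
    ∃ P : Fin g → Place Ω FΩ, IsGeneric K (algebraMap F FΩ x) P t := by
  have hΩ := Field.isFF1_map h hF
  have hex : ∀ i, ∃ P : Place Ω FΩ, Val P (algebraMap F FΩ x) (t i) := fun i =>
    exists_place_val hΩ (t i)
  choose P hP using hex
  exact ⟨P, ht, hP⟩

/-- The places of a generic tuple are generic places. -/
theorem isGen_of_isGeneric (h : IsConstExt K F Ω FΩ) {x : F} (hF : IsFF1 K F x) {g : ℕ}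
    {P : Fin g → Place Ω FΩ} {t : Fin g → Ω} (hP : IsGeneric K (algebraMap F FΩ x) P t)
    (i : Fin g) : IsGen F (P i) :=
  isGen_of_val h hF (notMem_range_of_transcendental (hP.1.transcendental i)) (hP.2 i)

/-- **The value maps of a generic tuple.** -/
theorem exists_valueMaps [IsAlgClosed Ω] (h : IsConstExt K F Ω FΩ) {x : F} (hF : IsFF1 K F x)
    {g : ℕ} {P : Fin g → Place Ω FΩ} {t : Fin g → Ω}
    (hP : IsGeneric K (algebraMap F FΩ x) P t) :
    ∃ ι : Fin g → (F →ₐ[K] Ω), (∀ i, ι i x = t i) ∧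
      ∀ (i : Fin g) (f : F), Val (P i) (algebraMap F FΩ f) (ι i f) := by
  have hΩ := Field.isFF1_map h hF
  refine ⟨fun i => valueMap h hΩ (isGen_of_isGeneric h hF hP i), fun i => ?_, fun i f => ?_⟩
  · exact valueMap_eq_of_val h hΩ _ (hP.2 i)
  · exact val_valueMap h hΩ _ f

/-- The image of a span under an algebra homomorphism. -/
theorem map_mem_span {J : Type*} (b₀ : J → F) (ι : F →ₐ[K] Ω) {f : F}
    (hf : f ∈ Submodule.span K (Set.range b₀)) :
    ι f ∈ Submodule.span K (Set.range fun j => ι (b₀ j)) := by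
  have h1 : ι f ∈ (Submodule.span K (Set.range b₀)).map ι.toLinearMap :=
    Submodule.mem_map_of_mem hf
  rw [Submodule.map_span, ← Set.range_comp] at h1
  exact h1

/-- **The value table of a generic tuple** on a family `b₀` whose `K`-span is a subalgebra of `F`
containing `x`: the hypotheses `hc`, `hc1`, `hcmul`, `hct` of `Gen.lift_key` for
`b j := algebraMap F FΩ (b₀ j)`. -/
theorem exists_table [IsAlgClosed Ω] (h : IsConstExt K F Ω FΩ) {x : F} (hF : IsFF1 K F x)
    {g : ℕ} {P : Fin g → Place Ω FΩ} {t : Fin g → Ω}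
    (hP : IsGeneric K (algebraMap F FΩ x) P t) {J : Type*} (b₀ : J → F)
    (hb1 : (1 : F) ∈ Submodule.span K (Set.range b₀))
    (hbmul : ∀ j j', b₀ j * b₀ j' ∈ Submodule.span K (Set.range b₀))
    (hbx : x ∈ Submodule.span K (Set.range b₀)) :
    ∃ c : Fin g → J → Ω,
      (∀ i j, Val (P i) (algebraMap F FΩ (b₀ j)) (c i j)) ∧
      (∀ i, (1 : Ω) ∈ Submodule.span K (Set.range (c i))) ∧
      (∀ i j j', c i j * c i j' ∈ Submodule.span K (Set.range (c i))) ∧
      (∀ i, t i ∈ Submodule.span K (Set.range (c i))) ∧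
      ∃ ι : Fin g → (F →ₐ[K] Ω), (∀ i, ι i x = t i) ∧ ∀ i j, c i j = ι i (b₀ j) := by
  obtain ⟨ι, hιx, hιv⟩ := exists_valueMaps h hF hP
  refine ⟨fun i j => ι i (b₀ j), fun i j => hιv i (b₀ j), fun i => ?_, fun i j j' => ?_,
    fun i => ?_, ι, hιx, fun i j => rfl⟩
  · have h1 := map_mem_span b₀ (ι i) hb1
    rwa [map_one] at h1
  · have h1 := map_mem_span b₀ (ι i) (hbmul j j')
    rwa [map_mul] at h1
  · have h1 := map_mem_span b₀ (ι i) hbx
    rwa [hιx i] at h1

end Fermat.Agent.S27P.BC.GenericTable
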