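/-
S27 / (BC-10): the two theorems of the constant-field-extension layer.

Setting: `K ⊆ Ω` algebraically closed fields (ANY characteristic), `F/K` a function field of one
variable in the setting `IsFF1 K F x`, `FΩ` a constant field extension (`IsConstExt K F Ω FΩ`).
With `bcPic h hres : Pic0 K F →+ Pic0 Ω FΩ` the base change of classes of `BcGauss.lean`:

* `finrank_riemannRochSpace_bcDivisor` : `dim_Ω L(D_Ω) = dim_K L(D)`;
* `genusFF_eq`                          : `genusFF Ω FΩ = genusFF K F`;
* `bcPic_injective`                     : `Pic0 K F → Pic0 Ω FΩ` is injective;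
* `isFF1`                               : `IsFF1 Ω FΩ (algebraMap F FΩ x)` (re-export).

Four independent universes.
-/
import Mathlib
import Fermat.Agent.S27P.BC.BcGauss
import Fermat.Agent.S27P.BC.RRSpace
import Fermat.Agent.S27P.BC.Field
import Fermat.Agent.S27P.BC.MainCore

set_option autoImplicit false

namespace Fermat.Agent.S27P.BC.Main

open AlgebraicCurve Fermat.Agent.Lib.FF

universe u v w x

variable {K : Type u} {F : Type v} {Ω : Type w} {FΩ : Type x} [Field K] [Field F]
  [Field Ω] [Field FΩ] [Algebra K F] [Algebra K Ω] [Algebra F FΩ] [Algebra Ω FΩ]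

/-- The constant field extension of a function field of one variable is one (re-export of
`Field.isFF1_map`). -/
theorem isFF1 [IsAlgClosed Ω] (h : IsConstExt K F Ω FΩ) {x : F} (hF : IsFF1 K F x) :
    IsFF1 Ω FΩ (algebraMap F FΩ x) :=
  Field.isFF1_map h hF

/-- **`dim_Ω L(D_Ω) = dim_K L(D)`.** -/
theorem finrank_riemannRochSpace_bcDivisor [IsAlgClosed K] [IsAlgClosed Ω]
    (h : IsConstExt K F Ω FΩ) {x : F} (hF : IsFF1 K F x)
    (hres : ∀ v : Place K F, RR.ResK v) (D : Divisor K F) :
    Module.finrank Ω (riemannRochSpace (BcGauss.bcDivisor h hres D)) =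
      Module.finrank K (riemannRochSpace D) :=
  RRSpace.finrank_riemannRochSpace_bcDiv h (BcGauss.isBcPlace h hres)
    (BcGauss.semilinearAut_smul_bcPlace h hres) D ((Field.isFF1_map h hF).finite_L _)

/-- **The genus is invariant under constant field extension.** -/
theorem genusFF_eq [IsAlgClosed K] [IsAlgClosed Ω] (h : IsConstExt K F Ω FΩ) {x : F}
    (hF : IsFF1 K F x) : genusFF Ω FΩ = genusFF K F :=
  MainCore.genusFF_eq_of_finrank hF (Field.isFF1_map h hF) (BcGauss.bcDivisor h hF.resK)
    (BcGauss.degree_bcDivisor h hF.resK) (finrank_riemannRochSpace_bcDivisor h hF hF.resK)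

/-- A divisor of degree zero of `F` which becomes principal in `FΩ` is principal. -/
theorem mem_principal_of_bcDivisor_mem_principal [IsAlgClosed K] [IsAlgClosed Ω]
    (h : IsConstExt K F Ω FΩ) {x : F} (hF : IsFF1 K F x) (hres : ∀ v : Place K F, RR.ResK v)
    (D : Divisor K F) (hD : Divisor.degree D = 0)
    (hp : BcGauss.bcDivisor h hres D ∈ Divisor.principal (K := Ω) (F := FΩ)) :
    D ∈ Divisor.principal (K := K) (F := F) :=
  MainCore.mem_principal_of_bc_mem_principal hF (Field.isFF1_map h hF)
    (BcGauss.bcDivisor h hres) (finrank_riemannRochSpace_bcDivisor h hF hres) D hD hp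

/-- **The base change `Pic0 K F → Pic0 Ω FΩ` is injective.** -/
theorem bcPic_injective [IsAlgClosed K] [IsAlgClosed Ω] (h : IsConstExt K F Ω FΩ) {x : F}
    (hF : IsFF1 K F x) (hres : ∀ v : Place K F, RR.ResK v) :
    Function.Injective (BcGauss.bcPic h hres) := by
  rw [injective_iff_map_eq_zero]
  intro c hc
  obtain ⟨D, rfl⟩ := Pic0.mk_surjective c
  rw [BcGauss.bcPic_mk_eq_zero_iff] at hc
  have hprin := mem_principal_of_bcDivisor_mem_principal h hF hres (D : Divisor K F) D.2 hc
  show (QuotientAddGroup.mk D : Pic0 K F) = 0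
  rw [QuotientAddGroup.eq_zero_iff, AddSubgroup.mem_addSubgroupOf]
  exact hprin

/-- Torsion form: `bcPic c = 0 → c = 0`. -/
theorem eq_zero_of_bcPic_eq_zero [IsAlgClosed K] [IsAlgClosed Ω] (h : IsConstExt K F Ω FΩ)
    {x : F} (hF : IsFF1 K F x) (hres : ∀ v : Place K F, RR.ResK v) {c : Pic0 K F}
    (hc : BcGauss.bcPic h hres c = 0) : c = 0 :=
  bcPic_injective h hF hres (by rw [hc, map_zero])

end Fermat.Agent.S27P.BC.Main
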