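/-
S27 / (BC), row (BC-11) (helper73): towers of constant field extensions.

* `isConstExt_trans` : `IsConstExt K F M FM` + `IsConstExt M FM Ω FΩ` ⟹ `IsConstExt K F Ω FΩ`.
* `midField F M Ω FΩ : Subfield FΩ` : for fields `K ⊆ M ⊆ Ω`, the subfield of `FΩ` generated by
  `F` and `M` (the fractions of `M`-linear combinations of elements of `F`), with its
  `Algebra F`, `Algebra M` instances, and
  `isConstExt_midField_left  : IsConstExt K F M (midField F M Ω FΩ)`,
  `isConstExt_midField_right : IsConstExt M (midField F M Ω FΩ) Ω FΩ`.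

Mathlib + `S27P/BC/Defs` only; characteristic-free; every type in its own universe.
-/
import Mathlib
import Fermat.Agent.S27P.BC.Defs

set_option autoImplicit false

noncomputable section

namespace Fermat.Agent.S27P.BC.Tower

open Fermat.Agent.S27P.BC

universe u v w x y z

/-! ### The span of the image of a ring in an algebra -/

section SpanRange

variable {F : Type v} {Ω : Type w} {FΩ : Type x} [CommRing F] [CommRing Ω] [CommRing FΩ]
  [Algebra F FΩ] [Algebra Ω FΩ]

/-- The `Ω`-span of the image of `F` is closed under multiplication. -/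
theorem mul_mem_spanRange {a b : FΩ}
    (ha : a ∈ Submodule.span Ω (Set.range (algebraMap F FΩ)))
    (hb : b ∈ Submodule.span Ω (Set.range (algebraMap F FΩ))) :
    a * b ∈ Submodule.span Ω (Set.range (algebraMap F FΩ)) := by
  have h1 := Submodule.mul_mem_mul ha hb
  rw [Submodule.span_mul_span] at h1
  refine Submodule.span_mono ?_ h1
  rintro _ ⟨_, ⟨f, rfl⟩, _, ⟨g, rfl⟩, rfl⟩
  exact ⟨f * g, map_mul _ _ _⟩

theorem one_mem_spanRange : (1 : FΩ) ∈ Submodule.span Ω (Set.range (algebraMap F FΩ)) :=
  Submodule.subset_span ⟨1, map_one _⟩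

theorem algebraMap_mem_spanRange (f : F) :
    algebraMap F FΩ f ∈ Submodule.span Ω (Set.range (algebraMap F FΩ)) :=
  Submodule.subset_span ⟨f, rfl⟩

theorem algebraMap_right_mem_spanRange (c : Ω) :
    algebraMap Ω FΩ c ∈ Submodule.span Ω (Set.range (algebraMap F FΩ)) := by
  have h := Submodule.smul_mem _ c (one_mem_spanRange (F := F) (Ω := Ω) (FΩ := FΩ))
  rwa [Algebra.smul_def, mul_one] at h

/-- Two elements of the span are combinations of one finite family. -/
theorem exists_common_of_mem_spanRange {a b : FΩ}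
    (ha : a ∈ Submodule.span Ω (Set.range (algebraMap F FΩ)))
    (hb : b ∈ Submodule.span Ω (Set.range (algebraMap F FΩ))) :
    ∃ (n : ℕ) (f : Fin n → F) (c d : Fin n → Ω),
      a = ∑ i, c i • algebraMap F FΩ (f i) ∧ b = ∑ i, d i • algebraMap F FΩ (f i) := by
  classical
  obtain ⟨ca, rfl⟩ := Finsupp.mem_span_range_iff_exists_finsupp.1 ha
  obtain ⟨cb, rfl⟩ := Finsupp.mem_span_range_iff_exists_finsupp.1 hb
  let s : Finset F := ca.support ∪ cb.support
  let e := s.equivFin
  refine ⟨s.card, fun k => ((e.symm k : s) : F), fun k => ca (e.symm k), fun k => cb (e.symm k),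
    ?_, ?_⟩
  · rw [Finsupp.sum_of_support_subset ca (Finset.subset_union_left (s₂ := cb.support)) _
      (fun _ _ => by simp)]
    rw [← Finset.sum_coe_sort s]
    exact (Equiv.sum_comp e.symm (fun i : s => ca i • algebraMap F FΩ (i : F))).symm
  · rw [Finsupp.sum_of_support_subset cb (Finset.subset_union_right (s₁ := ca.support)) _
      (fun _ _ => by simp)]
    rw [← Finset.sum_coe_sort s]
    exact (Equiv.sum_comp e.symm (fun i : s => cb i • algebraMap F FΩ (i : F))).symm

theorem sum_smul_mem_spanRange {n : ℕ} (f : Fin n → F) (c : Fin n → Ω) :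
    ∑ i, c i • algebraMap F FΩ (f i) ∈ Submodule.span Ω (Set.range (algebraMap F FΩ)) :=
  Submodule.sum_mem _ fun _ _ => Submodule.smul_mem _ _ (algebraMap_mem_spanRange _)

end SpanRange

/-! ### `frac` from fractions of the span -/

section Frac

variable {K : Type u} {F : Type v} {Ω : Type w} {FΩ : Type x} [Field K] [Field F]
  [Field Ω] [Field FΩ] [Algebra K F] [Algebra K Ω] [Algebra F FΩ] [Algebra Ω FΩ]

/-- The `frac` field of `IsConstExt` from its span form. -/
theorem frac_of_exists_div
    (hdiv : ∀ z : FΩ, ∃ a ∈ Submodule.span Ω (Set.range (algebraMap F FΩ)),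
      ∃ b ∈ Submodule.span Ω (Set.range (algebraMap F FΩ)), b ≠ 0 ∧ z * b = a) (z : FΩ) :
    ∃ (n : ℕ) (f : Fin n → F) (c d : Fin n → Ω),
      (∑ i, d i • algebraMap F FΩ (f i)) ≠ 0 ∧
        z * (∑ i, d i • algebraMap F FΩ (f i)) = ∑ i, c i • algebraMap F FΩ (f i) := by
  obtain ⟨a, ha, b, hb, hb0, e⟩ := hdiv z
  obtain ⟨n, f, c, d, rfl, rfl⟩ := exists_common_of_mem_spanRange ha hb
  exact ⟨n, f, c, d, hb0, e⟩

/-- `IsConstExt` from the three properties, with `frac` in span form. -/
theorem isConstExt_of_exists_div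
    (hcomm : ∀ a : K, algebraMap F FΩ (algebraMap K F a) = algebraMap Ω FΩ (algebraMap K Ω a))
    (hindep : ∀ (n : ℕ) (b : Fin n → F), LinearIndependent K b →
      LinearIndependent Ω (fun i => algebraMap F FΩ (b i)))
    (hdiv : ∀ z : FΩ, ∃ a ∈ Submodule.span Ω (Set.range (algebraMap F FΩ)),
      ∃ b ∈ Submodule.span Ω (Set.range (algebraMap F FΩ)), b ≠ 0 ∧ z * b = a) :
    IsConstExt K F Ω FΩ :=
  ⟨hcomm, hindep, frac_of_exists_div hdiv⟩

end Frac

/-! ### Transitivity -/

section Trans

variable {K : Type u} {F : Type v} {M : Type w} {FM : Type x} {Ω : Type y} {FΩ : Type z}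
  [Field K] [Field F] [Field M] [Field FM] [Field Ω] [Field FΩ]
  [Algebra K F] [Algebra K M] [Algebra F FM] [Algebra M FM]
  [Algebra K Ω] [Algebra M Ω] [IsScalarTower K M Ω]
  [Algebra F FΩ] [Algebra FM FΩ] [IsScalarTower F FM FΩ] [Algebra Ω FΩ]

/-- The `M`-span of `F` in `FM` maps into the `Ω`-span of `F` in `FΩ`. -/
theorem algebraMap_mem_spanRange_of_mem
    (hcomm : ∀ m : M, algebraMap FM FΩ (algebraMap M FM m) = algebraMap Ω FΩ (algebraMap M Ω m))
    {y : FM} (hy : y ∈ Submodule.span M (Set.range (algebraMap F FM))) :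
    algebraMap FM FΩ y ∈ Submodule.span Ω (Set.range (algebraMap F FΩ)) := by
  induction hy using Submodule.span_induction with
  | mem y hy =>
    obtain ⟨f, rfl⟩ := hy
    rw [← IsScalarTower.algebraMap_apply F FM FΩ f]
    exact algebraMap_mem_spanRange f
  | zero => rw [map_zero]; exact Submodule.zero_mem _
  | add y y' _ _ hy hy' => rw [map_add]; exact Submodule.add_mem _ hy hy'
  | smul m y _ hy =>
    rw [Algebra.smul_def, map_mul, hcomm, ← Algebra.smul_def]
    exact Submodule.smul_mem _ _ hy

/-- **Transitivity of constant field extensions**: for fields `K ⊆ M ⊆ Ω`, if `FM` is the constant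
field extension of `F/K` to `M` and `FΩ` the constant field extension of `FM/M` to `Ω`, then
`FΩ` is the constant field extension of `F/K` to `Ω`. -/
theorem isConstExt_trans (h₁ : IsConstExt K F M FM) (h₂ : IsConstExt M FM Ω FΩ) :
    IsConstExt K F Ω FΩ := by
  refine isConstExt_of_exists_div ?_ ?_ ?_
  · intro a
    rw [IsScalarTower.algebraMap_apply F FM FΩ, h₁.comm a, h₂.comm,
      ← IsScalarTower.algebraMap_apply K M Ω]
  · intro n b hb
    have h := h₂.indep n _ (h₁.indep n b hb)
    have e : (fun i => algebraMap FM FΩ (algebraMap F FM (b i))) =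
        fun i => algebraMap F FΩ (b i) := by
      funext i
      rw [← IsScalarTower.algebraMap_apply F FM FΩ]
    rwa [e] at h
  · -- every element of the big span is a fraction of elements of the small span
    have key : ∀ a ∈ Submodule.span Ω (Set.range (algebraMap FM FΩ)),
        ∃ s ∈ Submodule.span Ω (Set.range (algebraMap F FΩ)), s ≠ 0 ∧
          a * s ∈ Submodule.span Ω (Set.range (algebraMap F FΩ)) := by
      intro a ha
      induction ha using Submodule.span_induction with
      | mem a ha =>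
        obtain ⟨y, rfl⟩ := ha
        obtain ⟨a₁, ha₁, b₁, hb₁, hb0, e⟩ := h₁.exists_div y
        refine ⟨algebraMap FM FΩ b₁, algebraMap_mem_spanRange_of_mem h₂.comm hb₁,
          fun h0 => hb0 ((map_eq_zero _).1 h0), ?_⟩
        rw [← map_mul, e]
        exact algebraMap_mem_spanRange_of_mem h₂.comm ha₁
      | zero => exact ⟨1, one_mem_spanRange, one_ne_zero, by rw [zero_mul]; exact Submodule.zero_mem _⟩
      | add a a' _ _ ha ha' =>
        obtain ⟨s, hs, hs0, has⟩ := ha
        obtain ⟨s', hs', hs0', has'⟩ := ha'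
        refine ⟨s * s', mul_mem_spanRange hs hs', mul_ne_zero hs0 hs0', ?_⟩
        have e : (a + a') * (s * s') = a * s * s' + a' * s' * s := by ring
        rw [e]
        exact Submodule.add_mem _ (mul_mem_spanRange has hs') (mul_mem_spanRange has' hs)
      | smul c a _ ha =>
        obtain ⟨s, hs, hs0, has⟩ := ha
        refine ⟨s, hs, hs0, ?_⟩
        rw [smul_mul_assoc]
        exact Submodule.smul_mem _ _ has
    intro z
    obtain ⟨a, ha, b, hb, hb0, e⟩ := h₂.exists_div z
    obtain ⟨s, hs, hs0, has⟩ := key a ha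
    obtain ⟨t, ht, ht0, hbt⟩ := key b hb
    refine ⟨a * s * t, mul_mem_spanRange has ht, b * t * s, mul_mem_spanRange hbt hs,
      mul_ne_zero (mul_ne_zero hb0 ht0) hs0, ?_⟩
    rw [← e]
    ring

/-- Dot-notation alias of `isConstExt_trans`. -/
theorem IsConstExt.trans (h₁ : IsConstExt K F M FM) (h₂ : IsConstExt M FM Ω FΩ) :
    IsConstExt K F Ω FΩ :=
  isConstExt_trans h₁ h₂

end Trans

/-! ### The intermediate field `F·M ⊆ FΩ` -/

section Mid

variable (F : Type v) (M : Type w) (Ω : Type y) (FΩ : Type z)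
  [Field F] [Field M] [Field Ω] [Field FΩ] [Algebra M Ω] [Algebra F FΩ] [Algebra Ω FΩ]

/-- `FΩ` as an `M`-algebra through `Ω` (a definition, NOT an instance). -/
@[reducible] def algMid : Algebra M FΩ :=
  ((algebraMap Ω FΩ).comp (algebraMap M Ω)).toAlgebra

/-- The ring of `M`-linear combinations of elements of `F` inside `FΩ` (the image of
`F ⊗[K] M`). -/
def midRing : Subring FΩ :=
  letI := algMid M Ω FΩ
  { carrier := (Submodule.span M (Set.range (algebraMap F FΩ)) : Set FΩ)
    mul_mem' := fun ha hb => mul_mem_spanRange ha hb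
    one_mem' := one_mem_spanRange
    add_mem' := fun ha hb => Submodule.add_mem _ ha hb
    zero_mem' := Submodule.zero_mem _
    neg_mem' := fun ha => Submodule.neg_mem _ ha }

/-- **The intermediate field** `F·M`: the subfield of `FΩ` of fractions of `M`-linear
combinations of elements of `F`; it is the subfield generated by `F` and `M`
(`midField_eq_closure`). -/
def midField : Subfield FΩ where
  carrier := {z | ∃ a ∈ midRing F M Ω FΩ, ∃ b ∈ midRing F M Ω FΩ, b ≠ 0 ∧ z * b = a}
  mul_mem' := by
    rintro z z' ⟨a, ha, b, hb, hb0, e⟩ ⟨a', ha', b', hb', hb0', e'⟩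
    refine ⟨a * a', mul_mem ha ha', b * b', mul_mem hb hb', mul_ne_zero hb0 hb0', ?_⟩
    rw [← e, ← e']
    ring
  one_mem' := ⟨1, one_mem _, 1, one_mem _, one_ne_zero, mul_one 1⟩
  add_mem' := by
    rintro z z' ⟨a, ha, b, hb, hb0, e⟩ ⟨a', ha', b', hb', hb0', e'⟩
    refine ⟨a * b' + a' * b, add_mem (mul_mem ha hb') (mul_mem ha' hb), b * b', mul_mem hb hb',
      mul_ne_zero hb0 hb0', ?_⟩
    rw [← e, ← e']
    ring
  zero_mem' := ⟨0, zero_mem _, 1, one_mem _, one_ne_zero, zero_mul 1⟩
  neg_mem' := by
    rintro z ⟨a, ha, b, hb, hb0, e⟩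
    exact ⟨-a, neg_mem ha, b, hb, hb0, by rw [← e, neg_mul]⟩
  inv_mem' := by
    rintro z ⟨a, ha, b, hb, hb0, e⟩
    by_cases hz : z = 0
    · subst hz
      exact ⟨0, zero_mem _, 1, one_mem _, one_ne_zero, by rw [inv_zero, zero_mul]⟩
    · refine ⟨b, hb, a, ha, ?_, ?_⟩
      · rw [← e]
        exact mul_ne_zero hz hb0
      · rw [← e, ← mul_assoc, inv_mul_cancel₀ hz, one_mul]

variable {F M Ω FΩ}

theorem mem_midRing_iff {a : FΩ} :
    a ∈ midRing F M Ω FΩ ↔
      a ∈ @Submodule.span M FΩ _ _ (algMid M Ω FΩ).toModule (Set.range (algebraMap F FΩ)) :=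
  Iff.rfl

theorem mem_midField_iff {z : FΩ} :
    z ∈ midField F M Ω FΩ ↔
      ∃ a ∈ midRing F M Ω FΩ, ∃ b ∈ midRing F M Ω FΩ, b ≠ 0 ∧ z * b = a :=
  Iff.rfl

theorem algebraMap_mem_midRing (f : F) : algebraMap F FΩ f ∈ midRing F M Ω FΩ :=
  letI := algMid M Ω FΩ
  algebraMap_mem_spanRange (Ω := M) f

theorem algebraMap_right_mem_midRing (m : M) :
    algebraMap Ω FΩ (algebraMap M Ω m) ∈ midRing F M Ω FΩ :=
  letI := algMid M Ω FΩ
  algebraMap_right_mem_spanRange (F := F) (Ω := M) (FΩ := FΩ) m

theorem midRing_le_midField {a : FΩ} (ha : a ∈ midRing F M Ω FΩ) : a ∈ midField F M Ω FΩ :=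
  ⟨a, ha, 1, one_mem _, one_ne_zero, mul_one a⟩

theorem algebraMap_mem_midField (f : F) : algebraMap F FΩ f ∈ midField F M Ω FΩ :=
  midRing_le_midField (algebraMap_mem_midRing f)

theorem algebraMap_right_mem_midField (m : M) :
    algebraMap Ω FΩ (algebraMap M Ω m) ∈ midField F M Ω FΩ :=
  midRing_le_midField (algebraMap_right_mem_midRing m)

/-- Elements of `midRing` are finite `M`-linear combinations of elements of `F`. -/
theorem exists_sum_of_mem_midRing {a b : FΩ} (ha : a ∈ midRing F M Ω FΩ)
    (hb : b ∈ midRing F M Ω FΩ) :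
    ∃ (n : ℕ) (f : Fin n → F) (c d : Fin n → M),
      a = ∑ i, algebraMap Ω FΩ (algebraMap M Ω (c i)) * algebraMap F FΩ (f i) ∧
      b = ∑ i, algebraMap Ω FΩ (algebraMap M Ω (d i)) * algebraMap F FΩ (f i) := by
  let _ := algMid M Ω FΩ
  obtain ⟨n, f, c, d, h1, h2⟩ := exists_common_of_mem_spanRange (Ω := M) ha hb
  exact ⟨n, f, c, d, h1, h2⟩

theorem sum_mem_midRing {n : ℕ} (f : Fin n → F) (c : Fin n → M) :
    ∑ i, algebraMap Ω FΩ (algebraMap M Ω (c i)) * algebraMap F FΩ (f i) ∈ midRing F M Ω FΩ :=
  sum_mem fun _ _ => mul_mem (algebraMap_right_mem_midRing _) (algebraMap_mem_midRing _)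

/-- A ring endomorphism of `FΩ` fixing `F` and `M` pointwise fixes `midField` pointwise. -/
theorem map_eq_of_mem_midField (φ : FΩ →+* FΩ) (hF : ∀ f : F, φ (algebraMap F FΩ f) = algebraMap F FΩ f)
    (hM : ∀ m : M, φ (algebraMap Ω FΩ (algebraMap M Ω m)) = algebraMap Ω FΩ (algebraMap M Ω m))
    {z : FΩ} (hz : z ∈ midField F M Ω FΩ) : φ z = z := by
  have hR : ∀ a ∈ midRing F M Ω FΩ, φ a = a := by
    intro a ha
    obtain ⟨n, f, c, -, rfl, -⟩ := exists_sum_of_mem_midRing ha ha
    rw [map_sum]
    exact Finset.sum_congr rfl fun i _ => by rw [map_mul, hF, hM]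
  obtain ⟨a, ha, b, hb, hb0, e⟩ := hz
  have h1 : φ z * b = z * b := by
    rw [e, ← hR a ha, ← e, map_mul, hR b hb]
  exact mul_right_cancel₀ hb0 h1

/-- `midField` is the subfield of `FΩ` generated by the images of `F` and `M`. -/
theorem midField_eq_closure :
    midField F M Ω FΩ = Subfield.closure
      (Set.range (algebraMap F FΩ) ∪ Set.range ((algebraMap Ω FΩ).comp (algebraMap M Ω))) := by
  apply le_antisymm
  · intro z hz
    have hR : ∀ a ∈ midRing F M Ω FΩ, a ∈ Subfield.closure
        (Set.range (algebraMap F FΩ) ∪ Set.range ((algebraMap Ω FΩ).comp (algebraMap M Ω))) := by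
      intro a ha
      obtain ⟨n, f, c, -, rfl, -⟩ := exists_sum_of_mem_midRing ha ha
      refine sum_mem fun i _ => mul_mem ?_ ?_
      · exact Subfield.subset_closure (Or.inr ⟨c i, rfl⟩)
      · exact Subfield.subset_closure (Or.inl ⟨f i, rfl⟩)
    obtain ⟨a, ha, b, hb, hb0, e⟩ := hz
    have e' : z = a / b := by rw [← e, mul_div_cancel_right₀ _ hb0]
    rw [e']
    exact div_mem (hR a ha) (hR b hb)
  · rw [Subfield.closure_le]
    rintro _ (⟨f, rfl⟩ | ⟨m, rfl⟩)
    · exact algebraMap_mem_midField f
    · exact algebraMap_right_mem_midField m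

/-! #### The algebra structures of `midField` -/

instance instAlgebraLeftMidField : Algebra F (midField F M Ω FΩ) :=
  ((algebraMap F FΩ).codRestrict (midField F M Ω FΩ) algebraMap_mem_midField).toAlgebra

instance instAlgebraRightMidField : Algebra M (midField F M Ω FΩ) :=
  (((algebraMap Ω FΩ).comp (algebraMap M Ω)).codRestrict (midField F M Ω FΩ)
    algebraMap_right_mem_midField).toAlgebra

@[simp] theorem coe_algebraMap_left (f : F) :
    ((algebraMap F (midField F M Ω FΩ) f : midField F M Ω FΩ) : FΩ) = algebraMap F FΩ f :=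
  rfl

@[simp] theorem coe_algebraMap_right (m : M) :
    ((algebraMap M (midField F M Ω FΩ) m : midField F M Ω FΩ) : FΩ) =
      algebraMap Ω FΩ (algebraMap M Ω m) :=
  rfl

theorem algebraMap_midField_apply (y : midField F M Ω FΩ) :
    algebraMap (midField F M Ω FΩ) FΩ y = (y : FΩ) :=
  rfl

instance instIsScalarTowerMidField : IsScalarTower F (midField F M Ω FΩ) FΩ :=
  IsScalarTower.of_algebraMap_eq fun _ => rfl

theorem coe_smul_right (m : M) (y : midField F M Ω FΩ) :
    ((m • y : midField F M Ω FΩ) : FΩ) = algebraMap Ω FΩ (algebraMap M Ω m) * (y : FΩ) := by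
  rw [Algebra.smul_def]
  rfl

theorem coe_sum_smul_right {n : ℕ} (c : Fin n → M) (y : Fin n → midField F M Ω FΩ) :
    ((∑ i, c i • y i : midField F M Ω FΩ) : FΩ) =
      ∑ i, algebraMap Ω FΩ (algebraMap M Ω (c i)) * (y i : FΩ) := by
  rw [AddSubmonoidClass.coe_finsetSum]
  exact Finset.sum_congr rfl fun i _ => coe_smul_right _ _

end Mid

/-! ### The two constant field extensions of the tower -/

section MidConstExt

variable {K : Type u} {F : Type v} {M : Type w} {Ω : Type y} {FΩ : Type z}
  [Field K] [Field F] [Field M] [Field Ω] [Field FΩ]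
  [Algebra K F] [Algebra K M] [Algebra K Ω] [Algebra M Ω] [IsScalarTower K M Ω]
  [Algebra F FΩ] [Algebra Ω FΩ]

/-- **Lower step of the tower**: `F·M` is the constant field extension of `F/K` to `M`. -/
theorem isConstExt_midField_left (h : IsConstExt K F Ω FΩ) :
    IsConstExt K F M (midField F M Ω FΩ) := by
  refine ⟨?_, ?_, ?_⟩
  · intro a
    apply Subtype.ext
    rw [coe_algebraMap_left, coe_algebraMap_right, h.comm, ← IsScalarTower.algebraMap_apply K M Ω]
  · intro n b hb
    rw [Fintype.linearIndependent_iff]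
    intro g hg i
    have h1 := congrArg (Subtype.val) hg
    rw [coe_sum_smul_right, ZeroMemClass.coe_zero] at h1
    have h2 : ∑ j, algebraMap M Ω (g j) • algebraMap F FΩ (b j) = 0 := by
      refine Eq.trans ?_ h1
      exact Finset.sum_congr rfl fun j _ => by rw [Algebra.smul_def]; rfl
    have h3 := Fintype.linearIndependent_iff.1 (h.indep n b hb) _ h2 i
    exact (map_eq_zero _).1 h3
  · intro z
    obtain ⟨a, ha, b, hb, hb0, e⟩ := z.2
    obtain ⟨n, f, c, d, rfl, rfl⟩ := exists_sum_of_mem_midRing ha hb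
    refine ⟨n, f, c, d, ?_, ?_⟩
    · intro h0
      apply hb0
      have h1 := congrArg (Subtype.val) h0
      rw [coe_sum_smul_right, ZeroMemClass.coe_zero] at h1
      exact h1
    · apply Subtype.ext
      rw [Subfield.coe_mul, coe_sum_smul_right, coe_sum_smul_right]
      exact e

/-- **Upper step of the tower**: `FΩ` is the constant field extension of `F·M/M` to `Ω`. -/
theorem isConstExt_midField_right (h : IsConstExt K F Ω FΩ) :
    IsConstExt M (midField F M Ω FΩ) Ω FΩ := by
  classical
  refine ⟨fun m => rfl, ?_, ?_⟩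
  · intro n b hb
    let _ : Algebra M FΩ := algMid M Ω FΩ
    have : IsScalarTower M Ω FΩ := IsScalarTower.of_algebraMap_eq fun _ => rfl
    -- a `K`-basis of `F`, `Ω`-independent in `FΩ`
    let e := Module.Basis.ofVectorSpace K F
    let E : Module.Basis.ofVectorSpaceIndex K F → FΩ := fun l => algebraMap F FΩ (e l)
    have hE : LinearIndependent Ω E := h.linearIndependent e.linearIndependent
    -- `midRing` is inside the `M`-span of `E`
    have hR : ∀ a ∈ midRing F M Ω FΩ, a ∈ Submodule.span M (Set.range E) := by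
      intro a ha
      refine Submodule.span_le.2 ?_ ha
      rintro _ ⟨f, rfl⟩
      have hf : algebraMap F FΩ f =
          ∑ l ∈ (e.repr f).support, algebraMap K M (e.repr f l) • E l := by
        conv_lhs => rw [← e.linearCombination_repr f, Finsupp.linearCombination_apply,
          Finsupp.sum, map_sum]
        refine Finset.sum_congr rfl fun l _ => ?_
        rw [Algebra.smul_def, map_mul, h.comm, IsScalarTower.algebraMap_apply K M Ω]
        rfl
      rw [SetLike.mem_coe, hf]
      exact Submodule.sum_mem _ fun l _ => Submodule.smul_mem _ _ (Submodule.subset_span ⟨l, rfl⟩)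
    rw [Fintype.linearIndependent_iff]
    intro g hg i₀
    -- common denominator
    choose a ha s hs hs0 hbs using fun i => (b i).2
    set S : FΩ := ∏ i, s i with hS
    have hS0 : S ≠ 0 := Finset.prod_ne_zero_iff.2 fun i _ => hs0 i
    have hA : ∀ i, (b i : FΩ) * S ∈ midRing F M Ω FΩ := fun i => by
      have e1 : (b i : FΩ) * S = a i * ∏ j ∈ Finset.univ.erase i, s j := by
        rw [← hbs i, mul_assoc, Finset.mul_prod_erase _ _ (Finset.mem_univ i)]
      rw [e1]
      exact mul_mem (ha i) (prod_mem fun j _ => hs j)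
    -- coordinates
    choose m hm using fun i => Finsupp.mem_span_range_iff_exists_finsupp.1 (hR _ (hA i))
    have hmM : ∀ i, Finsupp.linearCombination M E (m i) = (b i : FΩ) * S := fun i => by
      rw [Finsupp.linearCombination_apply]
      exact hm i
    have hmΩ : ∀ i, Finsupp.linearCombination Ω E
        (Finsupp.mapRange (algebraMap M Ω) (map_zero _) (m i)) = (b i : FΩ) * S := fun i => by
      rw [← hmM i, Finsupp.linearCombination_apply, Finsupp.linearCombination_apply,
        Finsupp.sum_mapRange_index (fun l => by rw [zero_smul])]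
      exact Finsupp.sum_congr fun l _ => by rw [algebraMap_smul]
    -- the relation, in coordinates
    have h0 : ∑ i, g i • ((b i : FΩ) * S) = 0 := by
      have : ∑ i, g i • ((b i : FΩ) * S) = (∑ i, g i • algebraMap (midField F M Ω FΩ) FΩ (b i)) * S := by
        rw [Finset.sum_mul]
        exact Finset.sum_congr rfl fun i _ => by rw [smul_mul_assoc]; rfl
      rw [this, hg, zero_mul]
    have h1 : ∑ i, g i • Finsupp.mapRange (algebraMap M Ω) (map_zero _) (m i) = 0 := by
      apply hE
      rw [map_sum, map_zero]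
      refine Eq.trans ?_ h0
      exact Finset.sum_congr rfl fun i _ => by rw [map_smul, hmΩ i]
    have h2 : ∀ l, ∑ i, g i * algebraMap M Ω (m i l) = 0 := fun l => by
      have := DFunLike.congr_fun h1 l
      rw [Finsupp.finsetSum_apply, Finsupp.zero_apply] at this
      refine Eq.trans ?_ this
      exact Finset.sum_congr rfl fun i _ => by
        rw [Finsupp.smul_apply, Finsupp.mapRange_apply, smul_eq_mul]
    -- apply an `M`-linear functional of `Ω`
    refine (Module.forall_dual_apply_eq_zero_iff M (g i₀)).1 (fun θ => ?_)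
    have h3 : ∀ l, ∑ i, θ (g i) * m i l = 0 := fun l => by
      have := congrArg θ (h2 l)
      rw [map_sum, map_zero] at this
      refine Eq.trans ?_ this
      refine Finset.sum_congr rfl fun i _ => ?_
      rw [mul_comm (g i), ← Algebra.smul_def, map_smul, smul_eq_mul, mul_comm]
    have h4 : ∑ i, θ (g i) • m i = 0 := by
      ext l
      rw [Finsupp.finsetSum_apply, Finsupp.zero_apply]
      refine Eq.trans ?_ (h3 l)
      exact Finset.sum_congr rfl fun i _ => by rw [Finsupp.smul_apply, smul_eq_mul]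
    have h5 : ∑ i, θ (g i) • ((b i : FΩ) * S) = 0 := by
      have := congrArg (Finsupp.linearCombination M E) h4
      rw [map_sum, map_zero] at this
      refine Eq.trans ?_ this
      exact Finset.sum_congr rfl fun i _ => by rw [map_smul, hmM i]
    have h6 : (∑ i, θ (g i) • b i : midField F M Ω FΩ) = 0 := by
      apply Subtype.ext
      rw [coe_sum_smul_right, ZeroMemClass.coe_zero]
      have h7 : (∑ i, algebraMap Ω FΩ (algebraMap M Ω (θ (g i))) * (b i : FΩ)) * S = 0 := by
        refine Eq.trans ?_ h5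
        rw [Finset.sum_mul]
        exact Finset.sum_congr rfl fun i _ => by rw [Algebra.smul_def, mul_assoc]; rfl
      exact (mul_eq_zero.1 h7).resolve_right hS0
    exact Fintype.linearIndependent_iff.1 hb _ h6 i₀
  · intro z
    obtain ⟨n, f, c, d, hd, e⟩ := h.frac z
    exact ⟨n, fun i => algebraMap F (midField F M Ω FΩ) (f i), c, d, hd, e⟩

/-- The tower, packaged: for fields `K ⊆ M ⊆ Ω` there is a subfield `FM` of `FΩ` containing `F`
and `M` which is the constant field extension of `F/K` to `M`, and over which `FΩ` is the constant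
field extension to `Ω`. -/
theorem exists_intermediate (h : IsConstExt K F Ω FΩ) :
    IsConstExt K F M (midField F M Ω FΩ) ∧ IsConstExt M (midField F M Ω FΩ) Ω FΩ :=
  ⟨isConstExt_midField_left h, isConstExt_midField_right h⟩

end MidConstExt

end Fermat.Agent.S27P.BC.Tower
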